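import Fermat.Agent.Corollaries.WtOne.Lacunary
import Fermat.Agent.Corollaries.Ambi.Genus

/-!
# Almost all class numbers of quadratic fields are divisible by `2 ^ k`

`tendsto_two_pow_dvd_classNumber` : for every `k` the class numbers of `ℚ(√n)` and of `ℚ(√-n)` are
divisible by `2 ^ k` for all `n` outside a set of natural density `0`.

Almost every `n` has at least `k + 2` prime divisors with exponent one (`WtOne.tendsto_not_many`),
which ramify, and Gauss's genus theory (`Ambi.card_sq_eq_one`).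
-/

set_option autoImplicit false

noncomputable section

open Filter Topology NumberField
open Fermat.Agent.Cor.WtOne (Many tendsto_not_many not_summable_diff)

namespace Fermat.Agent.Cor.Div

section Field

variable {L : Type*} [Field L] [NumberField L]

/-- The number of the classes of order `≤ 2` divides the class number. -/
theorem card_sq_eq_one_dvd_classNumber :
    Nat.card {c : ClassGroup (𝓞 L) // c ^ 2 = 1} ∣ classNumber L := by
  have h1 : Nat.card {c : ClassGroup (𝓞 L) // c ^ 2 = 1} =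
      Nat.card (powMonoidHom 2 : ClassGroup (𝓞 L) →* ClassGroup (𝓞 L)).ker :=
    Nat.card_congr (Equiv.subtypeEquivRight fun c => by
      rw [MonoidHom.mem_ker, powMonoidHom_apply])
  rw [h1, classNumber, ← Nat.card_eq_fintype_card]
  exact Subgroup.card_subgroup_dvd_card _

/-- `2 ^ (t - 2)` divides the class number of a quadratic field, `t` the number of the primes
dividing its discriminant. -/
theorem two_pow_dvd_classNumber (h2 : Module.finrank ℚ L = 2) {k : ℕ}
    (hk : k + 2 ≤ (discr L).natAbs.primeFactors.card) : 2 ^ k ∣ classNumber L := by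
  refine Dvd.dvd.trans ?_ (card_sq_eq_one_dvd_classNumber (L := L))
  by_cases h : discr L < 0 ∨ ∀ q : ℕ, q.Prime → q % 4 = 3 → ¬ (q : ℤ) ∣ discr L
  · rw [Ambi.card_sq_eq_one h2 h]
    exact pow_dvd_pow 2 (by omega)
  · push Not at h
    obtain ⟨h3, q, hq, h4, hqd⟩ := h
    have hpos : 0 < discr L := lt_of_le_of_ne h3 (discr_ne_zero L).symm
    rw [Ambi.card_sq_eq_one_of_dvd h2 hpos hq h4 hqd]
    exact pow_dvd_pow 2 (by omega)

/-- An odd prime which divides `m` exactly once divides the discriminant of `ℚ(√m)`. -/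
theorem dvd_discr_of_exact (h2 : Module.finrank ℚ L = 2) {α : L} {m : ℤ} (hα : α ^ 2 = (m : L))
    {p : ℕ} (hp : p.Prime) (hp2 : p ≠ 2) (h : Exact p m.natAbs) : (p : ℤ) ∣ discr L := by
  have hpi : Prime (p : ℤ) := Nat.prime_iff_prime_int.mp hp
  have h1 : (p : ℤ) ∣ m := Int.natCast_dvd.mpr h.1
  have h3 : ¬ (p : ℤ) ^ 2 ∣ m := fun h4 => h.2 (by
    have h5 := Int.natAbs_dvd_natAbs.mpr h4
    rwa [Int.natAbs_pow, Int.natAbs_natCast] at h5)
  have hnr : α ∉ Set.range (algebraMap ℚ L) := by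
    rintro ⟨r, rfl⟩
    have h4 : r ^ 2 = (m : ℚ) := by
      apply (algebraMap ℚ L).injective
      rw [map_pow, hα, map_intCast]
    have h5 : IsSquare (m : ℚ) := ⟨r, by rw [← h4, pow_two]⟩
    rw [Rat.isSquare_intCast_iff] at h5
    obtain ⟨t, ht⟩ := h5
    have h6 : (p : ℤ) ∣ t := by
      rw [ht] at h1
      rcases hpi.dvd_or_dvd h1 with h7 | h7 <;> exact h7
    exact h3 (by rw [ht, pow_two]; exact mul_dvd_mul h6 h6)
  obtain ⟨c, hc, h4⟩ := Siegel.sq_mul_discr h2 hα hnr
  by_contra hd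
  have h5 : (p : ℤ) ∣ c ^ 2 * discr L := by
    rw [← h4]
    exact h1.mul_left _
  have h6 : (p : ℤ) ∣ c := hpi.dvd_of_dvd_pow ((hpi.dvd_or_dvd h5).resolve_right hd)
  have h7 : (p : ℤ) ^ 2 ∣ 4 * m := by
    rw [h4]
    exact (pow_dvd_pow_of_dvd h6 2).mul_right _
  refine h3 (IsCoprime.dvd_of_dvd_mul_left ?_ h7)
  have h8 : IsCoprime (p : ℤ) (2 : ℤ) := by
    have h9 : Nat.Coprime p 2 := (Nat.coprime_primes hp Nat.prime_two).mpr hp2
    exact_mod_cast Nat.isCoprime_iff_coprime.mpr h9
  have h9 : IsCoprime ((p : ℤ) ^ 2) ((2 : ℤ) ^ 2) := h8.pow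
  norm_num at h9 ⊢
  exact h9

/-- The class number of `ℚ(√±n)` is divisible by `2 ^ k` if `n` has `k + 2` odd prime divisors with
exponent one. -/
theorem two_pow_dvd_classNumber_of_many (h2 : Module.finrank ℚ L = 2) {n k : ℕ}
    (hn : Many (k + 2) ({p : ℕ | p.Prime} \ (({2} : Finset ℕ) : Set ℕ)) n) {α : L}
    (hα : α ^ 2 = (n : L) ∨ α ^ 2 = -(n : L)) : 2 ^ k ∣ classNumber L := by
  obtain ⟨T, hT, hTn⟩ := hn
  refine two_pow_dvd_classNumber h2 ?_
  rw [← hT]
  refine Finset.card_le_card fun p hp => ?_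
  obtain ⟨⟨hpp, hp2⟩, hex⟩ := hTn p hp
  have hpp' : p.Prime := hpp
  have hp2' : p ≠ 2 := fun h => hp2 (by simp [h])
  obtain ⟨m, hm, hmn⟩ : ∃ m : ℤ, α ^ 2 = (m : L) ∧ m.natAbs = n := by
    rcases hα with h | h
    · exact ⟨n, by rw [h, Int.cast_natCast], Int.natAbs_natCast n⟩
    · exact ⟨-n, by rw [h, Int.cast_neg, Int.cast_natCast], by
        rw [Int.natAbs_neg, Int.natAbs_natCast]⟩
  rw [Nat.mem_primeFactors]
  exact ⟨hpp', Int.natCast_dvd.mp (dvd_discr_of_exact h2 hm hpp' hp2' (by rwa [hmn])),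
    Int.natAbs_ne_zero.mpr (discr_ne_zero L)⟩

end Field

open scoped Classical in
/-- **Almost all class numbers of quadratic fields are divisible by `2 ^ k`**: for every `k` the class
numbers of `ℚ(√n)` and of `ℚ(√-n)` are divisible by `2 ^ k` for all `n` outside a set of natural
density `0`. -/
theorem tendsto_two_pow_dvd_classNumber (k : ℕ) :
    Tendsto (fun x : ℕ => (((Finset.range x).filter fun n : ℕ =>
      ∀ (L : Type) [Field L] [NumberField L], Module.finrank ℚ L = 2 →
        (∃ α : L, α ^ 2 = (n : L) ∨ α ^ 2 = -(n : L)) → 2 ^ k ∣ classNumber L).card : ℝ) / x)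
      atTop (𝓝 1) := by
  have hP : ¬ Summable fun p : {p : ℕ | p.Prime} => (1 : ℝ) / (p : ℕ) :=
    Nat.Primes.not_summable_one_div
  have h0 := tendsto_not_many (k + 2) (P := {p : ℕ | p.Prime} \ (({2} : Finset ℕ) : Set ℕ))
    (fun p hp => hp.1) (not_summable_diff hP {2})
  have h1 := tendsto_const_nhds (x := (1 : ℝ)) (f := (atTop : Filter ℕ)) |>.sub h0
  rw [sub_zero] at h1
  refine tendsto_of_tendsto_of_tendsto_of_le_of_le' h1 tendsto_const_nhds ?_ ?_
  · filter_upwards [eventually_gt_atTop 0] with x hx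
    have hx' : (0 : ℝ) < x := by exact_mod_cast hx
    rw [le_div_iff₀ hx', sub_mul, div_mul_cancel₀ _ hx'.ne', one_mul, sub_le_iff_le_add]
    set s : ℕ → Prop := fun n : ℕ =>
      ∀ (L : Type) [Field L] [NumberField L], Module.finrank ℚ L = 2 →
        (∃ α : L, α ^ 2 = (n : L) ∨ α ^ 2 = -(n : L)) → 2 ^ k ∣ classNumber L with hs
    have h2 : x ≤ ((Finset.range x).filter fun n => s n).card +
        ((Finset.range x).filter fun n =>
          ¬ Many (k + 2) ({p : ℕ | p.Prime} \ (({2} : Finset ℕ) : Set ℕ)) n).card := by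
      conv_lhs => rw [← Finset.card_range x]
      rw [← Finset.card_filter_add_card_filter_not (s := Finset.range x) (fun n => s n)]
      refine Nat.add_le_add_left (Finset.card_le_card fun n hn => ?_) _
      rw [Finset.mem_filter] at hn ⊢
      refine ⟨hn.1, fun hmany => hn.2 ?_⟩
      rintro L _ _ h2 ⟨α, hα⟩
      exact two_pow_dvd_classNumber_of_many h2 hmany hα
    have h3 := Nat.cast_le (α := ℝ).mpr h2
    rw [Nat.cast_add] at h3
    exact h3
  · refine Eventually.of_forall fun x => ?_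
    refine div_le_one_of_le₀ ?_ (Nat.cast_nonneg x)
    exact_mod_cast (Finset.card_filter_le _ _).trans (Finset.card_range x).le

end Fermat.Agent.Cor.Div

end
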