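import Fermat.Agent.Corollaries.Div.Frobenian
import Fermat.Agent.LTF.DeepCheb
import Fermat.Agent.EC.TateFrob

/-!
# The residues of `a_ℓ` of an elliptic curve over `ℚ`

`W` is a Weierstrass equation over `ℤ` with `Δ ≠ 0`, `m ≥ 1`. For every `a` the set of primes `ℓ`
with `a_ℓ ≡ a mod m` has a natural density (`tendsto_ap`), a rational number; it is positive if
`a ≡ 0`, if `a ≡ 2` and if `a ≡ a_ℓ` for one prime `ℓ` of good reduction not dividing `m`. The case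
`a ≡ 0`: if a Frobenius element `φ` at `ℓ` acts on `W[m]` and on `μ_m` as complex conjugation, then
`φ ^ 2 = 1` and `ℓ ≡ -1 mod m`, and the relation `φ ^ 2 - a_ℓ φ + ℓ = 0` says that `a_ℓ` kills
`W[m]`.
-/

set_option autoImplicit false

noncomputable section

open Filter Topology WeierstrassCurve WeierstrassCurve.Affine
open Fermat.Agent.FrobDensity Fermat.Agent.Frob

namespace Fermat.Agent.Cor.Div

/-- The points over `ℚ̄`. -/
abbrev Pts (W : WeierstrassCurve ℤ) : Type :=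
  ((W.map (Int.castRingHom ℚ))⁄(AlgebraicClosure ℚ)).Point

section Relation

variable {W : WeierstrassCurve ℤ} {ℓ : ℕ} [hℓ : Fact ℓ.Prime]
  {A : ValuationSubring (AlgebraicClosure ℚ)}

/-- **The relation of Frobenius on the torsion points of order prime to `ℓ`**. -/
theorem frob_relation (hW : W.IsGoodPrimeFor ℓ) (hA : A.LiesOverPrime ℓ) {φ : GQ}
    (hφ : A.IsFrobeniusAt φ ℓ) {m : ℕ} (hm : ¬ ℓ ∣ m) (P : Pts W) (hP : m • P = 0) :
    φ • φ • P - W.apOfModel ℓ • φ • P + ℓ • P = 0 := by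
  classical
  have hchar := ECRed.charP_residueField_of_liesOver hℓ.out hA
  let _ : Algebra (ZMod ℓ) (IsLocalRing.ResidueField A) := ZMod.algebra _ ℓ
  obtain ⟨e, he, -⟩ := ECRed.exists_redTorsionMod hW hA hm
  have := Tate.isElliptic_reductionMod hW
  set P' : Submodule.torsionBy ℤ (Pts W) m := ⟨P, (Torsion.mem_torsionBy_nat_iff m P).mpr hP⟩
    with hP'
  have h1 : e (φ • φ • P' - W.apOfModel ℓ • φ • P' + ℓ • P') = 0 := by
    rw [map_add, map_sub, map_zsmul, map_nsmul, he φ hφ, he φ hφ]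
    apply Subtype.ext
    have h2 := ECFrob.frob_charEq (W.reductionMod ℓ) (IsLocalRing.ResidueField A)
      (e P' : ((W.reductionMod ℓ)⁄(IsLocalRing.ResidueField A)).Point)
    rw [ZMod.card, natCast_zsmul] at h2
    exact h2
  have h3 := (LinearEquiv.map_eq_zero_iff e).mp h1
  exact congrArg Subtype.val h3

end Relation

/-! ### Automorphisms with a given trace on `W[m]` -/

/-- `σ ^ 2 - a σ + b = 0` on `W[m]` if `σ` raises the `m`-th roots of unity to the power `b`. -/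
def TrEq (W : WeierstrassCurve ℤ) (m : ℕ) (a : ℤ) (σ : GQ) : Prop :=
  ∀ b : ℕ, (∀ μ : AlgebraicClosure ℚ, μ ^ m = 1 → σ μ = μ ^ b) →
    ∀ P : Pts W, m • P = 0 → σ • σ • P - a • σ • P + b • P = 0

section Level

variable {W : WeierstrassCurve ℤ} (hΔ : W.Δ ≠ 0) {m : ℕ} (hm : m ≠ 0)

include hΔ in
lemma map_Δ_ne : (W.map (Int.castRingHom ℚ)).Δ ≠ 0 := by
  rw [WeierstrassCurve.map_Δ]
  simpa using hΔ

include hΔ hm in
/-- The field generated by the coordinates of the `m`-torsion points and the `m`-th roots of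
unity. -/
theorem exists_level : ∃ L : IntermediateField ℚ (AlgebraicClosure ℚ), FiniteDimensional ℚ L ∧
    ∀ σ : GQ, (∀ x ∈ L, σ x = x) → (∀ P : Pts W, m • P = 0 → σ • P = P) ∧
      ∀ μ : AlgebraicClosure ℚ, μ ^ m = 1 → σ μ = μ := by
  obtain ⟨L₁, hL₁, h1⟩ := Torsion.galoisRep_factors (map_Δ_ne hΔ) hm
  obtain ⟨L₂, hL₂, h2⟩ := exists_level_root hm
  refine ⟨L₁ ⊔ L₂, IntermediateField.finiteDimensional_sup L₁ L₂, fun σ hσ => ⟨fun P hP => ?_,
    h2 σ fun x hx => hσ x ((le_sup_right : L₂ ≤ L₁ ⊔ L₂) hx)⟩⟩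
  have h2 := h1 σ fun x hx => hσ x ((le_sup_left : L₁ ≤ L₁ ⊔ L₂) hx)
  have h3 := LinearMap.congr_fun h2 ⟨P, (Torsion.mem_torsionBy_nat_iff m P).mpr hP⟩
  exact congrArg Subtype.val h3

lemma smul_nsmul' (n : ℕ) (P : Pts W) (σ : GQ) : σ • (n • P) = n • (σ • P) :=
  map_nsmul (DistribSMul.toAddMonoidHom (Pts W) σ) n P

lemma smul_zsmul' (n : ℤ) (P : Pts W) (σ : GQ) : σ • (n • P) = n • (σ • P) :=
  map_zsmul (DistribSMul.toAddMonoidHom (Pts W) σ) n P

lemma smul_zero' (σ : GQ) : σ • (0 : Pts W) = 0 :=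
  map_zero (DistribSMul.toAddMonoidHom (Pts W) σ)

lemma smul_add' (P Q : Pts W) (σ : GQ) : σ • (P + Q) = σ • P + σ • Q :=
  map_add (DistribSMul.toAddMonoidHom (Pts W) σ) P Q

lemma smul_sub' (P Q : Pts W) (σ : GQ) : σ • (P - Q) = σ • P - σ • Q :=
  map_sub (DistribSMul.toAddMonoidHom (Pts W) σ) P Q

lemma nsmul_smul_eq_zero {P : Pts W} (hP : m • P = 0) (σ : GQ) : m • (σ • P) = 0 := by
  rw [← smul_nsmul', hP, smul_zero']

include hΔ hm in
theorem isLevel_trEq (a : ℤ) : IsLevel (TrEq W m a) := by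
  constructor
  · obtain ⟨L, hL, h⟩ := exists_level hΔ hm
    refine ⟨L, hL, fun σ τ hστ hσ b hb P hP => ?_⟩
    have h1 : ∀ x ∈ L, (τ⁻¹ * σ) x = x := fun x hx => by
      rw [AlgEquiv.mul_apply, hστ x hx, ← AlgEquiv.mul_apply, inv_mul_cancel, AlgEquiv.one_apply]
    obtain ⟨h2, h3⟩ := h _ h1
    have h4 : ∀ Q : Pts W, m • Q = 0 → σ • Q = τ • Q := fun Q hQ => by
      have := h2 Q hQ
      rw [mul_smul, inv_smul_eq_iff] at this
      exact this
    have h5 : ∀ μ : AlgebraicClosure ℚ, μ ^ m = 1 → σ μ = τ μ := fun μ hμ => by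
      have h6 := congrArg τ (h3 μ hμ)
      rw [← AlgEquiv.mul_apply, ← mul_assoc, mul_inv_cancel, one_mul] at h6
      exact h6
    have h6 := hσ b (fun μ hμ => by rw [h5 μ hμ, hb μ hμ]) P hP
    rw [h4 P hP, h4 _ (nsmul_smul_eq_zero hP τ)] at h6
    exact h6
  · intro σ τ hσ b hb P hP
    have h1 := hσ b (fun μ hμ => by
      have h2 := hb (τ μ) (by rw [← map_pow, hμ, map_one])
      rw [AlgEquiv.mul_apply, AlgEquiv.mul_apply] at h2
      have h3 : τ⁻¹ (τ μ) = μ := by rw [← AlgEquiv.mul_apply, inv_mul_cancel, AlgEquiv.one_apply]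
      rw [h3, ← map_pow] at h2
      exact τ.injective h2) (τ⁻¹ • P) (nsmul_smul_eq_zero hP _)
    have h2 : τ • (σ • σ • τ⁻¹ • P - a • σ • τ⁻¹ • P + b • τ⁻¹ • P) = 0 := by
      rw [h1, smul_zero']
    rw [smul_add', smul_sub', smul_nsmul', smul_zsmul', smul_inv_smul] at h2
    simp only [mul_smul, inv_smul_smul]
    exact h2

include hΔ hm in
/-- `a` kills `W[m]` only if `m ∣ a` -/
theorem dvd_of_smul_eq_zero {a : ℤ} (h : ∀ P : Pts W, m • P = 0 → a • P = 0) : (m : ℤ) ∣ a := by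
  have hΔ' := map_Δ_ne hΔ
  set d := Int.gcd m a with hd
  have hd0 : d ≠ 0 := Int.gcd_ne_zero_left (by exact_mod_cast hm)
  have hdm : d ∣ m := by
    have := Int.gcd_dvd_left (m : ℤ) a
    exact_mod_cast this
  have h1 : ∀ P : Pts W, m • P = 0 → d • P = 0 := by
    intro P hP
    have h2 : (d : ℤ) • P = 0 := by
      rw [hd, Int.gcd_eq_gcd_ab, add_zsmul, mul_comm, mul_zsmul, mul_comm a, mul_zsmul, h P hP,
        natCast_zsmul, hP, zsmul_zero, zsmul_zero, add_zero]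
    rwa [natCast_zsmul] at h2
  have h2 : m ^ 2 ≤ d ^ 2 := by
    have hm' := Torsion.card_torsionBy_rat hΔ' hm
    have hd' := Torsion.card_torsionBy_rat hΔ' hd0
    have hfin := Torsion.finite_torsionBy_rat hΔ' hd0
    rw [← hm', ← hd']
    refine Nat.card_le_card_of_injective (fun P => ⟨P.1, ?_⟩) ?_
    · exact (Torsion.mem_torsionBy_nat_iff d _).mpr
        (h1 P.1 ((Torsion.mem_torsionBy_nat_iff m _).mp P.2))
    · intro P Q hPQ
      exact Subtype.ext (congrArg (fun z => z.1) hPQ)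
  have h3 : m ≤ d := (Nat.pow_le_pow_iff_left two_ne_zero).mp h2
  have h4 : d = m := le_antisymm (Nat.le_of_dvd (Nat.pos_of_ne_zero hm) hdm) h3
  rw [← h4]
  exact Int.gcd_dvd_right (m : ℤ) a

lemma nsmul_congr {b b' : ℕ} (h : b ≡ b' [MOD m]) {P : Pts W} (hP : m • P = 0) :
    b • P = b' • P := by
  have h1 : ∀ c : ℕ, c • P = (c % m) • P := fun c => by
    conv_lhs => rw [← Nat.mod_add_div c m]
    rw [add_nsmul, mul_comm, mul_nsmul', hP, nsmul_zero, add_zero]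
  rw [h1 b, h1 b', h]

include hΔ hm in
/-- The residue of `a_ℓ` is decided by any Frobenius element at `ℓ`. -/
theorem trEq_iff {ℓ : ℕ} (hℓ : ℓ.Prime) (hgood : W.IsGoodPrimeFor ℓ) (hlm : ¬ ℓ ∣ m) (a : ℤ)
    {A : ValuationSubring (AlgebraicClosure ℚ)} (hA : A.LiesOverPrime ℓ) {φ : GQ}
    (hφ : A.IsFrobeniusAt φ ℓ) : (m : ℤ) ∣ W.apOfModel ℓ - a ↔ TrEq W m a φ := by
  have : Fact ℓ.Prime := ⟨hℓ⟩
  have hcop : Nat.Coprime ℓ m := (Nat.Prime.coprime_iff_not_dvd hℓ).mpr hlm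
  have hμ : ∀ μ : AlgebraicClosure ℚ, μ ^ m = 1 → φ μ = μ ^ ℓ := fun μ hμ =>
    GalRep.frobenius_rootOfUnity hA hcop hm hφ hμ
  constructor
  · rintro ⟨c, hc⟩ b hb P hP
    have h1 := frob_relation hgood hA hφ hlm P hP
    rw [nsmul_congr (modEq_of_pow hμ hb hm) hP] at h1
    have h2 : W.apOfModel ℓ • φ • P = a • φ • P := by
      rw [← sub_eq_zero, ← sub_smul, hc, mul_comm, mul_zsmul, natCast_zsmul,
        nsmul_smul_eq_zero hP, zsmul_zero]
    rwa [h2] at h1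
  · intro h
    refine dvd_of_smul_eq_zero hΔ hm fun P hP => ?_
    have hP' : m • (φ⁻¹ • P) = 0 := nsmul_smul_eq_zero hP _
    have h1 := frob_relation hgood hA hφ hlm (φ⁻¹ • P) hP'
    have h2 := h ℓ hμ (φ⁻¹ • P) hP'
    rw [smul_inv_smul] at h1 h2
    rw [sub_smul]
    have h3 := h2.trans h1.symm
    have h4 : a • P = W.apOfModel ℓ • P := by
      have h5 := add_right_cancel h3
      exact sub_right_injective h5
    rw [h4, sub_self]

include hΔ hm in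
theorem describes_ap (a : ℤ) : Describes (TrEq W m a) {ℓ | (m : ℤ) ∣ W.apOfModel ℓ - a} := by
  refine ⟨(W.Δ.natAbs * m).primeFactors, fun ℓ hℓ hT A hA φ hφ => ?_⟩
  have h0 : ¬ ℓ ∣ W.Δ.natAbs * m := fun h => hT (Nat.mem_primeFactors.mpr
    ⟨hℓ, h, Nat.mul_ne_zero (Int.natAbs_ne_zero.mpr hΔ) hm⟩)
  exact trEq_iff hΔ hm hℓ (fun h => h0 (Dvd.dvd.mul_right (Int.natCast_dvd.mp h) m))
    (fun h => h0 (Dvd.dvd.mul_left h _)) a hA hφ

end Level

/-! ### The theorems -/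

section Main

variable {W : WeierstrassCurve ℤ} {m : ℕ}

/-- Complex conjugation has trace zero. -/
theorem trEq_complexConjugation (hm : m ≠ 0) : TrEq W m 0 complexConjugation := by
  intro b hb P hP
  have h1 : complexConjugation • complexConjugation • P = P := by
    rw [smul_smul, complexConjugation_mul_self, one_smul]
  have h2 : b ≡ m - 1 [MOD m] :=
    modEq_of_pow hb (fun μ hμ => LTF.Deep.complexConjugation_root hm hμ) hm
  rw [nsmul_congr h2 hP, h1, zero_zsmul, sub_zero]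
  nth_rewrite 1 [← one_nsmul P]
  rw [← add_nsmul, Nat.add_sub_cancel' (Nat.one_le_iff_ne_zero.mpr hm), hP]

/-- The identity has trace two. -/
theorem trEq_one (hm : m ≠ 0) : TrEq W m 2 1 := by
  intro b hb P hP
  have h2 : b ≡ 1 [MOD m] := modEq_of_pow hb (fun μ _ => by rw [pow_one]; rfl) hm
  rw [nsmul_congr h2 hP, one_smul, one_smul, one_nsmul, two_zsmul]
  abel

/-- only the residue of the trace modulo `m` matters -/
theorem TrEq.congr {a a' : ℤ} {σ : GQ} (h : TrEq W m a σ) (haa' : (m : ℤ) ∣ a - a') :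
    TrEq W m a' σ := by
  intro b hb P hP
  obtain ⟨c, hc⟩ := haa'
  have h2 : a • σ • P = a' • σ • P := by
    rw [← sub_eq_zero, ← sub_smul, hc, mul_comm, mul_zsmul, natCast_zsmul,
      nsmul_smul_eq_zero hP, zsmul_zero]
  have h1 := h b hb P hP
  rwa [h2] at h1

open Classical in
/-- **The residues of `a_ℓ` modulo `m`.** For every `a` the set of primes `ℓ` with
`a_ℓ ≡ a mod m` has a natural density, which is a rational number; it is positive if `a ≡ 0`, if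
`a ≡ 2` or if `a ≡ a_q` for one prime `q` of good reduction, `q ∤ m`. -/
theorem tendsto_ap (hΔ : W.Δ ≠ 0) (hm : m ≠ 0) (a : ℤ) : ∃ δ : ℚ, 0 ≤ δ ∧ δ ≤ 1 ∧
    (((m : ℤ) ∣ a ∨ (m : ℤ) ∣ a - 2 ∨ ∃ q : ℕ, q.Prime ∧ W.IsGoodPrimeFor q ∧ ¬ q ∣ m ∧
      (m : ℤ) ∣ W.apOfModel q - a) → 0 < δ) ∧
    Tendsto (fun x : ℕ => (((Finset.range (x + 1)).filter fun ℓ => ℓ.Prime ∧
      (m : ℤ) ∣ W.apOfModel ℓ - a).card : ℝ) / Nat.primeCounting x) atTop (𝓝 δ) := by
  obtain ⟨δ, h0, h1, h2, h3⟩ := tendsto_primes (isLevel_trEq hΔ hm a) (describes_ap hΔ hm a)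
  refine ⟨δ, h0, h1, ?_, ?_⟩
  · rintro (h | h | ⟨q, hq, hgood, hqm, h⟩)
    · exact h2 ⟨_, (trEq_complexConjugation hm).congr (by rwa [zero_sub, dvd_neg])⟩
    · exact h2 ⟨_, (trEq_one hm).congr (by rwa [← dvd_neg, neg_sub])⟩
    · obtain ⟨A, hA, hf⟩ := exists_frob_place hq
      exact h2 ⟨_, (trEq_iff hΔ hm hq hgood hqm a hA hf).mp h⟩
  · simpa only [Set.mem_ofPred_eq] using h3

open Classical in
/-- **Every integer `m ≥ 1` divides `a_ℓ` for a positive proportion of the primes `ℓ`.** -/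
theorem tendsto_dvd_ap (hΔ : W.Δ ≠ 0) (hm : m ≠ 0) : ∃ δ : ℚ, 0 < δ ∧ δ ≤ 1 ∧
    Tendsto (fun x : ℕ => (((Finset.range (x + 1)).filter fun ℓ => ℓ.Prime ∧
      (m : ℤ) ∣ W.apOfModel ℓ).card : ℝ) / Nat.primeCounting x) atTop (𝓝 δ) := by
  obtain ⟨δ, -, h1, h2, h3⟩ := tendsto_ap hΔ hm 0
  refine ⟨δ, h2 (Or.inl (dvd_zero _)), h1, ?_⟩
  simpa only [sub_zero] using h3

/-- `∑ 1 / ℓ = ∞` over the primes `ℓ` with `m ∣ a_ℓ`. -/
theorem not_summable_dvd_ap (hΔ : W.Δ ≠ 0) (hm : m ≠ 0) :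
    ¬ Summable fun ℓ : {ℓ : ℕ | ℓ.Prime ∧ (m : ℤ) ∣ W.apOfModel ℓ} => (1 : ℝ) / (ℓ : ℕ) := by
  have h0 : Describes (TrEq W m 0) {ℓ | (m : ℤ) ∣ W.apOfModel ℓ} := by
    simpa only [sub_zero] using describes_ap hΔ hm 0
  have h := not_summable (isLevel_trEq hΔ hm 0) h0 (trEq_complexConjugation (W := W) hm)
  exact h

end Main

end Fermat.Agent.Cor.Div
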