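import Fermat.Agent.Corollaries.LR.Const
import Fermat.Agent.Corollaries.LR.Theta
import Fermat.Agent.Corollaries.Mertens.Rat

/-!
# Multiplicative sets given by residue classes: exact asymptotics

`S ⊆ ℕ` a multiplicative set (its indicator function is multiplicative) such that for the primes
`p ∤ q` one has `p ∈ S` exactly if the class of `p` is in `V ⊆ (ℤ/q)ˣ`, `V` not empty. Then
`#{n ≤ x : n ∈ S} ~ C x (log x) ^ (|V| / φ(q) - 1)` with `C > 0` (`card_mulSet`; Landau's theorem for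
multiplicative sets), by the mean value theorem `LR.wirsing_const` and Mertens' theorem in
arithmetic progressions.

* `card_not_dvd_sigma` : `#{n ≤ x : ℓ ∤ σ_k(n)} ~ C x / (log x) ^ (h / (ℓ - 1))`, `h` the number of
  the solutions of `u ^ k = -1` in `(ℤ/ℓ)ˣ`, `ℓ` an odd prime;
* `card_not_dvd_totient` : `#{n ≤ x : ℓ ∤ φ(n)} ~ C x / (log x) ^ (1 / (ℓ - 1))`.
-/

set_option autoImplicit false

noncomputable section

open Filter Topology
open scoped ArithmeticFunction.sigma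

namespace Fermat.Agent.Cor.Div

section Weight

variable {q : ℕ} [NeZero q]

/-- **`∑_{p ≤ x} f(p) / p = τ log log x + B + o(1)`** if `f(p) = w(p mod q)` for the primes
`p ∤ q`. -/
theorem tendsto_sum_inv_weight (w : ZMod q → ℝ) (f : ℕ → ℝ)
    (hf : ∀ p : ℕ, p.Prime → ¬ p ∣ q → f p = w p) :
    ∃ B : ℝ, Tendsto (fun X : ℕ => (∑ p ∈ (Finset.Icc 1 X).filter Nat.Prime, f p * (p : ℝ)⁻¹) -
      LR.meanU w * Real.log (Real.log X)) atTop (𝓝 B) := by
  classical
  have key : ∀ a : ZMod q, ∃ B : ℝ, Tendsto (fun X : ℕ => Set.indicator {a | IsUnit a} w a *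
      ((∑ p ∈ (Finset.Icc 1 X).filter (fun p : ℕ => p.Prime ∧ (p : ZMod q) = a), (p : ℝ)⁻¹) -
        (q.totient : ℝ)⁻¹ * Real.log (Real.log X))) atTop (𝓝 B) := by
    intro a
    by_cases ha : IsUnit a
    · obtain ⟨B, hB⟩ := Mert.sum_inv_ap (q := q) ha
      refine ⟨Set.indicator {a | IsUnit a} w a * B, Tendsto.const_mul _ ?_⟩
      have h1 := (Mert.tendsto_of_mul_log hB).comp (tendsto_natCast_atTop_atTop (R := ℝ))
      refine h1.congr fun X => ?_
      simp only [Function.comp_apply, Nat.floor_natCast]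
    · refine ⟨0, ?_⟩
      rw [Set.indicator_of_notMem (show a ∉ {a : ZMod q | IsUnit a} from ha)]
      simp only [zero_mul]
      exact tendsto_const_nhds
  choose B hB using key
  have h1 := tendsto_finsetSum Finset.univ fun a (_ : a ∈ Finset.univ) => hB a
  refine ⟨(∑ a : ZMod q, B a) + ∑ p ∈ q.primeFactors, f p * (p : ℝ)⁻¹,
    (h1.add_const (∑ p ∈ q.primeFactors, f p * (p : ℝ)⁻¹)).congr' ?_⟩
  filter_upwards [eventually_ge_atTop q] with x hx
  have hdisj : ∀ p ∈ (Finset.Icc 1 x).filter Nat.Prime, f p * (p : ℝ)⁻¹ =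
      (if p ∣ q then f p * (p : ℝ)⁻¹ else 0) + ∑ a : ZMod q,
        if (p : ZMod q) = a then Set.indicator {a | IsUnit a} w a * (p : ℝ)⁻¹ else 0 := by
    intro p hp
    have hp' := (Finset.mem_filter.mp hp).2
    rw [Finset.sum_ite_eq]
    simp only [Finset.mem_univ, if_true]
    split_ifs with hd
    · rw [Set.indicator_of_notMem, zero_mul, add_zero]
      exact fun h => (ZMod.isUnit_prime_iff_not_dvd hp').mp h hd
    · rw [Set.indicator_of_mem (show (p : ZMod q) ∈ {a : ZMod q | IsUnit a} from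
        (ZMod.isUnit_prime_iff_not_dvd hp').mpr hd), zero_add, hf p hp' hd]
  rw [Finset.sum_congr rfl hdisj, Finset.sum_add_distrib]
  have e1 : ∑ p ∈ (Finset.Icc 1 x).filter Nat.Prime, (if p ∣ q then f p * (p : ℝ)⁻¹ else 0) =
      ∑ p ∈ q.primeFactors, f p * (p : ℝ)⁻¹ := by
    rw [← Finset.sum_filter, Finset.filter_filter]
    refine Finset.sum_congr ?_ fun _ _ => rfl
    ext p
    simp only [Nat.mem_primeFactors, Finset.mem_filter, Finset.mem_Icc]
    constructor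
    · rintro ⟨_, h4, h5⟩
      exact ⟨h4, h5, NeZero.ne q⟩
    · rintro ⟨h4, h5, h6⟩
      exact ⟨⟨h4.pos, (Nat.le_of_dvd (Nat.pos_of_ne_zero h6) h5).trans hx⟩, h4, h5⟩
  have e2 : ∑ p ∈ (Finset.Icc 1 x).filter Nat.Prime, (∑ a : ZMod q,
      if (p : ZMod q) = a then Set.indicator {a | IsUnit a} w a * (p : ℝ)⁻¹ else 0) =
      ∑ a : ZMod q, Set.indicator {a | IsUnit a} w a *
        ∑ p ∈ (Finset.Icc 1 x).filter (fun p : ℕ => p.Prime ∧ (p : ZMod q) = a), (p : ℝ)⁻¹ := by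
    rw [Finset.sum_comm]
    refine Finset.sum_congr rfl fun a _ => ?_
    rw [← Finset.sum_filter, Finset.filter_filter, Finset.mul_sum]
  rw [e1, e2]
  simp only [mul_sub, Finset.sum_sub_distrib]
  have e3 : ∑ a : ZMod q, Set.indicator {a | IsUnit a} w a *
      ((q.totient : ℝ)⁻¹ * Real.log (Real.log x)) = LR.meanU w * Real.log (Real.log x) := by
    rw [← Finset.sum_mul, LR.meanU]
    ring
  rw [e3]
  ring

open Classical in
/-- the mean value of an indicator function -/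
theorem meanU_indicator (V : Set (ZMod q)ˣ) :
    LR.meanU (fun z : ZMod q => if ∃ u ∈ V, (u : ZMod q) = z then 1 else 0) =
      (Nat.card V : ℝ) / q.totient := by
  have h1 : ∑ a : ZMod q, Set.indicator {a | IsUnit a}
      (fun z : ZMod q => if ∃ u ∈ V, (u : ZMod q) = z then (1 : ℝ) else 0) a = Nat.card V := by
    have h2 : ∀ a : ZMod q, Set.indicator {a | IsUnit a}
        (fun z : ZMod q => if ∃ u ∈ V, (u : ZMod q) = z then (1 : ℝ) else 0) a =
        if ∃ u ∈ V, (u : ZMod q) = a then 1 else 0 := by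
      intro a
      by_cases ha : IsUnit a
      · rw [Set.indicator_of_mem (show a ∈ {a : ZMod q | IsUnit a} from ha)]
      · rw [Set.indicator_of_notMem (show a ∉ {a : ZMod q | IsUnit a} from ha), if_neg]
        rintro ⟨u, _, rfl⟩
        exact ha u.isUnit
    rw [Finset.sum_congr rfl fun a _ => h2 a, Finset.sum_boole, Nat.cast_inj,
      ← Nat.card_eq_finsetCard]
    refine Nat.card_congr (Equiv.symm (Equiv.ofBijective
      (fun u : V => ⟨((u : (ZMod q)ˣ) : ZMod q), by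
        rw [Finset.mem_filter]
        exact ⟨Finset.mem_univ _, _, u.2, rfl⟩⟩) ⟨fun u v h => ?_, fun z => ?_⟩))
    · exact Subtype.ext (Units.ext (congrArg Subtype.val h))
    · obtain ⟨u, hu, hz⟩ := (Finset.mem_filter.mp z.2).2
      exact ⟨⟨u, hu⟩, Subtype.ext hz⟩
  rw [LR.meanU, h1]
  ring

open Classical in
/-- **Landau's theorem for the multiplicative sets given by residue classes.** -/
theorem card_mulSet {S : Set ℕ} (h1 : 1 ∈ S)
    (hmul : ∀ m n : ℕ, m.Coprime n → (m * n ∈ S ↔ m ∈ S ∧ n ∈ S)) {V : Set (ZMod q)ˣ}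
    (hV : V.Nonempty)
    (hS : ∀ p : ℕ, p.Prime → ¬ p ∣ q → (p ∈ S ↔ ∃ u ∈ V, (u : ZMod q) = p)) :
    ∃ C : ℝ, 0 < C ∧ Tendsto (fun x : ℝ =>
      (((Finset.Icc 1 ⌊x⌋₊).filter fun n => n ∈ S).card : ℝ) /
        (x * Real.log x ^ ((Nat.card V : ℝ) / q.totient - 1))) atTop (𝓝 C) := by
  set f : ℕ → ℝ := fun n => if n ∈ S then 1 else 0 with hf
  set w : ZMod q → ℝ := fun z => if ∃ u ∈ V, (u : ZMod q) = z then 1 else 0 with hw
  have hfw : ∀ p : ℕ, p.Prime → ¬ p ∣ q → f p = w p := by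
    intro p hp hpq
    rw [hf, hw]
    simp only [hS p hp hpq]
  have hmean : LR.meanU w = (Nat.card V : ℝ) / q.totient := meanU_indicator V
  have hVc : 0 < Nat.card V := by
    have : Nonempty V := hV.to_subtype
    exact Nat.card_pos
  have hτ : 0 < LR.meanU w := by
    rw [hmean]
    exact div_pos (by exact_mod_cast hVc)
      (by exact_mod_cast Nat.totient_pos.mpr (NeZero.pos q))
  obtain ⟨B, hB⟩ := tendsto_sum_inv_weight w f hfw
  obtain ⟨C, hC, h⟩ := LR.wirsing_const (f := f) (τ := LR.meanU w)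
    (fun n => by rw [hf]; dsimp only; split_ifs <;> norm_num)
    (fun n => by rw [hf]; dsimp only; split_ifs <;> norm_num)
    (if_pos h1)
    (fun m n hmn => by
      rw [hf]
      dsimp only
      by_cases hm : m ∈ S <;> by_cases hn : n ∈ S <;> simp [hmul m n hmn, hm, hn])
    hτ (LR.tendsto_theta_weight w f hfw) hB
  refine ⟨C, hC, ?_⟩
  rw [← hmean]
  refine h.congr fun x => ?_
  rw [hf, Finset.sum_boole]

end Weight

/-- the form with the power of the logarithm in the denominator -/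
theorem tendsto_flip {g : ℝ → ℝ} {C r s : ℝ} (hrs : r - 1 = -s)
    (h : Tendsto (fun x : ℝ => g x / (x * Real.log x ^ (r - 1))) atTop (𝓝 C)) :
    Tendsto (fun x : ℝ => g x / (x / Real.log x ^ s)) atTop (𝓝 C) := by
  refine h.congr' ?_
  filter_upwards [eventually_gt_atTop 1] with x hx
  rw [hrs, Real.rpow_neg (Real.log_pos hx).le, div_eq_mul_inv x]

/-- **Multiplicative functions modulo a prime**: if `a : ℕ → ℤ` is multiplicative and for the primes
`p ∤ q` one has `ℓ ∣ a(p)` exactly if the class of `p` is in `U ⊆ (ℤ/q)ˣ`, `U` not everything, then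
`#{n ≤ x : ℓ ∤ a(n)} ~ C x / (log x) ^ (|U| / φ(q))`. -/
theorem card_not_dvd_of_residue {ℓ : ℕ} (hℓ : ℓ.Prime) {a : ℕ → ℤ} (h1 : a 1 = 1)
    (hmul : ∀ m n : ℕ, m.Coprime n → a (m * n) = a m * a n) {q : ℕ} [NeZero q]
    {U : Set (ZMod q)ˣ} (hU : U ≠ Set.univ)
    (ha : ∀ p : ℕ, p.Prime → ¬ p ∣ q → ((ℓ : ℤ) ∣ a p ↔ ∃ u ∈ U, (u : ZMod q) = p)) :
    ∃ C : ℝ, 0 < C ∧ Tendsto (fun x : ℝ =>
      (((Finset.Icc 1 ⌊x⌋₊).filter fun n => ¬ (ℓ : ℤ) ∣ a n).card : ℝ) /
        (x / Real.log x ^ ((Nat.card U : ℝ) / q.totient))) atTop (𝓝 C) := by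
  classical
  have hp : Prime (ℓ : ℤ) := Nat.prime_iff_prime_int.mp hℓ
  obtain ⟨C, hC, h⟩ := card_mulSet (q := q) (S := {n : ℕ | ¬ (ℓ : ℤ) ∣ a n}) (V := Uᶜ)
    (by
      rw [Set.mem_ofPred_eq, h1]
      exact fun h => hp.not_isUnit (isUnit_of_dvd_one h))
    (fun m n hmn => by
      rw [Set.mem_ofPred_eq, Set.mem_ofPred_eq, Set.mem_ofPred_eq, hmul m n hmn, hp.dvd_mul]
      exact not_or)
    (Set.nonempty_compl.mpr hU)
    (fun p hpp hpq => by
      rw [Set.mem_ofPred_eq, ha p hpp hpq]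
      have hcop : p.Coprime q := (Nat.Prime.coprime_iff_not_dvd hpp).mpr hpq
      constructor
      · intro h
        refine ⟨ZMod.unitOfCoprime p hcop, fun hu => h ⟨_, hu, ?_⟩, ?_⟩ <;>
          exact ZMod.coe_unitOfCoprime p hcop
      · rintro ⟨u, hu, hup⟩ ⟨v, hv, hvp⟩
        exact hu ((Units.ext (hup.trans hvp.symm) : u = v) ▸ hv))
  refine ⟨C, hC, ?_⟩
  have h2 := tendsto_flip (s := (Nat.card U : ℝ) / q.totient) ?_ h
  · refine h2.congr fun x => ?_
    congr 3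
    ext n
    simp only [Finset.mem_filter, Set.mem_ofPred_eq]
  · have h3 : Nat.card U + Nat.card (Uᶜ : Set (ZMod q)ˣ) = q.totient := by
      rw [← ZMod.card_units_eq_totient q, ← Nat.card_eq_fintype_card, Nat.card_coe_set_eq,
        Nat.card_coe_set_eq, Set.ncard_add_ncard_compl]
    have hφ : (q.totient : ℝ) ≠ 0 := by
      exact_mod_cast (Nat.totient_pos.mpr (NeZero.pos q)).ne'
    have h4 : (Nat.card U : ℝ) + Nat.card (Uᶜ : Set (ZMod q)ˣ) = q.totient := by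
      exact_mod_cast h3
    field_simp
    linarith

/-- **The divisor sums not divisible by a prime `ℓ`**:
`#{n ≤ x : ℓ ∤ σ_k(n)} ~ C x / (log x) ^ (h / (ℓ - 1))`, `h = #{u ∈ (ℤ/ℓ)ˣ : u ^ k = -1}`. -/
theorem card_not_dvd_sigma {ℓ : ℕ} (hℓ : ℓ.Prime) (hℓ2 : ℓ ≠ 2) (k : ℕ) :
    ∃ C : ℝ, 0 < C ∧ Tendsto (fun x : ℝ =>
      (((Finset.Icc 1 ⌊x⌋₊).filter fun n => ¬ ℓ ∣ σ k n).card : ℝ) /
        (x / Real.log x ^ ((Nat.card {u : (ZMod ℓ)ˣ // u ^ k = -1} : ℝ) / (ℓ - 1 : ℕ))))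
          atTop (𝓝 C) := by
  classical
  have : Fact ℓ.Prime := ⟨hℓ⟩
  have : NeZero ℓ := ⟨hℓ.ne_zero⟩
  obtain ⟨C, hC, h⟩ := card_not_dvd_of_residue hℓ (a := fun n => ((σ k n : ℕ) : ℤ)) (q := ℓ)
    (U := {u : (ZMod ℓ)ˣ | u ^ k = -1})
    (by simp [ArithmeticFunction.isMultiplicative_sigma.map_one])
    (fun m n hmn => by
      simp only [ArithmeticFunction.isMultiplicative_sigma.map_mul_of_coprime hmn, Nat.cast_mul])
    (by
      intro h
      have h1 : (1 : (ZMod ℓ)ˣ) ∈ {u : (ZMod ℓ)ˣ | u ^ k = -1} := h ▸ Set.mem_univ _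
      rw [Set.mem_ofPred_eq, one_pow] at h1
      have h2 := congrArg (Units.val : (ZMod ℓ)ˣ → ZMod ℓ) h1
      rw [Units.val_one, Units.val_neg, Units.val_one] at h2
      have h3 : ((2 : ℕ) : ZMod ℓ) = 0 := by
        push_cast
        linear_combination h2
      have h4 := (ZMod.natCast_eq_zero_iff 2 ℓ).mp h3
      exact hℓ2 ((Nat.prime_dvd_prime_iff_eq hℓ Nat.prime_two).mp h4))
    (fun p hp hpℓ => by
      have hcop : p.Coprime ℓ := (Nat.Prime.coprime_iff_not_dvd hp).mpr hpℓ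
      have h3 : (σ k p : ℕ) = 1 + p ^ k := by
        have h4 := ArithmeticFunction.sigma_apply_prime_pow (k := k) (i := 1) hp
        rw [pow_one] at h4
        rw [h4]
        simp [Finset.sum_range_succ]
      rw [Int.natCast_dvd_natCast, h3, ← ZMod.natCast_eq_zero_iff]
      push_cast
      constructor
      · intro h
        refine ⟨ZMod.unitOfCoprime p hcop, ?_, ZMod.coe_unitOfCoprime p hcop⟩
        rw [Set.mem_ofPred_eq]
        refine Units.ext ?_
        rw [Units.val_pow_eq_pow_val, ZMod.coe_unitOfCoprime, Units.val_neg, Units.val_one]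
        linear_combination h
      · rintro ⟨u, hu, hup⟩
        have h5 := congrArg (Units.val : (ZMod ℓ)ˣ → ZMod ℓ) hu
        rw [Units.val_pow_eq_pow_val, Units.val_neg, Units.val_one, hup] at h5
        rw [h5]
        ring)
  refine ⟨C, hC, ?_⟩
  rw [Nat.totient_prime hℓ] at h
  refine h.congr fun x => ?_
  simp only [Int.natCast_dvd_natCast]
  rfl

/-- **The values of Euler's function not divisible by an odd prime `ℓ`**:
`#{n ≤ x : ℓ ∤ φ(n)} ~ C x / (log x) ^ (1 / (ℓ - 1))`. -/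
theorem card_not_dvd_totient {ℓ : ℕ} (hℓ : ℓ.Prime) (hℓ2 : ℓ ≠ 2) :
    ∃ C : ℝ, 0 < C ∧ Tendsto (fun x : ℝ =>
      (((Finset.Icc 1 ⌊x⌋₊).filter fun n => ¬ ℓ ∣ n.totient).card : ℝ) /
        (x / Real.log x ^ (1 / ((ℓ - 1 : ℕ) : ℝ)))) atTop (𝓝 C) := by
  classical
  have : Fact ℓ.Prime := ⟨hℓ⟩
  have : NeZero ℓ := ⟨hℓ.ne_zero⟩
  obtain ⟨C, hC, h⟩ := card_not_dvd_of_residue hℓ (a := fun n => ((n.totient : ℕ) : ℤ)) (q := ℓ)
    (U := {1}) (by simp)
    (fun m n hmn => by simp only [Nat.totient_mul hmn, Nat.cast_mul])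
    (by
      intro h
      have h1 : (-1 : (ZMod ℓ)ˣ) ∈ ({1} : Set (ZMod ℓ)ˣ) := h ▸ Set.mem_univ _
      have h2 := congrArg (Units.val : (ZMod ℓ)ˣ → ZMod ℓ) (Set.mem_singleton_iff.mp h1)
      rw [Units.val_neg, Units.val_one] at h2
      have h3 : ((2 : ℕ) : ZMod ℓ) = 0 := by
        push_cast
        linear_combination -h2
      have h4 := (ZMod.natCast_eq_zero_iff 2 ℓ).mp h3
      exact hℓ2 ((Nat.prime_dvd_prime_iff_eq hℓ Nat.prime_two).mp h4))
    (fun p hp hpℓ => by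
      rw [Int.natCast_dvd_natCast, Nat.totient_prime hp]
      have h1 : (ℓ ∣ p - 1 ↔ (p : ZMod ℓ) = 1) := by
        rw [← ZMod.natCast_eq_zero_iff, Nat.cast_sub hp.one_le, Nat.cast_one, sub_eq_zero]
      rw [h1]
      constructor
      · intro h
        exact ⟨1, rfl, by rw [Units.val_one, h]⟩
      · rintro ⟨u, hu, hup⟩
        rw [← hup, Set.mem_singleton_iff.mp hu, Units.val_one])
  refine ⟨C, hC, ?_⟩
  rw [Nat.totient_prime hℓ, Nat.card_unique, Nat.cast_one] at h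
  refine h.congr fun x => ?_
  simp only [Int.natCast_dvd_natCast]

/-- `u ^ k = -1` has one solution modulo `ℓ` if `k` is odd and prime to `ℓ - 1`. -/
theorem card_pow_eq_neg_one {ℓ : ℕ} (hℓ : ℓ.Prime) {k : ℕ} (hk : Odd k)
    (hkℓ : k.Coprime (ℓ - 1)) : Nat.card {u : (ZMod ℓ)ˣ // u ^ k = -1} = 1 := by
  have : Fact ℓ.Prime := ⟨hℓ⟩
  have hcard : Nat.card (ZMod ℓ)ˣ = ℓ - 1 := by
    rw [Nat.card_eq_fintype_card, ZMod.card_units_eq_totient, Nat.totient_prime hℓ]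
  have hinj : Function.Injective fun u : (ZMod ℓ)ˣ => u ^ k :=
    (powCoprime (by rw [hcard]; exact hkℓ.symm)).injective
  rw [Nat.card_eq_one_iff_unique]
  refine ⟨⟨fun u v => Subtype.ext (hinj (u.2.trans v.2.symm))⟩, ⟨⟨-1, hk.neg_one_pow⟩⟩⟩

/-- **The case of one solution**: `#{n ≤ x : ℓ ∤ σ_k(n)} ~ C x / (log x) ^ (1 / (ℓ - 1))` for `k` odd
and prime to `ℓ - 1`. -/
theorem card_not_dvd_sigma_one {ℓ : ℕ} (hℓ : ℓ.Prime) (hℓ2 : ℓ ≠ 2) {k : ℕ} (hk : Odd k)
    (hkℓ : k.Coprime (ℓ - 1)) :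
    ∃ C : ℝ, 0 < C ∧ Tendsto (fun x : ℝ =>
      (((Finset.Icc 1 ⌊x⌋₊).filter fun n => ¬ ℓ ∣ σ k n).card : ℝ) /
        (x / Real.log x ^ (1 / ((ℓ - 1 : ℕ) : ℝ)))) atTop (𝓝 C) := by
  have h := card_not_dvd_sigma hℓ hℓ2 k
  rw [card_pow_eq_neg_one hℓ hk hkℓ, Nat.cast_one] at h
  exact h

end Fermat.Agent.Cor.Div

end
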