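import Fermat.Agent.Corollaries.Div.Hecke
import Fermat.Agent.Corollaries.Div.Curve
import Fermat.Agent.Corollaries.HW.Final
import Fermat.Agent.S29.Character
import Fermat.Agent.S22

/-!
# Serre's divisibility theorem for eigenforms and for elliptic curves

* `serre_eigenform` : for a normalised eigenform of weight two for `Γ₀(N)` almost all coefficients
  are divisible by `m` in the ring of algebraic integers;
* `exists_newform_dvd` : for `W` semistable the coefficients `a_n` of its newform are integers, and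
  `m ∣ a_n` for almost all `n`;
* `tendsto_dvd_of_mul` : for every elliptic curve `W` over `ℚ` (no modularity) the same holds for
  every function multiplicative on coprime integers with `a(ℓ) = a_ℓ(W)` for almost all primes `ℓ`.
-/

set_option autoImplicit false

noncomputable section

open Filter Topology CongruenceSubgroup CuspForm ModularFormClass

namespace Fermat.Agent.Cor.Div

section Eigenform

variable {N : ℕ} [NeZero N] {f : CuspForm (Gamma0 N) 2}

omit [NeZero N] in
/-- The coefficients of a normalised eigenform lie in the ring generated by those at the primes. -/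
theorem qCoeff_mem_of_prime (hf : f.IsNormalizedEigenform) {A : Subring ℂ}
    (h : ∀ p : ℕ, p.Prime → qCoeff f p ∈ A) (n : ℕ) : qCoeff f n ∈ A := by
  induction n using Nat.recOnPosPrimePosCoprime with
  | prime_pow p n hp _ =>
    clear * - hf h hp
    induction n using Nat.strong_induction_on with
    | h n ih =>
      match n, ih with
      | 0, _ =>
        rw [pow_zero, hf.qCoeff_one]
        exact A.one_mem
      | 1, _ =>
        rw [pow_one]
        exact h p hp
      | r + 2, ih =>
        by_cases hpN : p ∣ N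
        · rw [hf.qCoeff_prime_pow_of_dvd p r hp hpN]
          exact A.mul_mem (h p hp) (ih _ (by omega))
        · rw [hf.qCoeff_prime_pow_of_not_dvd p r hp hpN]
          exact A.sub_mem (A.mul_mem (h p hp) (ih _ (by omega)))
            (A.mul_mem (natCast_mem A p) (ih _ (by omega)))
  | zero =>
    rw [FermatAgent.HeckeEigen.qCoeff_at_zero]
    exact A.zero_mem
  | one =>
    rw [hf.qCoeff_one]
    exact A.one_mem
  | coprime a b _ _ hab iha ihb =>
    rw [hf.qCoeff_mul_of_coprime a b hab]
    exact A.mul_mem iha ihb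

/-- The coefficients of a normalised eigenform are algebraic integers. -/
theorem isIntegral_qCoeff (hf : f.IsNormalizedEigenform) (n : ℕ) : IsIntegral ℤ (qCoeff f n) := by
  have hfin : Module.Finite ℤ (heckeAlgebra N 2 ∅) := Fermat.Agent.S22.result N 2 _
  refine qCoeff_mem_of_prime hf (A := (integralClosure ℤ ℂ).toSubring) (fun p hp => ?_) n
  have h1 : ∀ t : heckeAlgebra N 2 ∅, IsIntegral ℤ (S29aux.eigenChar hf ∅ t) := fun t =>
    (Algebra.IsIntegral.isIntegral (R := ℤ) t).map ((S29aux.eigenChar hf ∅).toIntAlgHom)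
  by_cases hpN : p ∣ N
  · have h2 := h1 (heckeAlgebra.U hp hpN (Set.notMem_empty _))
    rwa [S29aux.eigenChar_U] at h2
  · have h2 := h1 (heckeAlgebra.T hp hpN (Set.notMem_empty _))
    rwa [S29aux.eigenChar_T] at h2

open scoped Classical in
/-- **Serre's theorem for eigenforms**: almost all coefficients of a normalised eigenform of weight
two are divisible by `m` in the ring of algebraic integers. -/
theorem serre_eigenform (hf : f.IsNormalizedEigenform) {m : ℕ} (hm : m ≠ 0) :
    Tendsto (fun x : ℕ => (((Finset.range x).filter fun n =>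
      ∃ b : ℂ, IsIntegral ℤ b ∧ qCoeff f n = m * b).card : ℝ) / x) atTop (𝓝 1) :=
  serre_divisibility (A := (integralClosure ℤ ℂ).toSubring) (isIntegral_qCoeff hf) hm

end Eigenform

section Curve

variable {W : WeierstrassCurve ℤ}

open scoped Classical in
/-- **The newform of a semistable elliptic curve has integral coefficients, and `m ∣ a_n` for
almost all `n`.** -/
theorem newform_dvd {f : CuspForm (Gamma0 W.conductorLevel) 2}
    (hf : f.IsNewform) (ha : ∀ p : ℕ, p.Prime → qCoeff f p = (HW.ap W p : ℂ)) :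
    ∃ a : ℕ → ℤ, (∀ n, qCoeff f n = a n) ∧ ∀ m : ℕ, m ≠ 0 →
      Tendsto (fun x : ℕ => (((Finset.range x).filter fun n => (m : ℤ) ∣ a n).card : ℝ) / x)
        atTop (𝓝 1) := by
  have h1 : ∀ n, ∃ a : ℤ, qCoeff f n = a := by
    intro n
    obtain ⟨a, ha⟩ := qCoeff_mem_of_prime hf.1 (A := (Int.castRingHom ℂ).range)
      (fun p hp => ⟨HW.ap W p, (ha p hp).symm⟩) n
    exact ⟨a, ha.symm⟩
  choose a h2 using h1
  exact ⟨a, h2, fun m hm => serre_divisibility_int h2 hm⟩

open scoped Classical in
theorem exists_newform_dvd (hΔ : W.Δ ≠ 0) (hW : W.IsSemistableModel) :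
    ∃ f : CuspForm (Gamma0 W.conductorLevel) 2, f.IsNewform ∧
      (∀ p : ℕ, p.Prime → qCoeff f p = (HW.ap W p : ℂ)) ∧
      ∃ a : ℕ → ℤ, (∀ n, qCoeff f n = a n) ∧ ∀ m : ℕ, m ≠ 0 →
        Tendsto (fun x : ℕ => (((Finset.range x).filter fun n => (m : ℤ) ∣ a n).card : ℝ) / x)
          atTop (𝓝 1) := by
  obtain ⟨f, ⟨hf, ha⟩, -⟩ := HW.existsUnique_newform_ap hΔ hW
  exact ⟨f, hf, ha, newform_dvd hf ha⟩

open scoped Classical in
/-- **Every elliptic curve over `ℚ`, no modularity**: if `a` is multiplicative on coprime integers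
and `a(ℓ) = a_ℓ(W)` for almost all primes `ℓ` (for instance the coefficients of the `L`-function of
`W`), then for every `m ≥ 1` almost all `a(n)` are divisible by `m`. -/
theorem tendsto_dvd_of_mul (hΔ : W.Δ ≠ 0) {a : ℕ → ℤ}
    (hmul : ∀ m n : ℕ, m.Coprime n → a (m * n) = a m * a n) {T : Finset ℕ}
    (ha : ∀ ℓ : ℕ, ℓ.Prime → ℓ ∉ T → a ℓ = W.apOfModel ℓ) {m : ℕ} (hm : m ≠ 0) :
    Tendsto (fun x : ℕ => (((Finset.range x).filter fun n => (m : ℤ) ∣ a n).card : ℝ) / x)
      atTop (𝓝 1) := by
  have h0 : Describes (TrEq W m 0) {ℓ | (m : ℤ) ∣ a ℓ} := by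
    obtain ⟨T', hT'⟩ := describes_ap hΔ hm 0
    refine ⟨T ∪ T', fun p hp hpT A hA φ hφ => ?_⟩
    rw [Finset.mem_union, not_or] at hpT
    have h1 := hT' p hp hpT.2 A hA φ hφ
    rw [Set.mem_ofPred_eq, sub_zero] at h1
    rw [Set.mem_ofPred_eq, ha p hp hpT.1, h1]
  have h := not_summable (isLevel_trEq hΔ hm 0) h0 (trEq_complexConjugation (W := W) hm)
  have h1 := tendsto_mem_ideal (Ideal.span {(m : ℤ)}) hmul
    (P := {p : ℕ | p.Prime ∧ p ∈ {ℓ | (m : ℤ) ∣ a ℓ}}) (fun p hp => hp.1) h
    (fun p hp => Ideal.mem_span_singleton.mpr hp.2)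
  simpa only [Ideal.mem_span_singleton] using h1

end Curve

end Fermat.Agent.Cor.Div
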