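import Fermat.Agent.Corollaries.Div.TraceZero
import Fermat.Agent.Corollaries.Div.Newform
import Fermat.Agent.S29

/-!
# The coefficients of an eigenform of weight two which are not zero modulo a prime

`g` a normalised eigenform of weight two for `Γ₀(N)`, `k` a field of characteristic `p ≠ 2`, `φ` a
homomorphism from the ring of algebraic integers to `k`. Then the number of the `n ≤ x` with
`φ(a_n(g)) ≠ 0` is `~ C x / (log x) ^ α` with `C > 0` and `0 < α < 1` (`card_ne_zero_eigenform`;
Serre).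
-/

set_option autoImplicit false

noncomputable section

open Filter Topology CongruenceSubgroup CuspForm ModularFormClass
open Fermat.Agent.Frob

namespace Fermat.Agent.Cor.Div

/-! ### Homomorphisms of finite level -/

theorem isOpen_ker_of_level {G : Type*} [Group G] {r : GQ →* G}
    (h : ∃ L : IntermediateField ℚ (AlgebraicClosure ℚ), FiniteDimensional ℚ L ∧
      ∀ σ : GQ, (∀ x ∈ L, σ x = x) → r σ = 1) : IsOpen (r.ker : Set GQ) := by
  obtain ⟨L, hL, h⟩ := h
  refine Subgroup.isOpen_mono (H₁ := L.fixingSubgroup) (fun σ hσ => ?_)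
    (IntermediateField.fixingSubgroup_isOpen L)
  exact h σ fun x hx => (IntermediateField.mem_fixingSubgroup_iff L σ).mp hσ x hx

theorem finite_range_of_isOpen {G : Type*} [Group G] {r : GQ →* G}
    (h : IsOpen (r.ker : Set GQ)) : Finite r.range := by
  have h1 : Finite (GQ ⧸ r.ker) := Subgroup.quotient_finite_of_isOpen r.ker h
  exact Finite.of_equiv _ (QuotientGroup.quotientKerEquivRange r).toEquiv

theorem exponent_lt_one {k : Type*} [Field k] (h2 : (2 : k) ≠ 0) (ρ : GQ →* GL (Fin 2) k)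
    [Finite ρ.range] : (Nat.card {g : ρ.range //
      ((g : GL (Fin 2) k) : Matrix (Fin 2) (Fin 2) k).trace = 0} : ℝ) / Nat.card ρ.range < 1 := by
  have hG : (0 : ℝ) < Nat.card ρ.range := by exact_mod_cast Nat.card_pos
  rw [div_lt_one hG, Nat.cast_lt]
  refine lt_of_le_of_ne (Nat.card_le_card_of_injective _ Subtype.val_injective) fun h => ?_
  have h4 := (Nat.bijective_iff_injective_and_card (Subtype.val :
    {g : ρ.range // ((g : GL (Fin 2) k) : Matrix (Fin 2) (Fin 2) k).trace = 0} →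
      ρ.range)).mpr ⟨Subtype.val_injective, h⟩
  obtain ⟨g, hg⟩ := h4.2 1
  have h5 := g.2
  rw [hg] at h5
  have h6 : ((1 : GL (Fin 2) k) : Matrix (Fin 2) (Fin 2) k).trace = 0 := h5
  rw [Units.val_one, Matrix.trace_one] at h6
  exact h2 (by simpa using h6)

section Form

variable {N : ℕ} [NeZero N] {g : CuspForm (Gamma0 N) 2}

/-- a matrix form of a residual representation -/
theorem exists_matrix {k : Type} [Field k] (ρ : ResidualGaloisRep k) :
    ∃ r : GQ →* GL (Fin 2) k, IsOpen (r.ker : Set GQ) ∧ ∀ σ : GQ,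
      (r σ : Matrix (Fin 2) (Fin 2) k).trace = -(LinearMap.charpoly (ρ.ρ σ)).coeff 1 := by
  have hfin : Module.Finite k ρ.V :=
    Module.finite_of_finrank_pos (by rw [ρ.finrank_eq]; norm_num)
  let b : Module.Basis (Fin 2) k ρ.V := Module.finBasisOfFinrankEq k ρ.V ρ.finrank_eq
  let m : GQ →* Matrix (Fin 2) (Fin 2) k :=
    ((LinearMap.toMatrixAlgEquiv b).toAlgHom : Module.End k ρ.V →* Matrix (Fin 2) (Fin 2) k).comp
      ρ.ρ
  refine ⟨m.toHomUnits, isOpen_ker_of_level ?_, fun σ => ?_⟩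
  · obtain ⟨L, hL, h⟩ := ρ.factorsThroughFiniteLevel
    refine ⟨L, hL, fun σ hσ => Units.ext ?_⟩
    change (LinearMap.toMatrixAlgEquiv b) (ρ.ρ σ) = 1
    rw [h σ hσ, map_one]
  · change ((LinearMap.toMatrixAlgEquiv b) (ρ.ρ σ)).trace = _
    rw [Matrix.trace_eq_neg_charpoly_coeff, Fintype.card_fin]
    have h1 : ((LinearMap.toMatrixAlgEquiv b) (ρ.ρ σ)).charpoly = LinearMap.charpoly (ρ.ρ σ) :=
      LinearMap.charpoly_toMatrix (ρ.ρ σ) b
    rw [h1]

open Classical in
/-- **The coefficients of an eigenform of weight two which are not zero modulo a prime** (Serre). -/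
theorem card_ne_zero_eigenform (hg : g.IsNormalizedEigenform) {p : ℕ} (hp : p.Prime) (hp2 : p ≠ 2)
    {k : Type} [Field k] [CharP k p] (φ : integralClosure ℤ ℂ →+* k) :
    ∃ α : ℝ, 0 < α ∧ α < 1 ∧ ∃ C : ℝ, 0 < C ∧ Tendsto (fun x : ℝ =>
      (((Finset.Icc 1 ⌊x⌋₊).filter fun n =>
        φ ⟨qCoeff g n, isIntegral_qCoeff hg n⟩ ≠ 0).card : ℝ) /
          (x / Real.log x ^ α)) atTop (𝓝 C) := by
  obtain ⟨ρ, hρ, -⟩ := S29.result hg hp φ
  obtain ⟨r, hker, hr⟩ := exists_matrix ρ
  have hfin := finite_range_of_isOpen hker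
  have h2 : (2 : k) ≠ 0 := by
    intro h
    have h3 : ((2 : ℕ) : k) = 0 := by exact_mod_cast h
    have h4 := (CharP.cast_eq_zero_iff k p 2).mp h3
    exact hp2 ((Nat.prime_dvd_prime_iff_eq hp Nat.prime_two).mp h4)
  set a : ℕ → k := fun n => φ ⟨qCoeff g n, isIntegral_qCoeff hg n⟩ with ha
  obtain ⟨C, hC, h⟩ := card_ne_zero h2 hker (a := a)
    (by
      have h3 : (⟨qCoeff g 1, isIntegral_qCoeff hg 1⟩ : integralClosure ℤ ℂ) = 1 :=
        Subtype.ext hg.qCoeff_one
      rw [ha]
      dsimp only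
      rw [h3, map_one])
    (fun m n hmn => by
      rw [ha]
      dsimp only
      rw [← map_mul]
      congr 1
      exact Subtype.ext (hg.qCoeff_mul_of_coprime m n hmn))
    (mul_ne_zero (NeZero.ne N) hp.ne_zero) (fun q hq hqN A hA σ hσ => by
      have hqk : (q : k) ≠ 0 := by
        intro h
        have h4 := (CharP.cast_eq_zero_iff k p q).mp h
        exact hqN (((Nat.prime_dvd_prime_iff_eq hp hq).mp h4) ▸ dvd_mul_left p N)
      obtain ⟨c, hc, hch⟩ := hρ q hq (fun h => hqN (h.mul_right p)) hqk A hA σ hσ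
      rw [hr, hch, ha]
      have h5 : (⟨qCoeff g q, isIntegral_qCoeff hg q⟩ : integralClosure ℤ ℂ) = c :=
        Subtype.ext hc.symm
      dsimp only
      rw [h5]
      simp [Polynomial.coeff_X_pow, Polynomial.coeff_C])
  set α : ℝ := (Nat.card {g : r.range //
    ((g : GL (Fin 2) k) : Matrix (Fin 2) (Fin 2) k).trace = 0} : ℝ) / Nat.card r.range with hα
  have hα0 : 0 ≤ α := by positivity
  refine ⟨α, lt_of_le_of_ne hα0 fun h0 => ?_, exponent_lt_one h2 r, C, hC, h⟩
  rw [← h0] at h
  simp only [Real.rpow_zero, div_one] at h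
  have h3 := h.comp (tendsto_natCast_atTop_atTop (R := ℝ))
  have h4 := (serre_eigenform hg hp.ne_zero).comp (tendsto_add_atTop_nat 1)
  have h5 : Tendsto (fun x : ℕ => 1 + 1 / (x : ℝ)) atTop (𝓝 (1 + 0)) :=
    tendsto_one_div_atTop_nhds_zero_nat.const_add 1
  have h6 := h5.mul (h4.const_sub 1)
  rw [sub_self, mul_zero] at h6
  refine absurd (le_of_tendsto_of_tendsto h3 h6 ?_) (not_le.mpr hC)
  filter_upwards [eventually_gt_atTop 0] with x hx
  simp only [Function.comp_apply, Nat.floor_natCast]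
  have hx0 : (0 : ℝ) < x := by exact_mod_cast hx
  set A := (Finset.Icc 1 x).filter fun n => a n ≠ 0 with hA
  set B := (Finset.range (x + 1)).filter fun n =>
    ∃ b : ℂ, IsIntegral ℤ b ∧ qCoeff g n = p * b with hB
  have h7 : A.card + B.card ≤ x + 1 := by
    rw [← Finset.card_union_of_disjoint]
    · refine (Finset.card_le_card (t := Finset.range (x + 1)) fun n hn => ?_).trans
        (Finset.card_range _).le
      rcases Finset.mem_union.mp hn with hn | hn
      · rw [Finset.mem_range, Nat.lt_succ_iff]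
        exact (Finset.mem_Icc.mp (Finset.mem_filter.mp hn).1).2
      · exact (Finset.mem_filter.mp hn).1
    · rw [Finset.disjoint_left]
      intro n hn hn'
      obtain ⟨b, hb, hbn⟩ := (Finset.mem_filter.mp hn').2
      refine (Finset.mem_filter.mp hn).2 ?_
      have h8 : (⟨qCoeff g n, isIntegral_qCoeff hg n⟩ : integralClosure ℤ ℂ) =
          (p : integralClosure ℤ ℂ) * ⟨b, hb⟩ := Subtype.ext (hbn.trans (by push_cast; rfl))
      rw [ha]
      dsimp only
      rw [h8, map_mul, map_natCast, CharP.cast_eq_zero, zero_mul]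
  have h8 : (A.card : ℝ) + B.card ≤ x + 1 := by exact_mod_cast h7
  have h9 : (1 + 1 / (x : ℝ)) * (1 - (B.card : ℝ) / ((x + 1 : ℕ) : ℝ)) =
      ((x : ℝ) + 1 - B.card) / x := by
    have : (x : ℝ) + 1 ≠ 0 := by positivity
    push_cast
    field_simp
  rw [h9]
  exact div_le_div_of_nonneg_right (by linarith) hx0.le

end Form

end Fermat.Agent.Cor.Div

end
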