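import Fermat.Agent.Corollaries.Div.RatClass
import Fermat.Agent.Corollaries.Div.Exact
import Fermat.Agent.Corollaries.Artin.LogSum
import Fermat.Agent.Corollaries.LR.Norms
import Fermat.Agent.Corollaries.ZetaK.FrobFinal

/-!
# Multiplicative sets given by Frobenius: exact asymptotics

`ρ : Gal(ℚ̄/ℚ) → G` surjective with open kernel, `G` finite, `C ⊆ G` not empty, stable under
conjugation and under the passage to another generator of the same cyclic group. If the indicator
function of `S ⊆ ℕ` is multiplicative and for all but finitely many primes `p` one has `p ∈ S`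
exactly if `ρ(Frob_p) ∈ C`, then `#{n ≤ x : n ∈ S} ~ A x (log x) ^ (|C| / |G| - 1)` with `A > 0`
(`card_mulSet_frob`; Landau, Wirsing, Serre, Odoni).

* `card_mulSet_decType` : the sets given by the decomposition types of the primes in a number field;
* `card_norms` : for every number field `K` the number of the `m ≤ x` which are the norm of an
  integral ideal of `K` is `~ A x (log x) ^ (δ - 1)`, `δ` the proportion of the elements of the Galois
  group of the normal closure which have a fixed point on the embeddings of `K` (Odoni).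
-/

set_option autoImplicit false

noncomputable section

open Filter Topology NumberField
open Fermat.Agent.Frob Fermat.Agent.Classic.Level Fermat.Agent.Classic.Disc

namespace Fermat.Agent.Cor.Div

open Artin (HasLog)

theorem hasLog_zero : HasLog (fun _ => 0) 0 :=
  HasLog.of_finset ∅ fun _ _ _ => rfl

theorem hasLog_sum {ι : Type*} (s : Finset ι) {f : ι → ℕ → ℝ} {A : ι → ℝ}
    (h : ∀ i ∈ s, HasLog (f i) (A i)) : HasLog (fun n => ∑ i ∈ s, f i n) (∑ i ∈ s, A i) := by
  classical
  induction s using Finset.induction_on with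
  | empty =>
    simp only [Finset.sum_empty]
    exact hasLog_zero
  | insert a s ha ih =>
    simp only [Finset.sum_insert ha]
    exact (h a (Finset.mem_insert_self a s)).add (ih fun i hi => h i (Finset.mem_insert_of_mem hi))

section Frobenius

variable {G : Type*} [Group G]

/-- **Mertens' theorem for the divisions of a Galois group**: `Σ_p F(ρ(Frob_p)) p ^ (-1 - δ) + m log δ`
has a limit for `δ → 0+`, `m` the mean value of `F`. -/
theorem hasLog_frob [Fintype G] {ρ : GQ →* G} (hker : IsOpen (ρ.ker : Set GQ))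
    (hs : Function.Surjective ρ) {F : G → ℝ}
    (hF : ∀ g h : G, Subgroup.zpowers g = Subgroup.zpowers h → F g = F h)
    (hconj : ∀ x g : G, F (x⁻¹ * g * x) = F g) {N : ℕ} (hN : N ≠ 0) {f : ℕ → ℝ}
    (hf : ∀ p : ℕ, p.Prime → ¬ p ∣ N → ∀ A : ValuationSubring (AlgebraicClosure ℚ),
      A.LiesOverPrime p → ∀ σ : GQ, A.IsFrobeniusAt σ p → f p = F (ρ σ)) :
    HasLog f ((∑ g, F g) / Nat.card G) := by
  classical
  have : Fintype (Subgroup G) := Fintype.ofFinite _
  let : TopologicalSpace G := ⊥
  have : DiscreteTopology G := ⟨rfl⟩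
  have hρ : Continuous ρ := Frob.continuous_of_ker hker
  obtain ⟨b, hb⟩ := exists_perm hF hconj
  have T : ∀ H : Subgroup G, FixField ρ H := fun H => (exists_fixField hρ H).some
  choose D hD hT using fun H : Subgroup G => exists_degOne_eq (T H) hs
  have h1 : HasLog (fun n => ∑ H : Subgroup G, b H * (degOne (T H).F n : ℝ))
      (∑ H : Subgroup G, b H * 1) :=
    hasLog_sum _ fun H _ => (HasLog.degOne (T H).F).const_mul (b H)
  simp only [mul_one] at h1
  rw [sum_coeff hb] at h1
  have hM : N * ∏ H : Subgroup G, D H ≠ 0 :=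
    mul_ne_zero hN (Finset.prod_ne_zero_iff.mpr fun H _ => hD H)
  have h2 : HasLog (fun n => f n - ∑ H : Subgroup G, b H * (degOne (T H).F n : ℝ)) 0 := by
    refine HasLog.of_finset (N * ∏ H : Subgroup G, D H).primeFactors fun p hp hpM => ?_
    have hpd : ¬ p ∣ N * ∏ H : Subgroup G, D H := fun h =>
      hpM (Nat.mem_primeFactors.mpr ⟨hp, h, hM⟩)
    obtain ⟨A, hA, σ, hσ⟩ := Frob.exists_frobenius p hp
    rw [hf p hp (fun h => hpd (h.mul_right _)) A hA σ hσ, hb, sub_eq_zero]
    refine Finset.sum_congr rfl fun H _ => ?_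
    rw [hT H p hp (fun h => hpd (Dvd.dvd.mul_left
      (h.trans (Finset.dvd_prod_of_mem D (Finset.mem_univ H))) N)) A hA σ hσ]
  have h3 := h2.add h1
  rw [zero_add] at h3
  exact h3.congr fun p _ => by ring

end Frobenius

open Classical in
/-- `Σ_{p ≤ x, p ∈ P} log p ~ d x` from the natural density -/
theorem tendsto_theta_of_hasDensity {P : ℕ → Prop} {d : ℝ} (h : Frob.HasDensity P d) :
    Tendsto (fun x : ℕ => (∑ p ∈ (Finset.Ioc 0 x).filter Nat.Prime,
      (if P p then 1 else 0) * Real.log p) / x) atTop (𝓝 d) := by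
  have h1 : ∀ X : ℕ, isCount_primes.cnt (fun p _ => if P p then 1 else 0) X =
      Nat.card {p : ℕ // p ≤ X ∧ p.Prime ∧ P p} := by
    intro X
    have h1 := Mert.sum_F_primes (fun p => P p) (fun _ => 1) X
    rw [IsCount.cnt, ← Finset.sum_filter, h1, Finset.sum_const, nsmul_eq_mul, mul_one,
      ← Nat.card_eq_finsetCard]
    congr 1
    refine Nat.card_congr (Equiv.subtypeEquivRight fun p => ?_)
    rw [Finset.mem_filter, Finset.mem_Icc]
    constructor
    · rintro ⟨⟨h3, h4⟩, h5, h6⟩
      exact ⟨h4, h5, h6⟩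
    · rintro ⟨h3, h4, h5⟩
      exact ⟨⟨h4.one_le, h3⟩, h4, h5⟩
  have h2 : Tendsto (fun X : ℕ => isCount_primes.cnt (fun p _ => if P p then 1 else 0) X /
      (X * Real.log X ^ (-1 : ℝ))) atTop (𝓝 d) := by
    refine h.congr' ?_
    filter_upwards [eventually_gt_atTop 1] with X hX
    have hX0 : (0 : ℝ) < X := by exact_mod_cast (by omega : 0 < X)
    have hl : 0 < Real.log X := Real.log_pos (by exact_mod_cast hX)
    rw [h1, Real.rpow_neg_one]
    field_simp
  have h3 : Tendsto (fun x : ℝ => isCount_primes.cnt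
      (fun p _ => if P p then 1 else 0) ⌊x⌋₊ * Real.log x / x) atTop (𝓝 d) := by
    refine (LR.tendsto_real_of_nat h2).congr' ?_
    filter_upwards [eventually_gt_atTop 1] with x hx
    have hl := Real.log_pos hx
    rw [Real.rpow_neg_one]
    field_simp
  have h4 := (LR.tendsto_th_of_cnt (fun _ _ => by split_ifs <;> norm_num)
    (fun _ _ => by split_ifs <;> norm_num) h3).comp (tendsto_natCast_atTop_atTop (R := ℝ))
  refine h4.congr fun X => ?_
  simp only [Function.comp_apply, Nat.floor_natCast]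
  have h7 := Mert.sum_F_primes (fun _ => True) (fun p => (if P p then 1 else 0) * Real.log p) X
  simp only [Finset.filter_true, and_true] at h7
  rw [show (Finset.Ioc 0 X).filter Nat.Prime = (Finset.Icc 1 X).filter Nat.Prime from rfl, ← h7]
  rfl

open Classical in
/-- **The multiplicative sets given by Frobenius.** -/
theorem card_mulSet_frob {G : Type*} [Group G] [Finite G] {ρ : GQ →* G}
    (hker : IsOpen (ρ.ker : Set GQ)) (hs : Function.Surjective ρ) {C : Set G} (hC : C.Nonempty)
    (hgen : ∀ g h : G, Subgroup.zpowers g = Subgroup.zpowers h → g ∈ C → h ∈ C)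
    (hconj : ∀ x g : G, g ∈ C → x⁻¹ * g * x ∈ C) {S : Set ℕ} (h1 : 1 ∈ S)
    (hmul : ∀ m n : ℕ, m.Coprime n → (m * n ∈ S ↔ m ∈ S ∧ n ∈ S)) {N : ℕ} (hN : N ≠ 0)
    (hS : ∀ p : ℕ, p.Prime → ¬ p ∣ N → ∀ A : ValuationSubring (AlgebraicClosure ℚ),
      A.LiesOverPrime p → ∀ σ : GQ, A.IsFrobeniusAt σ p → (p ∈ S ↔ ρ σ ∈ C)) :
    ∃ a : ℝ, 0 < a ∧ Tendsto (fun x : ℝ =>
      (((Finset.Icc 1 ⌊x⌋₊).filter fun n => n ∈ S).card : ℝ) /
        (x * Real.log x ^ ((Nat.card C : ℝ) / Nat.card G - 1))) atTop (𝓝 a) := by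
  have : Fintype G := Fintype.ofFinite G
  have hG : (0 : ℝ) < Nat.card G := by exact_mod_cast Nat.card_pos
  have hCc : (0 : ℝ) < Nat.card C := by
    have : Nonempty C := hC.to_subtype
    exact_mod_cast Nat.card_pos
  set f : ℕ → ℝ := fun n => if n ∈ S then 1 else 0 with hf
  set F : G → ℝ := fun g => if g ∈ C then 1 else 0 with hFd
  have hconj' : ∀ x g : G, x⁻¹ * g * x ∈ C ↔ g ∈ C := by
    intro x g
    refine ⟨fun h => ?_, hconj x g⟩
    have h2 := hconj x⁻¹ _ h
    rwa [show (x⁻¹)⁻¹ * (x⁻¹ * g * x) * x⁻¹ = g by group] at h2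
  have hsum : (∑ g, F g) = Nat.card C := by
    rw [hFd, Finset.sum_boole, ← Fintype.card_subtype, ← Nat.card_eq_fintype_card]
  have hlog := hasLog_frob hker hs (F := F)
    (fun g h hgh => by
      rw [hFd]
      dsimp only
      by_cases hg : g ∈ C
      · rw [if_pos hg, if_pos (hgen g h hgh hg)]
      · rw [if_neg hg, if_neg fun hh => hg (hgen h g hgh.symm hh)])
    (fun x g => by
      rw [hFd]
      dsimp only
      simp only [hconj' x g]) hN (f := f)
    (fun p hp hpN A hA σ hσ => by
      rw [hf, hFd]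
      dsimp only
      simp only [hS p hp hpN A hA σ hσ])
  rw [hsum] at hlog
  -- a choice of Frobenius elements
  have hex : ∀ p : ℕ, ∃ σ : GQ, p.Prime → ∃ A : ValuationSubring (AlgebraicClosure ℚ),
      A.LiesOverPrime p ∧ A.IsFrobeniusAt σ p := by
    intro p
    by_cases hp : p.Prime
    · obtain ⟨A, hA, σ, hσ⟩ := Frob.exists_frobenius p hp
      exact ⟨σ, fun _ => ⟨A, hA, hσ⟩⟩
    · exact ⟨1, fun h => absurd h hp⟩
  choose φ hφ using hex
  have hdens : Frob.HasDensity (fun p => p ∈ S) ((Nat.card C : ℝ) / Nat.card G) := by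
    refine (Frob.Final.frobenius_density hker hs hφ hconj hgen).congr hN fun p hp hpN => ?_
    obtain ⟨A, hA, hσ⟩ := hφ p hp
    exact (hS p hp hpN A hA _ hσ).symm
  have D : LR.MulF f ((Nat.card C : ℝ) / Nat.card G) :=
    { nonneg := fun n => by rw [hf]; dsimp only; split_ifs <;> norm_num
      le_one := fun n => by rw [hf]; dsimp only; split_ifs <;> norm_num
      lim := tendsto_theta_of_hasDensity hdens
      pos := div_pos hCc hG
      map_one := if_pos h1
      map_mul := fun m n hmn => by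
        rw [hf]
        dsimp only
        by_cases hm : m ∈ S <;> by_cases hn : n ∈ S <;> simp [hmul m n hmn, hm, hn] }
  obtain ⟨c, hc⟩ := hlog.2
  obtain ⟨a, ha, h⟩ := Artin.exists_tendsto_mean D hc
  refine ⟨a, ha, h.congr fun x => ?_⟩
  rw [hf, Finset.sum_boole]
  rfl

section Field

variable (K : Type*) [Field K] [NumberField K]

open Classical in
/-- **The multiplicative sets given by the decomposition types of the primes in a number field.** -/
theorem card_mulSet_decType (P : Multiset ℕ → Prop) (hP : ∃ s : Frob.GalK K, P (Frob.cycType K s))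
    {S : Set ℕ} (h1 : 1 ∈ S) (hmul : ∀ m n : ℕ, m.Coprime n → (m * n ∈ S ↔ m ∈ S ∧ n ∈ S)) {N : ℕ}
    (hN : N ≠ 0) (hS : ∀ p : ℕ, p.Prime → ¬ p ∣ N → (p ∈ S ↔ P (Frob.decType K p))) :
    ∃ a : ℝ, 0 < a ∧ Tendsto (fun x : ℝ =>
      (((Finset.Icc 1 ⌊x⌋₊).filter fun n => n ∈ S).card : ℝ) /
        (x * Real.log x ^ ((Nat.card {s : Frob.GalK K // P (Frob.cycType K s)} : ℝ) /
          Nat.card (Frob.GalK K) - 1))) atTop (𝓝 a) := by
  obtain ⟨D, hD, h⟩ := Frob.decType_eq (K := K)
  have hker : IsOpen (((Frob.embPerm K).rangeRestrict.ker : Subgroup GQ) : Set GQ) := by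
    rw [MonoidHom.ker_rangeRestrict]
    exact Frob.isOpen_ker_embPerm K
  obtain ⟨s, hs⟩ := hP
  refine card_mulSet_frob hker (Frob.embPerm K).rangeRestrict_surjective
    (C := {s : Frob.GalK K | P (Frob.cycType K s)}) ⟨s, hs⟩
    (fun g g' hz hg => by
      have h2 : Frob.cycType K g' = Frob.cycType K g := by
        rw [Frob.cycType, Frob.cycType]
        refine (Frob.parts_of_zpowers ?_).symm
        have h3 := congrArg (Subgroup.map (Frob.GalK K).subtype) hz
        rwa [MonoidHom.map_zpowers, MonoidHom.map_zpowers] at h3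
      rw [Set.mem_ofPred_eq, h2]
      exact hg)
    (fun x g hg => by
      have h2 : Frob.cycType K ((x⁻¹ * g * x : Frob.GalK K) :
          Equiv.Perm (K →+* AlgebraicClosure ℚ)) = Frob.cycType K g := by
        rw [Frob.cycType, Frob.cycType]
        congr 1
        refine (Equiv.Perm.partition_eq_of_isConj.mp ?_).symm
        rw [isConj_iff]
        exact ⟨(x : Equiv.Perm (K →+* AlgebraicClosure ℚ))⁻¹, by simp⟩
      rw [Set.mem_ofPred_eq, h2]
      exact hg) h1 hmul (mul_ne_zero hN hD) fun p hp hpN A hA σ hσ => ?_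
  rw [hS p hp (fun hd => hpN (hd.mul_right _)), h p hp (fun hd => hpN (hd.mul_left _)) A hA σ hσ]
  rfl

/-- **The norms of the integral ideals of a number field** (Odoni): for every number field `K` the
number of the `m ≤ x` which are the norm of an integral ideal of `K` is
`~ a x (log x) ^ (δ - 1)`, `a > 0`, where `δ` is the proportion of the elements of the Galois group
of the normal closure of `K` which fix an embedding of `K`. -/
theorem card_norms : ∃ a : ℝ, 0 < a ∧ Tendsto (fun x : ℝ =>
    (Nat.card {m : ℕ // m ∈ Finset.Icc 1 ⌊x⌋₊ ∧ ∃ I : Ideal (𝓞 K), Ideal.absNorm I = m} : ℝ) /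
      (x * Real.log x ^ ((Nat.card {s : Frob.GalK K // ∃ j : K →+* AlgebraicClosure ℚ,
        (s : Equiv.Perm (K →+* AlgebraicClosure ℚ)) j = j} : ℝ) /
          Nat.card (Frob.GalK K) - 1))) atTop (𝓝 a) := by
  classical
  obtain ⟨j⟩ : Nonempty (K →+* AlgebraicClosure ℚ) := by
    refine (Nat.card_pos_iff.mp ?_).1
    rw [Frob.natCard_emb]
    exact Module.finrank_pos
  obtain ⟨a, ha, h⟩ := card_mulSet_decType K (fun m => 1 ∈ m)
    ⟨1, (Frob.one_mem_cycType_iff _).mpr ⟨j, rfl⟩⟩ (S := {m | LR.IsNm K m}) LR.isNm_one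
    (fun m n hmn => LR.isNm_mul hmn) (N := 1) one_ne_zero (fun p hp _ => by
      rw [Set.mem_ofPred_eq, LR.isNm_prime hp, Frob.one_mem_decType_iff, degOne,
        Finset.card_ne_zero]
      constructor
      · rintro ⟨v, hv⟩
        exact ⟨v, (Finset.mem_filter.mp hv).1, (Finset.mem_filter.mp hv).2⟩
      · rintro ⟨v, hv, hv1⟩
        exact ⟨v, Finset.mem_filter.mpr ⟨hv, hv1⟩⟩)
  refine ⟨a, ha, ?_⟩
  have e : Nat.card {s : Frob.GalK K // 1 ∈ Frob.cycType K s} =
      Nat.card {s : Frob.GalK K // ∃ j : K →+* AlgebraicClosure ℚ,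
        (s : Equiv.Perm (K →+* AlgebraicClosure ℚ)) j = j} :=
    Nat.card_congr (Equiv.subtypeEquivRight fun s => Frob.one_mem_cycType_iff _)
  rw [e] at h
  refine h.congr fun x => ?_
  congr 1
  have h2 := LR.sum_nm (K := K) ⌊x⌋₊
  rw [← h2]
  unfold LR.nm
  rw [Finset.sum_boole]
  rfl

/-- **The integers all of whose prime factors split completely in `K`**: the number of those which
are at most `x` is `~ a x (log x) ^ (1 / g - 1)`, `g` the order of the Galois group of the normal
closure of `K`. -/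
theorem card_splits : ∃ a : ℝ, 0 < a ∧ Tendsto (fun x : ℝ =>
    (Nat.card {m : ℕ // m ∈ Finset.Icc 1 ⌊x⌋₊ ∧ ∀ p : ℕ, p.Prime → p ∣ m →
      (above K p).card = Module.finrank ℚ K} : ℝ) /
      (x * Real.log x ^ ((1 : ℝ) / Nat.card (Frob.GalK K) - 1))) atTop (𝓝 a) := by
  classical
  set S : Set ℕ := {m | ∀ p : ℕ, p.Prime → p ∣ m → (above K p).card = Module.finrank ℚ K} with hS
  obtain ⟨a, ha, h⟩ := card_mulSet_decType K
    (fun m => m = Multiset.replicate (Module.finrank ℚ K) 1)
    ⟨1, (Frob.cycType_eq_replicate_iff _).mpr rfl⟩ (S := S)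
    (fun p hp h => absurd (Nat.dvd_one.mp h) hp.one_lt.ne')
    (fun m n hmn => by
      constructor
      · intro h
        exact ⟨fun p hp hpm => h p hp (hpm.mul_right n), fun p hp hpn => h p hp (hpn.mul_left m)⟩
      · rintro ⟨h1, h2⟩ p hp hpmn
        rcases (Nat.Prime.dvd_mul hp).mp hpmn with h | h
        · exact h1 p hp h
        · exact h2 p hp h) (N := 1) one_ne_zero (fun p hp _ => by
      rw [Frob.decType_eq_replicate_iff hp]
      constructor
      · intro h
        exact h p hp dvd_rfl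
      · intro h q hq hqp
        rwa [(Nat.prime_dvd_prime_iff_eq hq hp).mp hqp])
  refine ⟨a, ha, ?_⟩
  have e : Nat.card {s : Frob.GalK K // Frob.cycType K s =
      Multiset.replicate (Module.finrank ℚ K) 1} = 1 := by
    rw [Nat.card_eq_one_iff_unique]
    refine ⟨⟨fun a b => ?_⟩, ⟨⟨1, (Frob.cycType_eq_replicate_iff _).mpr rfl⟩⟩⟩
    have ha := (Frob.cycType_eq_replicate_iff _).mp a.2
    have hb := (Frob.cycType_eq_replicate_iff _).mp b.2
    exact Subtype.ext (Subtype.ext (ha.trans hb.symm))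
  rw [e, Nat.cast_one] at h
  refine h.congr fun x => ?_
  congr 1
  rw [← Nat.card_eq_finsetCard]
  congr 1
  refine Nat.card_congr (Equiv.subtypeEquivRight fun m => ?_)
  rw [Finset.mem_filter, hS, Set.mem_ofPred_eq]

end Field

end Fermat.Agent.Cor.Div

end
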