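import Fermat.Agent.Corollaries.Cheb.NatMain

/-!
# Sets of primes described by Frobenius elements

`IsLevel C` : the property `C` of automorphisms of `ℚ̄` depends only on the conjugacy class of the
restriction to some finite extension. If membership in `P` is, for almost all primes `p`, the
property `C` of the Frobenius elements at `p`, then `P` has a natural density, which is a rational
number and is positive as soon as one automorphism has the property (`tendsto_primes`), and then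
`∑_{p ∈ P} 1 / p = ∞` (`not_summable`).
-/

set_option autoImplicit false

open Filter Topology
open Fermat.Agent.FrobDensity Fermat.Agent.Frob

namespace Fermat.Agent.Cor.Div

/-- The property `C` of automorphisms of `ℚ̄` depends only on the conjugacy class of the restriction
to a finite extension. -/
structure IsLevel (C : GQ → Prop) : Prop where
  /-- finite level -/
  level : ∃ L : IntermediateField ℚ (AlgebraicClosure ℚ), FiniteDimensional ℚ L ∧
    ∀ σ τ : GQ, (∀ x ∈ L, σ x = τ x) → C σ → C τ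
  /-- invariance under conjugation -/
  conj : ∀ σ τ : GQ, C σ → C (τ * σ * τ⁻¹)

/-- The finite quotient of the Galois group which decides a property of finite level. -/
theorem exists_group {C : GQ → Prop} (h : IsLevel C) :
    ∃ (G : Type) (_ : Group G) (_ : Finite G) (ψ : GQ →* G), Function.Surjective ψ ∧
      (∃ L : IntermediateField ℚ (AlgebraicClosure ℚ), FiniteDimensional ℚ L ∧
        ∀ σ : GQ, (∀ x ∈ L, σ x = x) → ψ σ = 1) ∧ ∀ σ, ψ σ ∈ ψ '' {σ | C σ} ↔ C σ := by
  obtain ⟨L, hL, hC⟩ := h.level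
  let L' := IntermediateField.normalClosure ℚ L (AlgebraicClosure ℚ)
  have hfin : FiniteDimensional ℚ L' := normalClosure.is_finiteDimensional ℚ L _
  have hnorm : Normal ℚ L' := normalClosure.normal ℚ L _
  have hgal : IsGalois ℚ L' := ⟨⟩
  have hLL : L ≤ L' := IntermediateField.le_normalClosure L
  set ψ : GQ →* (L' ≃ₐ[ℚ] L') := AlgEquiv.restrictNormalHom L' with hψ
  have hsurj : Function.Surjective ψ :=
    AlgEquiv.restrictNormalHom_surjective (AlgebraicClosure ℚ)
  have key : ∀ (τ τ' : GQ), ψ τ = ψ τ' → ∀ x ∈ L', τ x = τ' x := by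
    intro τ τ' hττ' x hx
    have h1 := AlgEquiv.restrictNormal_commutes τ L' ⟨x, hx⟩
    have h2 := AlgEquiv.restrictNormal_commutes τ' L' ⟨x, hx⟩
    have h3 : τ.restrictNormal L' = τ'.restrictNormal L' := hττ'
    rw [h3] at h1
    exact h1.symm.trans h2
  have key' : ∀ (τ τ' : GQ), (∀ x ∈ L', τ x = τ' x) → ψ τ = ψ τ' := by
    intro τ τ' h
    ext x
    have h1 := AlgEquiv.restrictNormal_commutes τ L' x
    have h2 := AlgEquiv.restrictNormal_commutes τ' L' x
    exact (h1.trans (h _ x.2)).trans h2.symm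
  refine ⟨L' ≃ₐ[ℚ] L', inferInstance, inferInstance, ψ, hsurj, ⟨L', hfin, fun σ hσ => ?_⟩,
    fun σ => ⟨?_, fun h => ⟨σ, h, rfl⟩⟩⟩
  · rw [← map_one ψ]
    exact key' σ 1 fun x hx => by rw [hσ x hx]; rfl
  · rintro ⟨τ, hτ, hτσ⟩
    exact hC τ σ (fun x hx => key τ σ hτσ x (hLL hx)) hτ

/-- the image of a conjugation stable property is conjugation stable -/
theorem image_conj {C : GQ → Prop} (h : IsLevel C) {G : Type} [Group G] {ψ : GQ →* G}
    (hsurj : Function.Surjective ψ) : ∀ g c : G, c ∈ ψ '' {σ | C σ} →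
      g * c * g⁻¹ ∈ ψ '' {σ | C σ} := by
  rintro g _ ⟨σ, hσ, rfl⟩
  obtain ⟨τ, rfl⟩ := hsurj g
  exact ⟨τ * σ * τ⁻¹, h.conj σ τ hσ, by rw [map_mul, map_mul, map_inv]⟩

/-- `P` is described by the property `C` of the Frobenius elements, outside a finite set. -/
def Describes (C : GQ → Prop) (P : Set ℕ) : Prop :=
  ∃ T : Finset ℕ, ∀ p : ℕ, p.Prime → p ∉ T → ∀ A : ValuationSubring (AlgebraicClosure ℚ),
    A.LiesOverPrime p → ∀ φ : GQ, A.IsFrobeniusAt φ p → (p ∈ P ↔ C φ)

theorem exists_iff {C : GQ → Prop} (h : IsLevel C) {P : Set ℕ} (hP : Describes C P)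
    {G : Type} [Group G] {ψ : GQ →* G} (hsurj : Function.Surjective ψ)
    (hlevel : ∃ L : IntermediateField ℚ (AlgebraicClosure ℚ), FiniteDimensional ℚ L ∧
        ∀ σ : GQ, (∀ x ∈ L, σ x = x) → ψ σ = 1) (hψ : ∀ σ, ψ σ ∈ ψ '' {σ | C σ} ↔ C σ) :
    ∃ T : Finset ℕ, ∀ p : ℕ, p.Prime → p ∉ T → (p ∈ FrobIn ψ (ψ '' {σ | C σ}) ↔ p ∈ P) := by
  obtain ⟨L, hL, hL'⟩ := hlevel
  obtain ⟨T₁, hT₁⟩ := exists_mem_FrobIn_iff ψ L hL' _ (image_conj h hsurj)
  obtain ⟨T₂, hT₂⟩ := hP
  refine ⟨T₁ ∪ T₂, fun p hp hpT => ?_⟩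
  rw [Finset.mem_union, not_or] at hpT
  obtain ⟨A, hA, hf⟩ := exists_frob_place hp
  rw [hT₁ p hp hpT.1, hψ, hT₂ p hp hpT.2 A hA _ hf]

open Classical in
/-- **Natural density.** -/
theorem tendsto_primes {C : GQ → Prop} (h : IsLevel C) {P : Set ℕ} (hP : Describes C P) :
    ∃ δ : ℚ, 0 ≤ δ ∧ δ ≤ 1 ∧ ((∃ σ, C σ) → 0 < δ) ∧
      Tendsto (fun x : ℕ => (((Finset.range (x + 1)).filter fun p => p.Prime ∧ p ∈ P).card : ℝ) /
        Nat.primeCounting x) atTop (𝓝 δ) := by
  obtain ⟨G, hG, hfin, ψ, hsurj, hlevel, hψ⟩ := exists_group h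
  obtain ⟨T, hT⟩ := exists_iff h hP hsurj hlevel hψ
  have hcheb := Cheb.chebotarev_natural hsurj hlevel (image_conj h hsurj)
  refine ⟨(Nat.card (ψ '' {σ | C σ}) : ℚ) / Nat.card G, by positivity, ?_, ?_, ?_⟩
  · refine div_le_one_of_le₀ ?_ (Nat.cast_nonneg _)
    exact_mod_cast Nat.card_le_card_of_injective _ Subtype.val_injective
  · rintro ⟨σ, hσ⟩
    have h1 : Nonempty (ψ '' {σ | C σ}) := ⟨⟨ψ σ, σ, hσ, rfl⟩⟩
    have h2 : 0 < Nat.card (ψ '' {σ | C σ}) := Nat.card_pos
    have h3 : 0 < Nat.card G := Nat.card_pos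
    positivity
  · have h1 : Tendsto (fun x : ℕ => (T.card : ℝ) / Nat.primeCounting x) atTop (𝓝 0) := by
      refine Tendsto.div_atTop tendsto_const_nhds ?_
      exact tendsto_natCast_atTop_atTop.comp Nat.tendsto_primeCounting
    have h2 : Tendsto (fun x : ℕ =>
        (((Finset.range (x + 1)).filter fun p => p.Prime ∧ p ∈ P).card : ℝ) /
          Nat.primeCounting x - (((Finset.range (x + 1)).filter fun p =>
            p ∈ FrobIn ψ (ψ '' {σ | C σ})).card : ℝ) / Nat.primeCounting x) atTop (𝓝 0) := by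
      refine squeeze_zero_norm (fun x => ?_) h1
      rw [← sub_div, norm_div, Real.norm_eq_abs, Real.norm_eq_abs, Nat.abs_cast]
      refine div_le_div_of_nonneg_right ?_ (Nat.cast_nonneg _)
      have h3 : ((Finset.range (x + 1)).filter fun p => p.Prime ∧ p ∈ P) ⊆
          ((Finset.range (x + 1)).filter fun p => p ∈ FrobIn ψ (ψ '' {σ | C σ})) ∪ T := by
        intro p hp
        rw [Finset.mem_filter] at hp
        by_cases hpT : p ∈ T
        · exact Finset.mem_union_right _ hpT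
        · exact Finset.mem_union_left _ (Finset.mem_filter.mpr
            ⟨hp.1, (hT p hp.2.1 hpT).mpr hp.2.2⟩)
      have h4 : ((Finset.range (x + 1)).filter fun p => p ∈ FrobIn ψ (ψ '' {σ | C σ})) ⊆
          ((Finset.range (x + 1)).filter fun p => p.Prime ∧ p ∈ P) ∪ T := by
        intro p hp
        rw [Finset.mem_filter] at hp
        by_cases hpT : p ∈ T
        · exact Finset.mem_union_right _ hpT
        · exact Finset.mem_union_left _ (Finset.mem_filter.mpr
            ⟨hp.1, hp.2.1, (hT p hp.2.1 hpT).mp hp.2⟩)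
      have h5 := (Finset.card_le_card h3).trans (Finset.card_union_le _ _)
      have h6 := (Finset.card_le_card h4).trans (Finset.card_union_le _ _)
      rw [abs_le]
      constructor
      · have : (((Finset.range (x + 1)).filter fun p => p ∈ FrobIn ψ (ψ '' {σ | C σ})).card : ℝ) ≤
            ((Finset.range (x + 1)).filter fun p => p.Prime ∧ p ∈ P).card + T.card := by
          exact_mod_cast h6
        linarith
      · have : (((Finset.range (x + 1)).filter fun p => p.Prime ∧ p ∈ P).card : ℝ) ≤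
            ((Finset.range (x + 1)).filter fun p => p ∈ FrobIn ψ (ψ '' {σ | C σ})).card +
              T.card := by
          exact_mod_cast h5
        linarith
    have h3 := h2.add hcheb
    rw [zero_add] at h3
    push_cast
    refine h3.congr fun x => ?_
    ring

/-- **The sum of the reciprocals diverges** over every set of primes which contains almost all
primes with a Frobenius element having the property `C`. -/
theorem not_summable_of_imp {C : GQ → Prop} (h : IsLevel C) {P : Set ℕ}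
    (hP : ∃ T : Finset ℕ, ∀ p : ℕ, p.Prime → p ∉ T → ∀ A : ValuationSubring (AlgebraicClosure ℚ),
      A.LiesOverPrime p → ∀ φ : GQ, A.IsFrobeniusAt φ p → C φ → p ∈ P) {σ : GQ}
    (hσ : C σ) : ¬ Summable fun p : {p : ℕ | p.Prime ∧ p ∈ P} => (1 : ℝ) / (p : ℕ) := by
  classical
  intro hsum
  obtain ⟨G, hG, hfin, ψ, hsurj, hlevel, hψ⟩ := exists_group h
  obtain ⟨T, hT'⟩ := hP
  have hcheb := chebotarev_PS ψ hsurj hlevel _ (image_conj h hsurj)
  set D := ψ '' {σ | C σ} with hD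
  have hT : ∀ p : ℕ, p.Prime → p ∉ T → p ∈ FrobIn ψ D → p ∈ P := by
    rintro p hp hpT ⟨-, A, hA, -, φ, hφ, hφD⟩
    exact hT' p hp hpT A hA φ hφ ((hψ φ).mp hφD)
  set B : ℝ := ∑' p : {p : ℕ | p.Prime ∧ p ∈ P}, (1 : ℝ) / (p : ℕ) with hB
  have hbound : ∀ s : ℝ, 1 < s → |PS (fun p => if p ∈ FrobIn ψ D then 1 else 0) s| ≤
      T.card + B := by
    intro s hs
    have h0 : ∀ p : Nat.Primes, 0 ≤ (if (p : ℕ) ∈ FrobIn ψ D then (1 : ℝ) else 0) *
        ((p : ℕ) : ℝ) ^ (-s) := fun p => by positivity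
    have h1 : 0 ≤ PS (fun p => if p ∈ FrobIn ψ D then 1 else 0) s := tsum_nonneg h0
    rw [abs_of_nonneg h1]
    refine Real.tsum_le_of_sum_le h0 fun u => ?_
    have h2 : ∀ p ∈ u, (if (p : ℕ) ∈ FrobIn ψ D then (1 : ℝ) else 0) * ((p : ℕ) : ℝ) ^ (-s) ≤
        (if (p : ℕ) ∈ T then 1 else 0) + if (p : ℕ) ∈ P then (1 : ℝ) / (p : ℕ) else 0 := by
      intro p _
      have hp1 : (1 : ℝ) ≤ ((p : ℕ) : ℝ) := by exact_mod_cast p.2.one_lt.le
      have hle : ((p : ℕ) : ℝ) ^ (-s) ≤ 1 / ((p : ℕ) : ℝ) := by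
        rw [one_div, ← Real.rpow_neg_one]
        exact Real.rpow_le_rpow_of_exponent_le hp1 (by linarith)
      have hle1 : (1 : ℝ) / ((p : ℕ) : ℝ) ≤ 1 := by
        rw [div_le_one (by linarith)]
        exact hp1
      have hnn : (0 : ℝ) ≤ 1 / ((p : ℕ) : ℝ) := by positivity
      by_cases hpT : (p : ℕ) ∈ T
      · rw [if_pos hpT]
        split_ifs <;> linarith
      · rw [if_neg hpT]
        by_cases hpF : (p : ℕ) ∈ FrobIn ψ D
        · rw [if_pos hpF, if_pos (hT p p.2 hpT hpF)]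
          linarith
        · rw [if_neg hpF]
          split_ifs <;> linarith
    refine (Finset.sum_le_sum h2).trans ?_
    rw [Finset.sum_add_distrib]
    refine add_le_add ?_ ?_
    · rw [← Finset.sum_filter, Finset.sum_const, nsmul_eq_mul, mul_one]
      have h3 : (u.filter fun p : Nat.Primes => (p : ℕ) ∈ T).card ≤ T.card := by
        refine Finset.card_le_card_of_injOn (fun p : Nat.Primes => (p : ℕ)) ?_ ?_
        · intro p hp
          exact (Finset.mem_filter.mp hp).2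
        · intro p _ q _ hpq
          exact Subtype.ext hpq
      exact_mod_cast h3
    · rw [← Finset.sum_filter]
      set v := u.filter fun p : Nat.Primes => (p : ℕ) ∈ P with hv
      let e : {p // p ∈ v} ↪ {p : ℕ | p.Prime ∧ p ∈ P} :=
        ⟨fun p => ⟨((p.1 : Nat.Primes) : ℕ), p.1.2, (Finset.mem_filter.mp p.2).2⟩,
          fun p q hpq => by
            have h4 : ((p.1 : Nat.Primes) : ℕ) = ((q.1 : Nat.Primes) : ℕ) :=
              congrArg (fun z : {p : ℕ | p.Prime ∧ p ∈ P} => (z.1 : ℕ)) hpq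
            exact Subtype.ext (Subtype.ext h4)⟩
      have h3 : ∑ p ∈ v, (1 : ℝ) / ((p : ℕ) : ℝ) =
          ∑ q ∈ v.attach.map e, (1 : ℝ) / ((q : ℕ) : ℝ) := by
        rw [Finset.sum_map, ← Finset.sum_attach]
        rfl
      rw [h3]
      exact hsum.sum_le_tsum _ fun q _ => by positivity
  have h5 : Tendsto (fun s : ℝ => PS (fun p => if p ∈ FrobIn ψ D then 1 else 0) s /
      Real.log (1 / (s - 1))) (𝓝[>] 1) (𝓝 0) := by
    refine squeeze_zero_norm' (a := fun s => (T.card + B) / Real.log (1 / (s - 1))) ?_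
      (tendsto_log_atTop.const_div_atTop _)
    filter_upwards [self_mem_nhdsWithin, tendsto_log_atTop.eventually_gt_atTop 0] with s h1 h2
    rw [norm_div, Real.norm_eq_abs, Real.norm_eq_abs, abs_of_pos h2]
    exact div_le_div_of_nonneg_right (hbound s h1) h2.le
  have h6 := tendsto_nhds_unique hcheb h5
  have h7 : (0 : ℝ) < (Nat.card D : ℝ) / Nat.card G := by
    have : Nonempty D := ⟨⟨ψ σ, σ, hσ, rfl⟩⟩
    have h8 : 0 < Nat.card D := Nat.card_pos
    have h9 : 0 < Nat.card G := Nat.card_pos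
    positivity
  exact h7.ne' h6

/-- **The sum of the reciprocals diverges.** -/
theorem not_summable {C : GQ → Prop} (h : IsLevel C) {P : Set ℕ} (hP : Describes C P) {σ : GQ}
    (hσ : C σ) : ¬ Summable fun p : {p : ℕ | p.Prime ∧ p ∈ P} => (1 : ℝ) / (p : ℕ) := by
  obtain ⟨T, hT⟩ := hP
  exact not_summable_of_imp h ⟨T, fun p hp hpT A hA φ hφ => (hT p hp hpT A hA φ hφ).mpr⟩ hσ

/-- The primes all of whose Frobenius elements have the property `C`. -/
def FrobSet (C : GQ → Prop) : Set ℕ :=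
  {p | ∀ A : ValuationSubring (AlgebraicClosure ℚ), A.LiesOverPrime p → ∀ φ : GQ,
    A.IsFrobeniusAt φ p → C φ}

/-- At almost all primes it does not matter which Frobenius element we take. -/
theorem describes_frobSet {C : GQ → Prop} (h : IsLevel C) : Describes C (FrobSet C) := by
  obtain ⟨L, hL, hC⟩ := h.level
  obtain ⟨T, hT⟩ := exists_unram L
  refine ⟨T, fun p hp hpT A hA φ hφ => ⟨fun h1 => h1 A hA φ hφ, fun hCφ A' hA' φ' hφ' => ?_⟩⟩
  obtain ⟨g, rfl⟩ := exists_smul_eq hp hA hA'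
  exact hC _ _ ((hT p hp hpT _ hA').2 _ _ (isFrobeniusAt_conj (g := g) hφ) hφ') (h.conj φ g hCφ)

open Classical in
/-- A set of primes which contains almost all primes with a Frobenius element having the property
`C` contains a set of primes of positive natural density. -/
theorem exists_subset {C : GQ → Prop} (h : IsLevel C) {P : Set ℕ}
    (hP : ∃ T : Finset ℕ, ∀ p : ℕ, p.Prime → p ∉ T → ∀ A : ValuationSubring (AlgebraicClosure ℚ),
      A.LiesOverPrime p → ∀ φ : GQ, A.IsFrobeniusAt φ p → C φ → p ∈ P) {σ : GQ} (hσ : C σ) :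
    ∃ P' ⊆ P, (∀ p ∈ P', p.Prime) ∧ ∃ δ : ℚ, 0 < δ ∧ δ ≤ 1 ∧
      Tendsto (fun x : ℕ => (((Finset.range (x + 1)).filter fun p => p ∈ P').card : ℝ) /
        Nat.primeCounting x) atTop (𝓝 δ) := by
  obtain ⟨T, hT⟩ := hP
  obtain ⟨T₂, hT₂⟩ := describes_frobSet h
  have h1 : Describes C {p | p ∈ FrobSet C ∧ p ∉ T} := by
    refine ⟨T ∪ T₂, fun p hp hpT A hA φ hφ => ?_⟩
    rw [Finset.mem_union, not_or] at hpT
    rw [← hT₂ p hp hpT.2 A hA φ hφ]
    exact ⟨fun h2 => h2.1, fun h2 => ⟨h2, hpT.1⟩⟩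
  obtain ⟨δ, -, h2, h3, h4⟩ := tendsto_primes h h1
  refine ⟨{p | p.Prime ∧ p ∈ FrobSet C ∧ p ∉ T}, ?_, fun p hp => hp.1, δ, h3 ⟨σ, hσ⟩, h2, ?_⟩
  · rintro p ⟨hp, hpF, hpT⟩
    obtain ⟨A, hA, hf⟩ := exists_frob_place hp
    exact hT p hp hpT A hA _ hf (hpF A hA _ hf)
  · simpa only [Set.mem_ofPred_eq] using h4

/-! ### Roots of unity -/

/-- The field generated by the `m`-th roots of unity. -/
theorem exists_level_root {m : ℕ} (hm : m ≠ 0) :
    ∃ L : IntermediateField ℚ (AlgebraicClosure ℚ), FiniteDimensional ℚ L ∧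
      ∀ σ : GQ, (∀ x ∈ L, σ x = x) → ∀ μ : AlgebraicClosure ℚ, μ ^ m = 1 → σ μ = μ := by
  have hfin : {μ : AlgebraicClosure ℚ | μ ^ m = 1}.Finite := by
    refine (Polynomial.finite_setOfPred_isRoot
      (Polynomial.X_pow_sub_C_ne_zero (Nat.pos_of_ne_zero hm) (1 : AlgebraicClosure ℚ))).subset ?_
    intro μ hμ
    have hμ' : μ ^ m = 1 := hμ
    simp [Polynomial.IsRoot, hμ']
  have := hfin.to_subtype
  refine ⟨IntermediateField.adjoin ℚ {μ : AlgebraicClosure ℚ | μ ^ m = 1},
    IntermediateField.finiteDimensional_adjoin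
      (fun x _ => ((AlgebraicClosure.isAlgebraic ℚ).isAlgebraic x).isIntegral),
    fun σ hσ μ hμ => hσ μ (IntermediateField.subset_adjoin ℚ _ hμ)⟩

/-- the exponent of the action on the roots of unity is determined modulo `m` -/
theorem modEq_of_pow {m b b' : ℕ} {σ : GQ}
    (h : ∀ μ : AlgebraicClosure ℚ, μ ^ m = 1 → σ μ = μ ^ b)
    (h' : ∀ μ : AlgebraicClosure ℚ, μ ^ m = 1 → σ μ = μ ^ b') (hm : m ≠ 0) : b ≡ b' [MOD m] := by
  have : NeZero (m : AlgebraicClosure ℚ) := ⟨by exact_mod_cast hm⟩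
  obtain ⟨μ, hμ⟩ := (HasEnoughRootsOfUnity.exists_primitiveRoot (AlgebraicClosure ℚ) m)
  have h1 : μ ^ b = μ ^ b' := by rw [← h μ hμ.pow_eq_one, h' μ hμ.pow_eq_one]
  have hu : (hμ.isUnit hm).unit ^ b = (hμ.isUnit hm).unit ^ b' := Units.ext h1
  have ho : orderOf (hμ.isUnit hm).unit = m := by
    rw [← orderOf_units, IsUnit.unit_spec, ← hμ.eq_orderOf]
  have h2 := pow_eq_pow_iff_modEq.mp hu
  rwa [ho] at h2

/-- infinitely many primes -/
theorem infinite_primes {C : GQ → Prop} (h : IsLevel C) {P : Set ℕ} (hP : Describes C P) {σ : GQ}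
    (hσ : C σ) : {p : ℕ | p.Prime ∧ p ∈ P}.Infinite := by
  intro hfin
  have := hfin.to_subtype
  exact not_summable h hP hσ (summable_of_hasFiniteSupport (Set.toFinite _))

end Fermat.Agent.Cor.Div
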