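import Mathlib

/-!
# A sieve: integers without exact prime divisors in a given set

`tendsto_zero` : if `P` is a set of primes with `∑_{p ∈ P} 1 / p = ∞`, then the integers `n` which no
`p ∈ P` divides exactly once have natural density `0`. Hence (`tendsto_mem_ideal`) a function `a`
multiplicative on coprime integers with `a p ∈ I` for all `p ∈ P` has its values in `I` for all `n`
outside a set of natural density `0`.
-/

set_option autoImplicit false

open Filter Topology Finset

namespace Fermat.Agent.Cor.Div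

/-- `p` divides `n` exactly once -/
def Exact (p n : ℕ) : Prop := p ∣ n ∧ ¬ p ^ 2 ∣ n

/-- no prime of `S` divides `n` exactly once -/
def Bad (S : Finset ℕ) (n : ℕ) : Prop := ∀ p ∈ S, ¬ Exact p n

theorem exact_mod {p n M : ℕ} (h : p ^ 2 ∣ M) : Exact p (n % M) ↔ Exact p n := by
  have h1 : p ∣ M := (dvd_pow_self p two_ne_zero).trans h
  rw [Exact, Exact, Nat.dvd_mod_iff h1, Nat.dvd_mod_iff h]

theorem bad_mod {S : Finset ℕ} {n M : ℕ} (h : ∀ p ∈ S, p ^ 2 ∣ M) : Bad S (n % M) ↔ Bad S n := by
  unfold Bad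
  exact forall₂_congr fun p hp => by rw [exact_mod (h p hp)]

open scoped Classical in
/-- independence of conditions with coprime periods -/
theorem card_inter {A B : ℕ → Prop} {M Q : ℕ} (hM : 0 < M) (hQ : 0 < Q) (hMQ : M.Coprime Q)
    (hA : ∀ n, A (n % M) ↔ A n) (hB : ∀ n, B (n % Q) ↔ B n) :
    ((range (M * Q)).filter fun n => A n ∧ B n).card =
      ((range M).filter A).card * ((range Q).filter B).card := by
  rw [← card_product]
  refine card_bij (fun n _ => (n % M, n % Q)) ?_ ?_ ?_
  · intro n hn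
    rw [mem_filter] at hn
    rw [mem_product, mem_filter, mem_filter, mem_range, mem_range]
    exact ⟨⟨Nat.mod_lt _ hM, (hA n).mpr hn.2.1⟩, ⟨Nat.mod_lt _ hQ, (hB n).mpr hn.2.2⟩⟩
  · intro n hn n' hn' h
    rw [Prod.mk.injEq] at h
    have h1 : n ≡ n' [MOD M * Q] := (Nat.modEq_and_modEq_iff_modEq_mul hMQ).mp ⟨h.1, h.2⟩
    have h2 := (mem_range.mp (mem_filter.mp hn).1)
    have h3 := (mem_range.mp (mem_filter.mp hn').1)
    exact Nat.ModEq.eq_of_lt_of_lt h1 h2 h3
  · rintro ⟨a, b⟩ hab
    rw [mem_product, mem_filter, mem_filter, mem_range, mem_range] at hab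
    obtain ⟨⟨ha, hA'⟩, ⟨hb, hB'⟩⟩ := hab
    obtain ⟨k, hk1, hk2⟩ := Nat.chineseRemainder hMQ a b
    have e1 : (k % (M * Q)) % M = a := by
      rw [Nat.mod_mul_right_mod]
      exact Nat.mod_eq_of_modEq hk1 ha
    have e2 : (k % (M * Q)) % Q = b := by
      rw [Nat.mod_mul_left_mod]
      exact Nat.mod_eq_of_modEq hk2 hb
    refine ⟨k % (M * Q), ?_, ?_⟩
    · rw [mem_filter, mem_range]
      refine ⟨Nat.mod_lt _ (Nat.mul_pos hM hQ), (hA _).mp ?_, (hB _).mp ?_⟩
      · rw [e1]; exact hA'
      · rw [e2]; exact hB'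
    · simp only [e1, e2]

open scoped Classical in
/-- the multiples of `p` which are not multiples of `p ^ 2` -/
theorem card_not_exact {p : ℕ} (hp : p.Prime) :
    ((range (p ^ 2)).filter fun n => ¬ Exact p n).card + (p - 1) = p ^ 2 := by
  have h1 : ((range (p ^ 2)).filter fun n => Exact p n).card = p - 1 := by
    have h2 : (range (p ^ 2)).filter (fun n => Exact p n) =
        (Finset.Ico 1 p).map ⟨fun k => p * k, fun a b h => Nat.eq_of_mul_eq_mul_left hp.pos h⟩ := by
      ext n
      rw [mem_filter, mem_range, Finset.mem_map]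
      constructor
      · rintro ⟨h, ⟨k, rfl⟩, h2⟩
        refine ⟨k, ?_, rfl⟩
        rw [Finset.mem_Ico]
        have h3 : k < p := by
          rw [pow_two] at h
          exact lt_of_mul_lt_mul_left h (Nat.zero_le p)
        refine ⟨?_, h3⟩
        rcases Nat.eq_zero_or_pos k with rfl | hk
        · exact absurd (by rw [mul_zero]; exact dvd_zero _) h2
        · exact hk
      · rintro ⟨k, hk, rfl⟩
        rw [Finset.mem_Ico] at hk
        refine ⟨?_, ⟨k, rfl⟩, ?_⟩
        · rw [pow_two]
          exact Nat.mul_lt_mul_of_pos_left hk.2 hp.pos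
        · intro h
          change p ^ 2 ∣ p * k at h
          rw [pow_two] at h
          have h3 := Nat.le_of_dvd hk.1 (Nat.dvd_of_mul_dvd_mul_left hp.pos h)
          omega
    rw [h2, card_map, Nat.card_Ico]
  have h2 := card_filter_add_card_filter_not (s := range (p ^ 2)) (fun n => Exact p n)
  rw [h1, card_range] at h2
  omega

open scoped Classical in
theorem card_bad {S : Finset ℕ} (hS : ∀ p ∈ S, p.Prime) :
    (((range (∏ p ∈ S, p ^ 2)).filter (Bad S)).card : ℝ) =
      (∏ p ∈ S, (p : ℝ) ^ 2) * ∏ p ∈ S, (1 - ((p : ℝ) - 1) / (p : ℝ) ^ 2) := by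
  induction S using Finset.induction_on with
  | empty =>
    have : (range (∏ p ∈ (∅ : Finset ℕ), p ^ 2)).filter (Bad ∅) = range 1 := by
      rw [prod_empty]
      refine filter_true_of_mem fun n _ => ?_
      intro p hp
      exact absurd hp (notMem_empty p)
    rw [this]
    simp
  | insert q S hq ih =>
    have hS' : ∀ p ∈ S, p.Prime := fun p hp => hS p (mem_insert_of_mem hp)
    have hqp := hS q (mem_insert_self q S)
    have ih := ih hS'
    have hM : 0 < ∏ p ∈ S, p ^ 2 := prod_pos fun p hp => pow_pos (hS' p hp).pos 2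
    have hQ : 0 < q ^ 2 := pow_pos hqp.pos 2
    have hcop : (∏ p ∈ S, p ^ 2).Coprime (q ^ 2) := by
      refine Nat.Coprime.prod_left fun p hp => ?_
      refine Nat.Coprime.pow 2 2 ?_
      exact (Nat.coprime_primes (hS' p hp) hqp).mpr fun h => hq (h ▸ hp)
    have h1 : (range (∏ p ∈ insert q S, p ^ 2)).filter (Bad (insert q S)) =
        (range ((∏ p ∈ S, p ^ 2) * q ^ 2)).filter fun n => Bad S n ∧ ¬ Exact q n := by
      rw [prod_insert hq, mul_comm]
      refine filter_congr fun n _ => ?_
      unfold Bad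
      rw [forall_mem_insert, and_comm]
    have h6 := card_inter (A := Bad S) (B := fun n => ¬ Exact q n) hM hQ hcop
      (fun n => bad_mod fun p hp => dvd_prod_of_mem _ hp)
      (fun n => not_congr (exact_mod dvd_rfl))
    have h7 : ((range ((∏ p ∈ S, p ^ 2) * q ^ 2)).filter fun n => Bad S n ∧ ¬ Exact q n).card =
        ((range (∏ p ∈ S, p ^ 2)).filter (Bad S)).card *
          ((range (q ^ 2)).filter fun n => ¬ Exact q n).card := by
      convert h6
    rw [h1, h7, Nat.cast_mul, ih, prod_insert hq, prod_insert hq]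
    have h2 : (((range (q ^ 2)).filter fun n => ¬ Exact q n).card : ℝ) =
        (q : ℝ) ^ 2 * (1 - ((q : ℝ) - 1) / (q : ℝ) ^ 2) := by
      have h3 := card_not_exact hqp
      have h4 : (((range (q ^ 2)).filter fun n => ¬ Exact q n).card : ℝ) + ((q : ℝ) - 1) =
          (q : ℝ) ^ 2 := by
        have h5 : (((q - 1 : ℕ) : ℝ)) = (q : ℝ) - 1 := by
          rw [Nat.cast_sub hqp.one_lt.le, Nat.cast_one]
        rw [← h5]
        exact_mod_cast h3
      have hq0 : (q : ℝ) ≠ 0 := by exact_mod_cast hqp.ne_zero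
      field_simp
      linarith
    rw [h2]
    ring

open scoped Classical in
/-- counting a periodic condition -/
theorem card_periodic_le {A : ℕ → Prop} {M : ℕ} (hM : 0 < M) (hA : ∀ n, A (n % M) ↔ A n) (x : ℕ) :
    ((range x).filter A).card ≤ (x / M + 1) * ((range M).filter A).card := by
  have h1 : ∀ k : ℕ, ((range (k * M)).filter A).card = k * ((range M).filter A).card := by
    intro k
    induction k with
    | zero => simp
    | succ k ih =>
      have h2 : range ((k + 1) * M) = range (k * M) ∪ Finset.Ico (k * M) (k * M + M) := by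
        ext n
        simp only [mem_range, mem_union, Finset.mem_Ico]
        have : (k + 1) * M = k * M + M := by ring
        rw [this]
        omega
      have h3 : Disjoint ((range (k * M)).filter A) ((Finset.Ico (k * M) (k * M + M)).filter A) := by
        rw [Finset.disjoint_left]
        intro n h4 h5
        have := mem_range.mp (mem_filter.mp h4).1
        have := (Finset.mem_Ico.mp (mem_filter.mp h5).1).1
        omega
      have h4 : Function.Periodic A M := by
        intro n
        exact propext (by rw [← hA (n + M), Nat.add_mod_right, hA])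
      rw [h2, filter_union, card_union_of_disjoint h3, ih,
        Nat.filter_Ico_card_eq_of_periodic _ _ A h4, Nat.count_eq_card_filter_range]
      ring
  rw [← h1]
  refine card_le_card (filter_subset_filter _ ?_)
  refine range_subset_range.mpr ?_
  have := Nat.lt_div_mul_add (a := x) hM
  rw [add_mul, one_mul]
  exact this.le

/-- the product becomes small -/
theorem exists_prod_lt {P : Set ℕ} (hP : ∀ p ∈ P, p.Prime)
    (h : ¬ Summable fun p : P => (1 : ℝ) / (p : ℕ)) {ε : ℝ} (hε : 0 < ε) :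
    ∃ S : Finset ℕ, (∀ p ∈ S, p ∈ P) ∧ ∏ p ∈ S, (1 - ((p : ℝ) - 1) / (p : ℝ) ^ 2) < ε := by
  classical
  have h0 : ∀ p : P, 0 ≤ (1 : ℝ) / (p : ℕ) := fun p => by positivity
  have h1 : ∃ T : Finset P, 2 * (-Real.log ε) < ∑ p ∈ T, (1 : ℝ) / (p : ℕ) := by
    by_contra hcon
    push Not at hcon
    exact h (summable_of_sum_le h0 hcon)
  obtain ⟨T, hT⟩ := h1
  refine ⟨T.map (Function.Embedding.subtype _), fun p hp => ?_, ?_⟩
  · rw [Finset.mem_map] at hp
    obtain ⟨q, -, rfl⟩ := hp
    exact q.2
  · rw [prod_map]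
    have h2 : ∀ p ∈ T, (1 - (((p : ℕ) : ℝ) - 1) / ((p : ℕ) : ℝ) ^ 2) ≤
        Real.exp (-((1 / 2 : ℝ) * (1 / (p : ℕ)))) := by
      intro p _
      have hp := hP p p.2
      have hp2 : (2 : ℝ) ≤ (p : ℕ) := by exact_mod_cast hp.two_le
      refine le_trans ?_ (Real.add_one_le_exp _)
      have h3 : (1 / 2 : ℝ) * (1 / (p : ℕ)) ≤ (((p : ℕ) : ℝ) - 1) / ((p : ℕ) : ℝ) ^ 2 := by
        rw [le_div_iff₀ (by positivity)]
        have : (1 / 2 : ℝ) * (1 / (p : ℕ)) * ((p : ℕ) : ℝ) ^ 2 = ((p : ℕ) : ℝ) / 2 := by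
          field_simp
        rw [this]
        linarith
      linarith
    have h3 : ∀ p ∈ T, 0 ≤ (1 - (((p : ℕ) : ℝ) - 1) / ((p : ℕ) : ℝ) ^ 2) := by
      intro p _
      have hp := hP p p.2
      have hp2 : (2 : ℝ) ≤ (p : ℕ) := by exact_mod_cast hp.two_le
      rw [sub_nonneg, div_le_one (by positivity)]
      nlinarith
    refine (prod_le_prod h3 h2).trans_lt ?_
    rw [← Real.exp_sum, sum_neg_distrib, ← mul_sum]
    rw [← Real.lt_log_iff_exp_lt hε]
    linarith

open scoped Classical in
/-- **The sieve.** If `∑_{p ∈ P} 1 / p` diverges, almost every integer has an exact divisor in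
`P`. -/
theorem tendsto_zero {P : Set ℕ} (hP : ∀ p ∈ P, p.Prime)
    (h : ¬ Summable fun p : P => (1 : ℝ) / (p : ℕ)) :
    Tendsto (fun x : ℕ => (((range x).filter fun n => ∀ p ∈ P, ¬ Exact p n).card : ℝ) / x)
      atTop (𝓝 0) := by
  rw [tendsto_order]
  refine ⟨fun a ha => Eventually.of_forall fun x => ha.trans_le (by positivity), fun a ha => ?_⟩
  obtain ⟨S, hS, hlt⟩ := exists_prod_lt hP h (half_pos ha)
  have hSp : ∀ p ∈ S, p.Prime := fun p hp => hP p (hS p hp)
  set M : ℕ := ∏ p ∈ S, p ^ 2 with hMdef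
  have hM : 0 < M := prod_pos fun p hp => pow_pos (hSp p hp).pos 2
  have hM' : (0 : ℝ) < M := by exact_mod_cast hM
  set c : ℝ := (((range M).filter (Bad S)).card : ℝ) with hc
  have hcM : c = M * ∏ p ∈ S, (1 - ((p : ℝ) - 1) / (p : ℝ) ^ 2) := by
    rw [hc, hMdef, card_bad hSp]
    push_cast
    rfl
  have hlim : Tendsto (fun x : ℕ => c / (x : ℝ)) atTop (𝓝 0) := tendsto_const_div_atTop_nhds_zero_nat c
  filter_upwards [hlim.eventually_lt_const (half_pos ha), eventually_gt_atTop 0] with x hx1 hx0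
  have hx0' : (0 : ℝ) < x := by exact_mod_cast hx0
  have h1 : ((range x).filter fun n => ∀ p ∈ P, ¬ Exact p n).card ≤
      ((range x).filter (Bad S)).card := by
    refine card_le_card fun n hn => ?_
    rw [mem_filter] at hn ⊢
    exact ⟨hn.1, fun p hp => hn.2 p (hS p hp)⟩
  have h2 := card_periodic_le (A := Bad S) hM (fun n => bad_mod fun p hp => dvd_prod_of_mem _ hp) x
  have h3 : (((range x).filter fun n => ∀ p ∈ P, ¬ Exact p n).card : ℝ) ≤
      ((x : ℝ) / M + 1) * c := by
    have h4 : (((range x).filter fun n => ∀ p ∈ P, ¬ Exact p n).card : ℝ) ≤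
        ((x / M + 1 : ℕ) : ℝ) * c := by
      rw [hc]
      exact_mod_cast h1.trans h2
    refine h4.trans (mul_le_mul_of_nonneg_right ?_ (Nat.cast_nonneg _))
    push_cast
    have := Nat.cast_div_le (α := ℝ) (m := x) (n := M)
    linarith
  rw [div_lt_iff₀ hx0']
  have h5 : ((x : ℝ) / M + 1) * c = x * (∏ p ∈ S, (1 - ((p : ℝ) - 1) / (p : ℝ) ^ 2)) + c := by
    rw [hcM]
    field_simp
  rw [div_lt_iff₀ hx0'] at hx1
  nlinarith

open scoped Classical in
/-- **Almost all values of a multiplicative function lie in an ideal** which contains its values at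
the primes of a set `P` with `∑_{p ∈ P} 1 / p = ∞`. -/
theorem tendsto_mem_ideal {R : Type*} [CommRing R] (I : Ideal R) {a : ℕ → R}
    (hmul : ∀ m n : ℕ, m.Coprime n → a (m * n) = a m * a n) {P : Set ℕ} (hP : ∀ p ∈ P, p.Prime)
    (h : ¬ Summable fun p : P => (1 : ℝ) / (p : ℕ)) (hI : ∀ p ∈ P, a p ∈ I) :
    Tendsto (fun x : ℕ => (((range x).filter fun n => a n ∈ I).card : ℝ) / x) atTop (𝓝 1) := by
  have h1 : Tendsto (fun x : ℕ => 1 - (((range x).filter fun n => ∀ p ∈ P, ¬ Exact p n).card : ℝ) / x)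
      atTop (𝓝 (1 - 0)) := tendsto_const_nhds.sub (tendsto_zero hP h)
  rw [sub_zero] at h1
  refine tendsto_of_tendsto_of_tendsto_of_le_of_le' h1 tendsto_const_nhds ?_ ?_
  · filter_upwards [eventually_gt_atTop 0] with x hx
    have hx' : (0 : ℝ) < x := by exact_mod_cast hx
    rw [le_div_iff₀ hx', sub_mul, div_mul_cancel₀ _ hx'.ne', one_mul, sub_le_iff_le_add]
    have h2 : x ≤ ((range x).filter fun n => a n ∈ I).card +
        ((range x).filter fun n => ∀ p ∈ P, ¬ Exact p n).card := by
      conv_lhs => rw [← card_range x]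
      rw [← card_filter_add_card_filter_not (s := range x) (fun n => a n ∈ I)]
      refine Nat.add_le_add_left (card_le_card fun n hn => ?_) _
      rw [mem_filter] at hn ⊢
      refine ⟨hn.1, fun p hp hex => hn.2 ?_⟩
      obtain ⟨⟨k, rfl⟩, h4⟩ := hex
      have h5 : p.Coprime k := by
        refine (Nat.Prime.coprime_iff_not_dvd (hP p hp)).mpr fun h6 => h4 ?_
        rw [pow_two]
        exact Nat.mul_dvd_mul_left p h6
      rw [hmul p k h5]
      exact I.mul_mem_right _ (hI p hp)
    exact_mod_cast h2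
  · refine Eventually.of_forall fun x => ?_
    refine div_le_one_of_le₀ ?_ (Nat.cast_nonneg x)
    have h2 : ((range x).filter fun n => a n ∈ I).card ≤ x :=
      (card_filter_le _ _).trans (card_range x).le
    exact_mod_cast h2

end Fermat.Agent.Cor.Div
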