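import Fermat.Agent.Corollaries.Div.Frobenian
import Fermat.Agent.Corollaries.Div.Sieve
import Fermat.Agent.S33.Assembly
import Fermat.Agent.HeckeEigen.Forms
import Fermat.Agent.LTF.DeepCheb

/-!
# Serre's divisibility theorem in weight two

`HDiv N m` : the primes `ℓ ∤ N` for which the Hecke operator `T_ℓ` on `S₂(Γ₀(N))` is divisible by
`m` in the Hecke algebra. It contains a set of primes of positive natural density
(`exists_subset_HDiv`): if a Frobenius element at `ℓ` acts on `J₀(N)[M]` and on the `M`-th roots of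
unity as complex conjugation, then the relation `φ ^ 2 - T_ℓ φ + ℓ = 0` of Eichler and Shimura says
that `T_ℓ` kills `J₀(N)[M]`, hence is divisible by `m` if `M` is sufficiently divisible.

`serre_divisibility` : if the coefficients `a_n` of the cusp form `f` of weight two for `Γ₀(N)` lie
in the subring `A` of `ℂ`, then for every `m ≥ 1` the integers `n` with `a_n ∈ m A` have natural
density one.
-/

set_option autoImplicit false

noncomputable section

open Filter Topology CongruenceSubgroup CuspForm ModularFormClass ModularCurve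
open Fermat.Agent.GalRep hiding GQ
open Fermat.Agent.Frob (GQ)
open FermatAgent.HeckeEigen (heckeOp qCoeff_heckeOp_two qCoeff_add qCoeff_smul qCoeff_zero
  heckeOp_of_not_dvd heckeOp_of_dvd)

namespace Fermat.Agent.Cor.Div

theorem natCast_mul_dvd {R : Type*} [CommRing R] {a b : ℕ} (h : a.Coprime b) {e : R}
    (ha : (a : R) ∣ e) (hb : (b : R) ∣ e) : ((a * b : ℕ) : R) ∣ e := by
  have h1 : IsCoprime (a : R) (b : R) := by
    have := (Nat.isCoprime_iff_coprime.mpr h).map (Int.castRingHom R)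
    simpa using this
  rw [Nat.cast_mul]
  exact h1.mul_dvd ha hb

variable (N : ℕ) [NeZero N]

/-- the primes dividing the level -/
def badS : Set ℕ := {ℓ | ℓ ∣ N}

/-- **Faithfulness of the Hecke algebra on the torsion of `J₀(N)`**, for an arbitrary modulus. -/
theorem exists_faithful_nat {m : ℕ} (hm : m ≠ 0) : ∃ M : ℕ, M ≠ 0 ∧ ∀ t : HeckeAlgS (badS N),
    (∀ (p k : ℕ), p.Prime → p ^ k ∣ M → ∀ x : JZero N, p ^ k • x = 0 →
      (letI := heckeModuleBar N; inclS (badS N) t • x) = 0) →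
      evS N (badS N) t ∈ Ideal.span {((m : ℕ) : heckeAlgebra N 2 (badS N))} := by
  induction m using Nat.recOnPosPrimePosCoprime with
  | prime_pow p n hp hn =>
    have hJ := S33aux.esInput_bar N hp (badS N) fun ℓ _ h => h
    let _ := heckeModuleBar N
    have := Cofaith.smulCommClass_JZero N
    obtain ⟨k, hk⟩ := hJ.faithful n
    refine ⟨p ^ k, pow_ne_zero _ hp.ne_zero, fun t ht => ?_⟩
    rw [Nat.cast_pow]
    exact hk t fun x hx => ht p k hp dvd_rfl x hx
  | zero => exact absurd rfl hm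
  | one =>
    refine ⟨1, one_ne_zero, fun t _ => ?_⟩
    rw [Nat.cast_one, Ideal.span_singleton_one]
    exact Submodule.mem_top
  | coprime a b ha hb hab iha ihb =>
    obtain ⟨M₁, h1, h2⟩ := iha (by omega)
    obtain ⟨M₂, h3, h4⟩ := ihb (by omega)
    refine ⟨M₁ * M₂, mul_ne_zero h1 h3, fun t ht => ?_⟩
    have h5 := h2 t fun p k hp hk => ht p k hp (hk.mul_right _)
    have h6 := h4 t fun p k hp hk => ht p k hp (hk.mul_left _)
    rw [Ideal.mem_span_singleton] at h5 h6 ⊢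
    exact natCast_mul_dvd hab h5 h6

/-- `σ` acts on `J₀(N)[M]` with square one and inverts the `M`-th roots of unity. -/
def ConjLike (M : ℕ) (σ : GQ) : Prop :=
  (∀ x : JZero N, M • x = 0 → σ • σ • x = x) ∧
    ∀ μ : AlgebraicClosure ℚ, μ ^ M = 1 → σ μ = μ ^ (M - 1)

omit [NeZero N] in
lemma jsmul_zero (σ : GQ) : σ • (0 : JZero N) = 0 :=
  map_zero (DistribSMul.toAddMonoidHom (JZero N) σ)

omit [NeZero N] in
lemma jsmul_nsmul (σ : GQ) (n : ℕ) (x : JZero N) : σ • (n • x) = n • (σ • x) :=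
  map_nsmul (DistribSMul.toAddMonoidHom (JZero N) σ) n x

theorem isLevel_conjLike {M : ℕ} (hM : M ≠ 0) : IsLevel (ConjLike N M) := by
  constructor
  · obtain ⟨L₁, hL₁, h1⟩ := Cofaith.exists_level N hM
    obtain ⟨L₂, hL₂, h2⟩ := exists_level_root hM
    refine ⟨L₁ ⊔ L₂, IntermediateField.finiteDimensional_sup L₁ L₂, fun σ τ hστ hσ => ?_⟩
    have h3 : ∀ x ∈ L₁ ⊔ L₂, (τ⁻¹ * σ) x = x := fun x hx => by
      rw [AlgEquiv.mul_apply, hστ x hx, ← AlgEquiv.mul_apply, inv_mul_cancel, AlgEquiv.one_apply]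
    have h4 : ∀ x : JZero N, M • x = 0 → σ • x = τ • x := fun x hx => by
      have := h1 _ (fun y hy => h3 y ((le_sup_left : L₁ ≤ L₁ ⊔ L₂) hy)) x hx
      rw [mul_smul, inv_smul_eq_iff] at this
      exact this
    have h5 : ∀ μ : AlgebraicClosure ℚ, μ ^ M = 1 → σ μ = τ μ := fun μ hμ => by
      have h6 := congrArg τ (h2 _ (fun y hy => h3 y ((le_sup_right : L₂ ≤ L₁ ⊔ L₂) hy)) μ hμ)
      rw [← AlgEquiv.mul_apply, ← mul_assoc, mul_inv_cancel, one_mul] at h6
      exact h6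
    refine ⟨fun x hx => ?_, fun μ hμ => by rw [← h5 μ hμ, hσ.2 μ hμ]⟩
    have h6 := hσ.1 x hx
    rw [h4 x hx, h4 _ (by rw [← jsmul_nsmul, hx, jsmul_zero])] at h6
    exact h6
  · intro σ τ hσ
    refine ⟨fun x hx => ?_, fun μ hμ => ?_⟩
    · simp only [mul_smul, inv_smul_smul]
      rw [hσ.1 (τ⁻¹ • x) (by rw [← jsmul_nsmul, hx, jsmul_zero]), smul_inv_smul]
    · have h1 := hσ.2 (τ⁻¹ μ) (by rw [← map_pow, hμ, map_one])
      rw [AlgEquiv.mul_apply, AlgEquiv.mul_apply, h1, map_pow, ← AlgEquiv.mul_apply,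
        mul_inv_cancel, AlgEquiv.one_apply]

variable {N}

omit [NeZero N] in
theorem conjLike_complexConjugation {M : ℕ} (hM : M ≠ 0) : ConjLike N M complexConjugation :=
  ⟨fun x _ => by rw [smul_smul, complexConjugation_mul_self, one_smul],
    fun _ hμ => LTF.Deep.complexConjugation_root hM hμ⟩

/-- **The Hecke operator at a prime whose Frobenius elements look like complex conjugation kills
the torsion.** -/
theorem heckeGen_smul_eq_zero {M : ℕ} (hM : M ≠ 0) {ℓ : ℕ} (hℓ : ℓ.Prime) (hN : ¬ ℓ ∣ N * M)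
    {A : ValuationSubring (AlgebraicClosure ℚ)} (hA : A.LiesOverPrime ℓ) {φ : GQ}
    (hφ : A.IsFrobeniusAt φ ℓ) (h : ConjLike N M φ) {p k : ℕ} (hp : p.Prime) (hk : p ^ k ∣ M)
    (x : JZero N) (hx : p ^ k • x = 0) :
    (letI := heckeModuleBar N; heckeGen ⟨ℓ, hℓ⟩ • x) = 0 := by
  let _ := heckeModuleBar N
  have := Cofaith.smulCommClass_JZero N
  rcases Nat.eq_zero_or_pos k with rfl | hk0
  · rw [pow_zero, one_smul] at hx
    rw [hx]
    exact smul_zero _
  have hJ := S33aux.esInput_bar N hp (badS N) fun ℓ _ h => h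
  have hlM : ¬ ℓ ∣ M := fun h => hN (h.mul_left N)
  have hlNp : ¬ ℓ ∣ N * p := fun h => by
    rcases (Nat.Prime.dvd_mul hℓ).mp h with h1 | h1
    · exact hN (h1.mul_right M)
    · exact hlM (h1.trans ((dvd_pow_self p hk0.ne').trans hk))
  have hcop : Nat.Coprime ℓ M := (Nat.Prime.coprime_iff_not_dvd hℓ).mpr hlM
  have h1 : ℓ ≡ M - 1 [MOD M] :=
    modEq_of_pow (fun μ hμ => frobenius_rootOfUnity hA hcop hM hφ hμ) h.2 hM
  have h2 : M ∣ ℓ + 1 := by
    have h3 := h1.add_right 1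
    rw [Nat.sub_add_cancel (Nat.one_le_iff_ne_zero.mpr hM)] at h3
    exact (Nat.modEq_zero_iff_dvd.mp (h3.trans (Nat.modEq_zero_iff_dvd.mpr dvd_rfl)))
  obtain ⟨c, hc⟩ := hk
  have hMx : M • x = 0 := by rw [hc, mul_comm, mul_smul, hx, smul_zero]
  have hφx : p ^ k • (φ • x) = 0 := by rw [← jsmul_nsmul, hx, jsmul_zero]
  have h3 := hJ.frobenius ℓ hℓ hlNp A hA φ hφ (φ • x) ⟨k, hφx⟩
  rw [h.1 x hMx] at h3
  have h4 : (ℓ + 1) • (φ • x) = 0 := by
    obtain ⟨d, hd⟩ := h2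
    rw [hd, mul_comm, mul_smul, ← jsmul_nsmul, hMx, jsmul_zero, smul_zero]
  rw [add_smul, one_smul, add_comm] at h4
  have h5 : heckeGen ⟨ℓ, hℓ⟩ • x = φ • x + ℓ • φ • x := by
    rw [← sub_eq_zero, ← neg_eq_zero, ← h3]
    abel
  rw [h5]
  exact h4

/-! ### Divisible Hecke operators -/

variable (N) in
/-- The primes `ℓ ∤ N` for which `T_ℓ` is divisible by `m` in the Hecke algebra of `S₂(Γ₀(N))`. -/
def HDiv (m : ℕ) : Set ℕ :=
  {ℓ | ∃ (hℓ : ℓ.Prime) (hN : ¬ ℓ ∣ N), ∃ t ∈ heckeAlgebra N 2 ∅,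
    heckeTLin 2 hℓ hN = (m : ℤ) • t}

variable (N) in
theorem exists_modulus {m : ℕ} (hm : m ≠ 0) : ∃ M : ℕ, M ≠ 0 ∧ ∀ ℓ : ℕ, ℓ.Prime → ¬ ℓ ∣ N * M →
    ∀ A : ValuationSubring (AlgebraicClosure ℚ), A.LiesOverPrime ℓ → ∀ φ : GQ,
      A.IsFrobeniusAt φ ℓ → ConjLike N M φ → ℓ ∈ HDiv N m := by
  obtain ⟨M, hM, h⟩ := exists_faithful_nat N hm
  refine ⟨M, hM, fun ℓ hℓ hlM A hA φ hφ hc => ?_⟩
  have hlN : ¬ ℓ ∣ N := fun h => hlM (h.mul_right M)
  have h1 := h (MvPolynomial.X ⟨⟨ℓ, hℓ⟩, hlN⟩) (by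
    intro p k hp hk x hx
    have h2 : inclS (badS N) (MvPolynomial.X ⟨⟨ℓ, hℓ⟩, hlN⟩) = heckeGen ⟨ℓ, hℓ⟩ := by
      rw [inclS, MvPolynomial.rename_X]
      rfl
    rw [h2]
    exact heckeGen_smul_eq_zero hM hℓ hlM hA hφ hc hp hk x hx)
  rw [evS_X_of_not_dvd N (badS N) _ hlN, Ideal.mem_span_singleton] at h1
  obtain ⟨t, ht⟩ := h1
  refine ⟨hℓ, hlN, (t : Module.End ℂ (CuspForm (Gamma0 N) 2)),
    heckeAlgebra_mono (Set.empty_subset _) t.2, ?_⟩
  have h2 := congrArg (fun z : heckeAlgebra N 2 (badS N) =>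
    (z : Module.End ℂ (CuspForm (Gamma0 N) 2))) ht
  simp only [heckeAlgebra.coe_T] at h2
  rw [h2]
  push_cast
  rw [← nsmul_eq_mul, natCast_zsmul]

open Classical in
variable (N) in
/-- **For every `m ≥ 1` the Hecke operator `T_ℓ` is divisible by `m` for a positive proportion of
the primes `ℓ`.** -/
theorem exists_subset_HDiv {m : ℕ} (hm : m ≠ 0) : ∃ P' ⊆ HDiv N m, (∀ p ∈ P', p.Prime) ∧
    ∃ δ : ℚ, 0 < δ ∧ δ ≤ 1 ∧
      Tendsto (fun x : ℕ => (((Finset.range (x + 1)).filter fun p => p ∈ P').card : ℝ) /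
        Nat.primeCounting x) atTop (𝓝 δ) := by
  obtain ⟨M, hM, h⟩ := exists_modulus N hm
  refine exists_subset (isLevel_conjLike N hM) ⟨(N * M).primeFactors, fun ℓ hℓ hT => ?_⟩
    (conjLike_complexConjugation hM)
  exact h ℓ hℓ fun h1 => hT (Nat.mem_primeFactors.mpr ⟨hℓ, h1, mul_ne_zero (NeZero.ne N) hM⟩)

variable (N) in
/-- `∑ 1 / ℓ = ∞` over the primes with `T_ℓ` divisible by `m`. -/
theorem not_summable_HDiv {m : ℕ} (hm : m ≠ 0) :
    ¬ Summable fun ℓ : {ℓ : ℕ | ℓ.Prime ∧ ℓ ∈ HDiv N m} => (1 : ℝ) / (ℓ : ℕ) := by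
  obtain ⟨M, hM, h⟩ := exists_modulus N hm
  refine not_summable_of_imp (isLevel_conjLike N hM) ⟨(N * M).primeFactors, fun ℓ hℓ hT => ?_⟩
    (conjLike_complexConjugation hM)
  exact h ℓ hℓ fun h1 => hT (Nat.mem_primeFactors.mpr ⟨hℓ, h1, mul_ne_zero (NeZero.ne N) hM⟩)

/-! ### Coefficients -/

/-- The Hecke algebra preserves the ring of the coefficients. -/
theorem coeff_mem_of_mem_heckeAlgebra {A : Subring ℂ} {T : Module.End ℂ (CuspForm (Gamma0 N) 2)}
    (hT : T ∈ heckeAlgebra N 2 ∅) {f : CuspForm (Gamma0 N) 2} (hf : ∀ n, qCoeff f n ∈ A) :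
    ∀ n, qCoeff (T f) n ∈ A := by
  have hop : ∀ (p : Nat.Primes) (g : CuspForm (Gamma0 N) 2), (∀ n, qCoeff g n ∈ A) →
      ∀ n, qCoeff (heckeOp N 2 p g) n ∈ A := by
    intro p g hg n
    rw [qCoeff_heckeOp_two]
    refine A.add_mem (hg _) (A.mul_mem ?_ ?_)
    · split_ifs
      · exact A.zero_mem
      · exact natCast_mem A _
    · split_ifs
      · exact hg _
      · exact A.zero_mem
  induction hT using Algebra.adjoin_induction generalizing f with
  | mem T hT =>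
    rcases hT with ⟨ℓ, hℓ, hℓN, -, rfl⟩ | ⟨q, hqN, hq, -, rfl⟩
    · have := hop ⟨ℓ, hℓ⟩ f hf
      rwa [heckeOp_of_not_dvd (p := ⟨ℓ, hℓ⟩) hℓN] at this
    · have := hop ⟨q, hq⟩ f hf
      rwa [heckeOp_of_dvd (p := ⟨q, hq⟩) hqN] at this
  | algebraMap a =>
    intro n
    have h1 : (algebraMap ℤ (Module.End ℂ (CuspForm (Gamma0 N) 2)) a) f = (a : ℂ) • f := by
      rw [eq_intCast, Module.End.intCast_apply, Int.cast_smul_eq_zsmul]
    rw [h1, qCoeff_smul]
    exact A.mul_mem (intCast_mem A a) (hf n)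
  | add T T' _ _ h h' =>
    intro n
    rw [LinearMap.add_apply, qCoeff_add]
    exact A.add_mem (h hf n) (h' hf n)
  | mul T T' _ _ h h' =>
    rw [Module.End.mul_apply]
    exact h (h' hf)

/-- The coefficients with an exact prime divisor in `HDiv N m` are divisible by `m`. -/
theorem coeff_mul_of_mem_HDiv {m ℓ : ℕ} (hl : ℓ ∈ HDiv N m) {A : Subring ℂ}
    {f : CuspForm (Gamma0 N) 2} (hf : ∀ n, qCoeff f n ∈ A) {k : ℕ} (hk : ¬ ℓ ∣ k) :
    ∃ b ∈ A, qCoeff f (ℓ * k) = m * b := by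
  obtain ⟨hℓ, hN, t, ht, h⟩ := hl
  refine ⟨qCoeff (t f) k, coeff_mem_of_mem_heckeAlgebra ht hf k, ?_⟩
  have h1 := qCoeff_heckeOp_two (N := N) ⟨ℓ, hℓ⟩ f k
  rw [heckeOp_of_not_dvd (p := ⟨ℓ, hℓ⟩) hN] at h1
  simp only [if_neg hk, mul_zero, add_zero] at h1
  rw [← h1, h]
  have h2 : ((m : ℤ) • t) f = (m : ℂ) • t f := by
    rw [LinearMap.smul_apply, natCast_zsmul, Nat.cast_smul_eq_nsmul]
  rw [h2, qCoeff_smul]

/-! ### The theorem -/

open Finset in
open scoped Classical in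
/-- If `s (p k)` holds for all `p ∈ P` and all `k` prime to `p`, and `∑_{p ∈ P} 1 / p = ∞`, then
`s` has natural density one. -/
theorem tendsto_one_of {P : Set ℕ} (hP : ∀ p ∈ P, p.Prime)
    (h : ¬ Summable fun p : P => (1 : ℝ) / (p : ℕ)) {s : ℕ → Prop}
    (hs : ∀ p ∈ P, ∀ k, ¬ p ∣ k → s (p * k)) :
    Tendsto (fun x : ℕ => (((range x).filter fun n => s n).card : ℝ) / x) atTop (𝓝 1) := by
  have h1 : Tendsto (fun x : ℕ => 1 - (((range x).filter fun n => ∀ p ∈ P, ¬ Exact p n).card : ℝ) / x)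
      atTop (𝓝 (1 - 0)) := tendsto_const_nhds.sub (tendsto_zero hP h)
  rw [sub_zero] at h1
  refine tendsto_of_tendsto_of_tendsto_of_le_of_le' h1 tendsto_const_nhds ?_ ?_
  · filter_upwards [eventually_gt_atTop 0] with x hx
    have hx' : (0 : ℝ) < x := by exact_mod_cast hx
    rw [le_div_iff₀ hx', sub_mul, div_mul_cancel₀ _ hx'.ne', one_mul, sub_le_iff_le_add]
    have h2 : x ≤ ((range x).filter fun n => s n).card +
        ((range x).filter fun n => ∀ p ∈ P, ¬ Exact p n).card := by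
      conv_lhs => rw [← card_range x]
      rw [← card_filter_add_card_filter_not (s := range x) (fun n => s n)]
      refine Nat.add_le_add_left (card_le_card fun n hn => ?_) _
      rw [mem_filter] at hn ⊢
      refine ⟨hn.1, fun p hp hex => hn.2 ?_⟩
      obtain ⟨⟨k, rfl⟩, h4⟩ := hex
      refine hs p hp k fun h6 => h4 ?_
      rw [pow_two]
      exact Nat.mul_dvd_mul_left p h6
    exact_mod_cast h2
  · refine Eventually.of_forall fun x => ?_
    refine div_le_one_of_le₀ ?_ (Nat.cast_nonneg x)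
    have h2 : ((range x).filter fun n => s n).card ≤ x :=
      (card_filter_le _ _).trans (card_range x).le
    exact_mod_cast h2

open scoped Classical in
/-- **Serre's divisibility theorem in weight two** (1974). Let `f = ∑ a_n q ^ n` be a cusp form of
weight two for `Γ₀(N)` whose coefficients lie in the subring `A` of `ℂ`. Then for every `m ≥ 1`
almost all `a_n` (in the sense of natural density) lie in `m A`. -/
theorem serre_divisibility {A : Subring ℂ} {f : CuspForm (Gamma0 N) 2}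
    (hf : ∀ n, qCoeff f n ∈ A) {m : ℕ} (hm : m ≠ 0) :
    Tendsto (fun x : ℕ => (((Finset.range x).filter fun n => ∃ b ∈ A, qCoeff f n = m * b).card : ℝ) /
      x) atTop (𝓝 1) :=
  tendsto_one_of (P := {ℓ : ℕ | ℓ.Prime ∧ ℓ ∈ HDiv N m}) (fun _ hp => hp.1)
    (not_summable_HDiv N hm) fun _ hp _ hk => coeff_mul_of_mem_HDiv hp.2 hf hk

open scoped Classical in
/-- **Serre's theorem for integral coefficients**: `m ∣ a_n` for almost all `n`. -/
theorem serre_divisibility_int {f : CuspForm (Gamma0 N) 2} {a : ℕ → ℤ}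
    (ha : ∀ n, qCoeff f n = a n) {m : ℕ} (hm : m ≠ 0) :
    Tendsto (fun x : ℕ => (((Finset.range x).filter fun n => (m : ℤ) ∣ a n).card : ℝ) / x)
      atTop (𝓝 1) := by
  have h := serre_divisibility (A := (Int.castRingHom ℂ).range) (f := f)
    (fun n => ⟨a n, (ha n).symm⟩) hm
  refine h.congr fun x => ?_
  have h1 : ∀ n, (∃ b ∈ (Int.castRingHom ℂ).range, qCoeff f n = m * b) ↔ (m : ℤ) ∣ a n := by
    intro n
    rw [ha]
    constructor
    · rintro ⟨_, ⟨c, rfl⟩, h2⟩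
      refine ⟨c, ?_⟩
      rw [eq_intCast] at h2
      exact_mod_cast h2
    · rintro ⟨c, hc⟩
      refine ⟨c, ⟨c, rfl⟩, ?_⟩
      rw [hc]
      push_cast
      rfl
  simp only [h1]

end Fermat.Agent.Cor.Div
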