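import Fermat.Agent.Corollaries.Div.Exact
import Fermat.Agent.Corollaries.SectK.QuMain

/-!
# The lacunarity of the curves `y² = x³ + m x`

`E : y² = x³ + m x`, `m ≠ 0`. The trace `a_p` of `E` is `0` for the primes `p ≡ 3 mod 4` and it is not
`0` for the primes `p ≡ 1 mod 4` prime to `m`. So for the coefficients `a_n` of `L(E, s)` (any
function multiplicative on coprime integers with `a(p) = a_p` for almost all `p`)
`#{n ≤ x : a_n ≠ 0} ~ C x / √(log x)`, `C > 0` (`card_ne_zero_j1728`; Serre's theorem on forms with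
complex multiplication).
-/

set_option autoImplicit false

noncomputable section

open Filter Topology NumberField

namespace Fermat.Agent.Cor.Div

section Weight

variable {q : ℕ} [NeZero q]

open Classical in
/-- `card_mulSet` with finitely many exceptional primes -/
theorem card_mulSet_of_ne {S : Set ℕ} (h1 : 1 ∈ S)
    (hmul : ∀ m n : ℕ, m.Coprime n → (m * n ∈ S ↔ m ∈ S ∧ n ∈ S)) {V : Set (ZMod q)ˣ}
    (hV : V.Nonempty) {N : ℕ} (hN : N ≠ 0)
    (hS : ∀ p : ℕ, p.Prime → ¬ p ∣ q → ¬ p ∣ N → (p ∈ S ↔ ∃ u ∈ V, (u : ZMod q) = p)) :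
    ∃ C : ℝ, 0 < C ∧ Tendsto (fun x : ℝ =>
      (((Finset.Icc 1 ⌊x⌋₊).filter fun n => n ∈ S).card : ℝ) /
        (x * Real.log x ^ ((Nat.card V : ℝ) / q.totient - 1))) atTop (𝓝 C) := by
  have hq' : NeZero (q * N) := ⟨mul_ne_zero (NeZero.ne q) hN⟩
  have hd : q ∣ q * N := dvd_mul_right q N
  set V' : Set (ZMod (q * N))ˣ := {u | ZMod.unitsMap hd u ∈ V} with hV'
  have hval : ∀ u : (ZMod (q * N))ˣ, ((ZMod.unitsMap hd u : (ZMod q)ˣ) : ZMod q) =
      ZMod.castHom hd (ZMod q) (u : ZMod (q * N)) := fun u => rfl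
  have key : ∀ p : ℕ, p.Prime → ¬ p ∣ q * N →
      ((∃ u ∈ V, (u : ZMod q) = p) ↔ ∃ u ∈ V', (u : ZMod (q * N)) = p) := by
    intro p hp hpd
    have hcop : p.Coprime (q * N) := (Nat.Prime.coprime_iff_not_dvd hp).mpr hpd
    constructor
    · rintro ⟨u, hu, hup⟩
      refine ⟨ZMod.unitOfCoprime p hcop, ?_, ZMod.coe_unitOfCoprime p hcop⟩
      have h2 : ZMod.unitsMap hd (ZMod.unitOfCoprime p hcop) = u := by
        refine Units.ext ?_
        rw [hval, ZMod.coe_unitOfCoprime, map_natCast, hup]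
      rw [hV', Set.mem_ofPred_eq, h2]
      exact hu
    · rintro ⟨u, hu, hup⟩
      refine ⟨_, hu, ?_⟩
      rw [hval, hup, map_natCast]
  have hne : V'.Nonempty := by
    obtain ⟨u, hu⟩ := hV
    obtain ⟨v, hv⟩ := ZMod.unitsMap_surjective hd u
    refine ⟨v, ?_⟩
    rw [hV', Set.mem_ofPred_eq, hv]
    exact hu
  obtain ⟨C, hC, h⟩ := card_mulSet (q := q * N) h1 hmul hne fun p hp hpd => by
    rw [hS p hp (fun h => hpd (h.mul_right N)) (fun h => hpd (h.mul_left q)), key p hp hpd]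
  have e : (Nat.card V' : ℝ) / (q * N).totient = (Nat.card V : ℝ) / q.totient := by
    rw [← meanU_indicator V, ← meanU_indicator V']
    set f : ℕ → ℝ := fun n => if ∃ u ∈ V, (u : ZMod q) = n then 1 else 0 with hf
    have h3 := LR.tendsto_theta_weight
      (fun z : ZMod q => if ∃ u ∈ V, (u : ZMod q) = z then (1 : ℝ) else 0) f
      (fun p _ _ => rfl)
    have h4 := LR.tendsto_theta_weight
      (fun z : ZMod (q * N) => if ∃ u ∈ V', (u : ZMod (q * N)) = z then (1 : ℝ) else 0) f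
      (fun p hp hpd => by
        rw [hf]
        simp only [key p hp hpd])
    exact tendsto_nhds_unique h4 h3
  rw [e] at h
  exact ⟨C, hC, h⟩

end Weight

open SectK

/-- **`a_p ≠ 0` for `p ≡ 1 mod 4`**, `E : y² = x³ + m x`. -/
theorem ap_E1728_ne_zero {p : ℕ} [hp : Fact p.Prime] (hp4 : p % 4 = 1) {m : ℤ}
    (hm : ¬ (p : ℤ) ∣ m) : (E1728 m).apOfModel p ≠ 0 := by
  have : NeZero ((4 : ℕ) : ℚ) := ⟨by norm_num⟩
  have : IsCyclotomicExtension {4} ℚ (CyclotomicField 4 ℚ) :=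
    CyclotomicField.isCyclotomicExtension 4 ℚ
  obtain ⟨σ⟩ : Nonempty (CyclotomicField 4 ℚ →+* ℂ) := inferInstance
  obtain ⟨η, h⟩ := exists_gausDat (K := CyclotomicField 4 ℚ) σ
  obtain ⟨P, hP⟩ := h.exists_pr hp.out hp4
  obtain ⟨x, y, hxy, hy, hx, hn⟩ := h.exists_gen (I := P.1) hP (by omega)
  obtain ⟨r, χ, Q⟩ := exQuStmt σ η h p x y hn hy hx
  have hp2 : p ≠ 2 := by
    rintro rfl
    omega
  have h4m : ((4 * m : ℤ) : ZMod p) ≠ 0 := by
    rw [Ne, ZMod.intCast_zmod_eq_zero_iff_dvd]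
    intro h5
    rcases (Nat.prime_iff_prime_int.1 hp.out).dvd_or_dvd h5 with h6 | h6
    · have h7 : (p : ℤ) ∣ 2 ^ 2 := by norm_num; exact h6
      have h8 : (p : ℤ) ∣ 2 := (Nat.prime_iff_prime_int.1 hp.out).dvd_of_dvd_pow h7
      have h9 : p ∣ 2 := by exact_mod_cast h8
      exact hp2 ((Nat.prime_dvd_prime_iff_eq hp.out Nat.prime_two).1 h9)
    · exact hm h6
  have hsq : ∀ z : ℤ, (p : ℤ) ≠ z ^ 2 := by
    intro z hz
    have h5 : p = z.natAbs * z.natAbs := by
      have h6 : (p : ℤ) = ((z.natAbs * z.natAbs : ℕ) : ℤ) := by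
        rw [Nat.cast_mul, Int.natAbs_mul_self', hz, pow_two]
      exact_mod_cast h6
    rcases (Nat.prime_mul_iff.mp (h5 ▸ hp.out)) with ⟨h6, h7⟩ | ⟨h6, h7⟩
    · exact h6.one_lt.ne' h7
    · exact h6.one_lt.ne' h7
  have hx0 : x ≠ 0 := by
    rintro rfl
    exact hsq y (by rw [hn]; ring)
  have hy0 : y ≠ 0 := by
    rintro rfl
    exact hsq x (by rw [hn]; ring)
  have key := ap_E1728_eq h Q hm
  intro h0
  rw [h0, Int.cast_zero] at key
  have hI : σ (η : CyclotomicField 4 ℚ) = Complex.I ∨ σ (η : CyclotomicField 4 ℚ) = -Complex.I := by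
    have h5 := congrArg (fun z : 𝓞 (CyclotomicField 4 ℚ) => σ (z : CyclotomicField 4 ℚ)) Q.root
    have h6 : σ (η : CyclotomicField 4 ℚ) ^ 2 + 1 = 0 := by
      have h7 : σ (((η ^ 2 + 1 : 𝓞 (CyclotomicField 4 ℚ))) : CyclotomicField 4 ℚ) = 0 := by
        rw [Q.root]
        simp
      push_cast at h7
      simpa using h7
    have h7 : (σ (η : CyclotomicField 4 ℚ) - Complex.I) *
        (σ (η : CyclotomicField 4 ℚ) + Complex.I) = 0 := by
      linear_combination h6 - Complex.I_sq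
    rcases mul_eq_zero.mp h7 with h8 | h8
    · exact Or.inl (sub_eq_zero.mp h8)
    · exact Or.inr (eq_neg_of_add_eq_zero_left h8)
  have hz : σ ((x + y * η : 𝓞 (CyclotomicField 4 ℚ)) : CyclotomicField 4 ℚ) =
      x + y * σ (η : CyclotomicField 4 ℚ) := by
    push_cast
    simp
  have hx0' : (x : ℝ) ≠ 0 := by exact_mod_cast hx0
  have hy0' : (y : ℝ) ≠ 0 := by exact_mod_cast hy0
  rw [hz] at key
  rcases Q.four _ h4m with h5 | h5 | h5 | h5 <;> rw [h5] at key <;> rcases hI with h6 | h6 <;>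
    simp [h6] at key <;> first | exact hx0 key | exact hy0 key

open Classical in
/-- **The curves `y² = x³ + m x` are lacunary**: `#{n ≤ x : a_n ≠ 0} ~ C x / √(log x)`, `C > 0`. -/
theorem card_ne_zero_j1728 {m : ℤ} (hm : m ≠ 0) {a : ℕ → ℤ} (h1 : a 1 = 1)
    (hmul : ∀ m n : ℕ, m.Coprime n → a (m * n) = a m * a n) {N : ℕ} (hN : N ≠ 0)
    (ha : ∀ p : ℕ, p.Prime → ¬ p ∣ N → a p = (E1728 m).apOfModel p) :
    ∃ C : ℝ, 0 < C ∧ Tendsto (fun x : ℝ =>
      (((Finset.Icc 1 ⌊x⌋₊).filter fun n => a n ≠ 0).card : ℝ) /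
        (x / Real.log x ^ (1 / 2 : ℝ))) atTop (𝓝 C) := by
  obtain ⟨C, hC, h⟩ := card_mulSet_of_ne (q := 4) (S := {n : ℕ | a n ≠ 0}) (V := {1})
    (by rw [Set.mem_ofPred_eq, h1]; exact one_ne_zero)
    (fun m n hmn => by
      rw [Set.mem_ofPred_eq, Set.mem_ofPred_eq, Set.mem_ofPred_eq, hmul m n hmn]
      exact mul_ne_zero_iff) (Set.singleton_nonempty 1)
    (N := N * m.natAbs) (mul_ne_zero hN (Int.natAbs_ne_zero.mpr hm)) (fun p hp hp4 hpN => by
      have : Fact p.Prime := ⟨hp⟩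
      have hp2 : p ≠ 2 := by
        rintro rfl
        exact hp4 (by norm_num)
      have hpm : ¬ (p : ℤ) ∣ m := fun h => hpN ((Int.natCast_dvd.mp h).mul_left N)
      have hodd : p % 2 = 1 := Nat.odd_iff.1 (hp.odd_of_ne_two hp2)
      rw [Set.mem_ofPred_eq, ha p hp (fun h => hpN (h.mul_right _))]
      have hcast : (∃ u ∈ ({1} : Set (ZMod 4)ˣ), (u : ZMod 4) = p) ↔ p % 4 = 1 := by
        have h3 : ((p : ZMod 4) = 1 ↔ p % 4 = 1) := by
          have h4 := ZMod.natCast_eq_natCast_iff p 1 4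
          rw [Nat.cast_one] at h4
          exact h4
        rw [← h3]
        constructor
        · rintro ⟨u, hu, hup⟩
          rw [← hup, Set.mem_singleton_iff.mp hu, Units.val_one]
        · intro h4
          exact ⟨1, rfl, by rw [Units.val_one, h4]⟩
      rw [hcast]
      constructor
      · intro h3
        by_contra h4
        exact h3 (ap_E1728_of_three (by omega) hpm)
      · intro h3
        exact ap_E1728_ne_zero h3 hpm)
  refine ⟨C, hC, ?_⟩
  have e : (Nat.card ({1} : Set (ZMod 4)ˣ) : ℝ) / Nat.totient 4 - 1 = -(1 / 2) := by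
    have h3 : Nat.totient 4 = 2 := by decide
    rw [h3]
    simp
    norm_num
  refine (tendsto_flip e h).congr fun x => ?_
  congr 3
  ext n
  simp only [Finset.mem_filter, Set.mem_ofPred_eq]

end Fermat.Agent.Cor.Div

end
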