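import Fermat.Agent.Corollaries.Div.Lacunary
import Fermat.Agent.Corollaries.SectK.JZeroAll
import Fermat.Agent.Corollaries.SectK.QuAll

/-!
# The lacunarity of the curves with `j = 0` and `j = 1728`

`W` a Weierstrass equation over `ℤ` with `Δ ≠ 0` and `c₄ c₆ = 0`, that is, an elliptic curve over `ℚ`
with `j = 0` or `j = 1728`; `a` multiplicative with `a(p) = a_p(W)` for almost all primes. Then
`#{n ≤ x : a_n ≠ 0} ~ C x / √(log x)`, `C > 0` (`card_ne_zero_j`).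
-/

set_option autoImplicit false

noncomputable section

open Filter Topology NumberField IsDedekindDomain
open scoped nonZeroDivisors NumberTheorySymbols

namespace Fermat.Agent.Cor.Div

open SectK SectK.Jz Recip

/-- **`a_p ≠ 0` for `p ≡ 1 mod 3`**, `E : y² = x³ + m`. -/
theorem ap_E0_ne_zero {p : ℕ} [hpF : Fact p.Prime] (hp3 : p % 3 = 1) {m : ℤ}
    (hm : ¬ (p : ℤ) ∣ 6 * m) : (E0 m).apOfModel p ≠ 0 := by
  have hp := hpF.out
  have : NeZero ((3 : ℕ) : ℚ) := ⟨by norm_num⟩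
  have : IsCyclotomicExtension {3} ℚ (CyclotomicField 3 ℚ) :=
    CyclotomicField.isCyclotomicExtension 3 ℚ
  obtain ⟨σ⟩ : Nonempty (CyclotomicField 3 ℚ →+* ℂ) := inferInstance
  obtain ⟨η, h⟩ := exists_eisDat (K := CyclotomicField 3 ℚ) σ
  obtain ⟨P, hP⟩ := exists_pr h hp hp3
  have hPi : ((P.1 : (Ideal (𝓞 (CyclotomicField 3 ℚ)))⁰) :
      Ideal (𝓞 (CyclotomicField 3 ℚ))).IsPrime := Ideal.isPrime_of_prime P.2
  let v : HeightOneSpectrum (𝓞 (CyclotomicField 3 ℚ)) :=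
    ⟨((P.1 : (Ideal (𝓞 (CyclotomicField 3 ℚ)))⁰) : Ideal (𝓞 (CyclotomicField 3 ℚ))), hPi,
      P.2.ne_zero⟩
  have hv : Ideal.absNorm v.asIdeal = p := hP
  have h6 : ((6 * m : ℤ) : 𝓞 (CyclotomicField 3 ℚ)) ∉ v.asIdeal := by
    apply int_notMem hv
    rwa [Ne, ZMod.intCast_zmod_eq_zero_iff_dvd]
  have h3 : (3 : 𝓞 (CyclotomicField 3 ℚ)) ∉ v.asIdeal := by
    intro h3
    apply h6
    have h4 : ((6 * m : ℤ) : 𝓞 (CyclotomicField 3 ℚ)) = 3 * (2 * m) := by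
      push_cast
      ring
    rw [h4]
    exact Ideal.mul_mem_right _ _ h3
  have h4m : ((4 * m : ℤ) : 𝓞 (CyclotomicField 3 ℚ)) ∉ v.asIdeal := by
    intro h4
    apply h6
    have h7 : (((4 * m : ℤ) : 𝓞 (CyclotomicField 3 ℚ)) * 3) ∈ v.asIdeal :=
      Ideal.mul_mem_right _ _ h4
    have h8 : (2 : 𝓞 (CyclotomicField 3 ℚ)) * ((6 * m : ℤ) : 𝓞 (CyclotomicField 3 ℚ)) ∈
        v.asIdeal := by
      have e : (2 : 𝓞 (CyclotomicField 3 ℚ)) * ((6 * m : ℤ) : 𝓞 (CyclotomicField 3 ℚ)) =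
          ((4 * m : ℤ) : 𝓞 (CyclotomicField 3 ℚ)) * 3 := by
        push_cast
        ring
      rw [e]
      exact h7
    rcases hPi.mem_or_mem h8 with h9 | h9
    · have e : ((6 * m : ℤ) : 𝓞 (CyclotomicField 3 ℚ)) = 2 * (3 * m) := by
        push_cast
        ring
      rw [e]
      exact Ideal.mul_mem_right _ _ h9
    · exact h9
  obtain ⟨π, -, hπ, hπ3⟩ := h.exists_gen ⟨P.1, isCoprime_of_notMem (v := v) h3⟩
  have key := ap_E0_eq h hv hm hπ hπ3
  intro h0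
  rw [h0, Int.cast_zero] at key
  set z := resAt 3 η ((4 * m : ℤ) : 𝓞 (CyclotomicField 3 ℚ)) v with hz
  have hp0 : (0 : ℝ) < p := by exact_mod_cast hp.pos
  have hn : ‖σ (π : CyclotomicField 3 ℚ)‖ ^ 2 = p := norm_sq_gen h hv hπ
  have hn0 : ‖σ (π : CyclotomicField 3 ℚ)‖ ≠ 0 := by
    intro h5
    rw [h5] at hn
    norm_num at hn
    exact hp0.ne hn
  have hJ : (J(m | p) : ℝ) ≠ 0 := by
    have h5 : J(m | p) ≠ 0 := by
      refine jacobiSym.ne_zero ?_
      rw [Int.gcd_comm, ← Int.isCoprime_iff_gcd_eq_one,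
        (Nat.prime_iff_prime_int.mp hp).coprime_iff_not_dvd]
      exact fun h5 => hm (h5.mul_left 6)
    exact_mod_cast h5
  have hz3 : z ^ 3 = 1 := resAt_pow (isPrimitiveRoot h) h4m
  have hσz : ‖σ (z : CyclotomicField 3 ℚ)‖ = 1 := by
    refine Complex.norm_eq_one_of_pow_eq_one (n := 3) ?_ (by norm_num)
    have h5 : σ ((z ^ 3 : 𝓞 (CyclotomicField 3 ℚ)) : CyclotomicField 3 ℚ) = 1 := by
      rw [hz3]
      simp
    simpa using h5
  obtain ⟨s, t, hst⟩ := h.ex (z * π)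
  have hprod : σ ((z * π : 𝓞 (CyclotomicField 3 ℚ)) : CyclotomicField 3 ℚ) =
      σ (z : CyclotomicField 3 ℚ) * σ (π : CyclotomicField 3 ℚ) := by simp
  have e1 := h.norm_sq s t
  rw [← hst, hprod, norm_mul, hσz, one_mul, hn] at e1
  have e2 := h.sig_re s t
  rw [← hst, hprod] at e2
  have e3 : (J(m | p) : ℂ) * σ (z : CyclotomicField 3 ℚ) * ang σ π =
      ((J(m | p) : ℝ) : ℂ) * (σ (z : CyclotomicField 3 ℚ) * σ (π : CyclotomicField 3 ℚ)) /
        ((‖σ (π : CyclotomicField 3 ℚ)‖ : ℝ) : ℂ) := by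
    rw [ang]
    push_cast
    ring
  rw [e3, Complex.div_ofReal_re, Complex.re_ofReal_mul, e2] at key
  have e4 : (s : ℝ) - t / 2 = 0 := by
    by_contra h5
    refine (mul_ne_zero (mul_ne_zero two_ne_zero (Real.sqrt_pos.2 hp0).ne')
      (div_ne_zero (mul_ne_zero hJ h5) hn0)) key.symm
  have e5 : (p : ℝ) = 3 * (s : ℝ) ^ 2 := by
    have e6 : (t : ℝ) = 2 * s := by linarith
    rw [e1, e6]
    ring
  have e6 : (p : ℤ) = 3 * s ^ 2 := by exact_mod_cast e5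
  generalize s ^ 2 = w at e6
  omega

open Classical in
/-- **The curves `y² = x³ + m` are lacunary**: `#{n ≤ x : a_n ≠ 0} ~ C x / √(log x)`, `C > 0`. -/
theorem card_ne_zero_jzero {m : ℤ} (hm : m ≠ 0) {a : ℕ → ℤ} (h1 : a 1 = 1)
    (hmul : ∀ m n : ℕ, m.Coprime n → a (m * n) = a m * a n) {N : ℕ} (hN : N ≠ 0)
    (ha : ∀ p : ℕ, p.Prime → ¬ p ∣ N → a p = (E0 m).apOfModel p) :
    ∃ C : ℝ, 0 < C ∧ Tendsto (fun x : ℝ =>
      (((Finset.Icc 1 ⌊x⌋₊).filter fun n => a n ≠ 0).card : ℝ) /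
        (x / Real.log x ^ (1 / 2 : ℝ))) atTop (𝓝 C) := by
  obtain ⟨C, hC, h⟩ := card_mulSet_of_ne (q := 3) (S := {n : ℕ | a n ≠ 0}) (V := {1})
    (by rw [Set.mem_ofPred_eq, h1]; exact one_ne_zero)
    (fun m n hmn => by
      rw [Set.mem_ofPred_eq, Set.mem_ofPred_eq, Set.mem_ofPred_eq, hmul m n hmn]
      exact mul_ne_zero_iff) (Set.singleton_nonempty 1)
    (N := N * (6 * m).natAbs) (mul_ne_zero hN (Int.natAbs_ne_zero.mpr (by omega)))
    (fun p hp hp4 hpN => by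
      have : Fact p.Prime := ⟨hp⟩
      have hpm : ¬ (p : ℤ) ∣ 6 * m := fun h => hpN ((Int.natCast_dvd.mp h).mul_left N)
      have h30 : p % 3 ≠ 0 := by
        intro h6
        have h7 : 3 ∣ p := Nat.dvd_of_mod_eq_zero h6
        exact hp4 ((Nat.prime_dvd_prime_iff_eq Nat.prime_three hp).1 h7 ▸ dvd_rfl)
      rw [Set.mem_ofPred_eq, ha p hp (fun h => hpN (h.mul_right _))]
      have hcast : (∃ u ∈ ({1} : Set (ZMod 3)ˣ), (u : ZMod 3) = p) ↔ p % 3 = 1 := by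
        have h3 : ((p : ZMod 3) = 1 ↔ p % 3 = 1) := by
          have h4 := ZMod.natCast_eq_natCast_iff p 1 3
          rw [Nat.cast_one] at h4
          exact h4
        rw [← h3]
        constructor
        · rintro ⟨u, hu, hup⟩
          rw [← hup, Set.mem_singleton_iff.mp hu, Units.val_one]
        · intro h4
          exact ⟨1, rfl, by rw [Units.val_one, h4]⟩
      rw [hcast]
      constructor
      · intro h3
        by_contra h4
        exact h3 (ap_E0_of_two (by omega) hpm)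
      · intro h3
        exact ap_E0_ne_zero h3 hpm)
  refine ⟨C, hC, ?_⟩
  have e : (Nat.card ({1} : Set (ZMod 3)ˣ) : ℝ) / Nat.totient 3 - 1 = -(1 / 2) := by
    have h3 : Nat.totient 3 = 2 := by decide
    rw [h3]
    simp
    norm_num
  refine (tendsto_flip e h).congr fun x => ?_
  congr 3
  ext n
  simp only [Finset.mem_filter, Set.mem_ofPred_eq]

open Classical in
/-- **The elliptic curves over `ℚ` with `j = 0` or `j = 1728` are lacunary** (Serre): `W` an equation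
over `ℤ` with `Δ ≠ 0`, `c₄ c₆ = 0`: `#{n ≤ x : a_n ≠ 0} ~ C x / √(log x)`, `C > 0`. -/
theorem card_ne_zero_j {W : WeierstrassCurve ℤ} (hΔ : W.Δ ≠ 0) (hj : W.c₄ * W.c₆ = 0) {a : ℕ → ℤ}
    (h1 : a 1 = 1) (hmul : ∀ m n : ℕ, m.Coprime n → a (m * n) = a m * a n) {N : ℕ} (hN : N ≠ 0)
    (ha : ∀ p : ℕ, p.Prime → ¬ p ∣ N → a p = W.apOfModel p) :
    ∃ C : ℝ, 0 < C ∧ Tendsto (fun x : ℝ =>
      (((Finset.Icc 1 ⌊x⌋₊).filter fun n => a n ≠ 0).card : ℝ) /
        (x / Real.log x ^ (1 / 2 : ℝ))) atTop (𝓝 C) := by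
  have hrel := W.c_relation
  have hM : N * (6 * W.Δ).natAbs ≠ 0 :=
    mul_ne_zero hN (Int.natAbs_ne_zero.mpr (by omega))
  rcases mul_eq_zero.mp hj with h4 | h6
  · have h6 : W.c₆ ≠ 0 := by
      intro h6
      rw [h4, h6] at hrel
      norm_num at hrel
      exact hΔ hrel
    refine card_ne_zero_jzero (m := -54 * W.c₆) (by omega) h1 hmul hM fun p hp hpM => ?_
    have : Fact p.Prime := ⟨hp⟩
    rw [ha p hp (fun h => hpM (h.mul_right _))]
    exact ap_eq_ap_E0 h4 fun h => hpM ((Int.natCast_dvd.mp h).mul_left N)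
  · have h4 : W.c₄ ≠ 0 := by
      intro h4
      rw [h4, h6] at hrel
      norm_num at hrel
      exact hΔ hrel
    refine card_ne_zero_j1728 (m := -27 * W.c₄) (by omega) h1 hmul hM fun p hp hpM => ?_
    have : Fact p.Prime := ⟨hp⟩
    rw [ha p hp (fun h => hpM (h.mul_right _))]
    exact Qc.ap_eq_ap_E1728 h6 fun h => hpM ((Int.natCast_dvd.mp h).mul_left N)

end Fermat.Agent.Cor.Div

end
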