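import Fermat.Agent.Corollaries.Div.Rate
import Fermat.Agent.Corollaries.ZetaK.FrobCor
import Fermat.Agent.Corollaries.ZetaK.QuadForm

/-!
# Almost no integer is a norm

* `isBigO_norm` : `K` a number field, `K ≠ ℚ`. For every `δ < 1 / [K : ℚ]` the number of `n ≤ x` which
  are norms of integral ideals of `K` is `O(x / (log x) ^ δ)`; `isBigO_norm_elt` : the values of the
  norm form; `tendsto_norm` : they have natural density `0`;
* `isBigO_form` : the number of `n ≤ x` which are, up to the sign, values of a binary quadratic form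
  of non-square discriminant is `O(x / (log x) ^ δ)` for every `δ < 1 / 2`;
  `isBigO_sq_add_sq` : sums of two squares.

If no prime of `K` above `p` has degree one then `p` divides no norm exactly once, and these `p` have
density at least `1 / [K : ℚ]` (Chebotarev; Jordan, Cameron - Cohen).
-/

set_option autoImplicit false

noncomputable section

open Filter Topology NumberField IsDedekindDomain
open Fermat.Agent.FrobDensity Fermat.Agent.Frob Fermat.Agent.Classic.Disc
open Fermat.Agent.Cor.Frob (embPerm decType cycType decType_eq one_mem_decType_iff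
  one_mem_cycType_iff isOpen_ker_embPerm card_le_fixedPointFree)
open Fermat.Agent.Cor.WtOne (HasDirichletDensity)

namespace Fermat.Agent.Cor.Div

local notation "Qbar" => AlgebraicClosure ℚ

section Field

variable (K : Type*) [Field K] [NumberField K]

/-- the primes above which `K` has no prime of degree one -/
def noDegOne : Set ℕ := {p | ∀ v ∈ above K p, fdeg v ≠ 1}

variable {K}

/-- No norm is divisible exactly once by `p`. -/
theorem not_exact_absNorm {p : ℕ} (hp : p.Prime) (h : p ∈ noDegOne K) (I : Ideal (𝓞 K)) :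
    ¬ Exact p (Ideal.absNorm I) := by
  rintro ⟨h1, h2⟩
  obtain ⟨P, hP, hPp, hPI⟩ := Ideal.exists_isMaximal_dvd_of_dvd_absNorm' hp I h1
  have hpP : (p : 𝓞 K) ∈ P := by
    have h3 : ((p : ℕ) : ℤ) ∈ P.under ℤ := by
      rw [hPp]
      exact Ideal.mem_span_singleton_self _
    have h4 : algebraMap ℤ (𝓞 K) (p : ℤ) ∈ P := h3
    simpa using h4
  have hP0 : P ≠ ⊥ := by
    rintro rfl
    rw [Ideal.mem_bot] at hpP
    exact hp.ne_zero (by exact_mod_cast hpP)
  set v : HeightOneSpectrum (𝓞 K) := ⟨P, hP.isPrime, hP0⟩ with hv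
  have h5 : v ∈ above K p := (mem_above hp.ne_zero).mpr hpP
  have h6 : Ideal.absNorm P = p ^ fdeg v := absNorm_eq (v := v) hp hpP
  have h7 : 2 ≤ fdeg v := by
    have := fdeg_pos v
    have := h v h5
    omega
  refine h2 ((pow_dvd_pow p h7).trans ?_)
  rw [← h6]
  exact map_dvd Ideal.absNorm hPI

variable (K)

/-- the action of the Galois group on the embeddings, numbered -/
def permFin : GQ →* Equiv.Perm (Fin (Fintype.card (K →+* Qbar))) :=
  (Fintype.equivFin (K →+* Qbar)).permCongrHom.toMonoidHom.comp (embPerm K)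

theorem permFin_apply (g : GQ) (i : Fin (Fintype.card (K →+* Qbar))) :
    permFin K g i = Fintype.equivFin (K →+* Qbar)
      (embPerm K g ((Fintype.equivFin (K →+* Qbar)).symm i)) := rfl

theorem permFin_fix (g : GQ) (i : Fin (Fintype.card (K →+* Qbar))) :
    permFin K g i = i ↔ embPerm K g ((Fintype.equivFin (K →+* Qbar)).symm i) =
      (Fintype.equivFin (K →+* Qbar)).symm i := by
  rw [permFin_apply, ← Equiv.eq_symm_apply]

/-- **Jordan, Chebotarev**: the primes without prime of degree one have density `≥ 1 / [K : ℚ]`. -/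
theorem exists_dirichlet_noDegOne (hK : 2 ≤ Module.finrank ℚ K) :
    ∃ P ⊆ noDegOne K, (∀ p ∈ P, p.Prime) ∧ ∃ α : ℝ, 1 / (Module.finrank ℚ K : ℝ) ≤ α ∧
      HasDirichletDensity P α := by
  classical
  obtain ⟨D, hD, hdec⟩ := decType_eq (K := K)
  set ψ : GQ →* (permFin K).range := (permFin K).rangeRestrict with hψ
  have hsurj : Function.Surjective ψ := (permFin K).rangeRestrict_surjective
  have hfac : GaloisFactorsThroughFiniteLevel ψ := by
    have hfin : ∀ j : K →+* Qbar, FiniteDimensional ℚ j.toRatAlgHom.fieldRange := fun j =>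
      LinearEquiv.finiteDimensional (AlgEquiv.ofInjectiveField j.toRatAlgHom).toLinearEquiv
    refine ⟨⨆ j : K →+* Qbar, j.toRatAlgHom.fieldRange,
      IntermediateField.finiteDimensional_iSup_of_finite, fun g hg => Subtype.ext ?_⟩
    change permFin K g = 1
    ext i
    rw [Equiv.Perm.one_apply, (permFin_fix K g i).mpr]
    ext x
    exact hg _ ((le_iSup (fun j : K →+* Qbar => j.toRatAlgHom.fieldRange)
      ((Fintype.equivFin (K →+* Qbar)).symm i)) ⟨x, rfl⟩)
  set C : Set (permFin K).range :=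
    {g | ∀ i : Fin (Fintype.card (K →+* Qbar)), g • i ≠ i} with hC
  have hconj : ∀ g c : (permFin K).range, c ∈ C → g * c * g⁻¹ ∈ C := by
    intro g c hc i hi
    refine hc (g⁻¹ • i) ?_
    rw [mul_smul, mul_smul, smul_eq_iff_eq_inv_smul] at hi
    exact hi
  have h1 : HasDirichletDensity (DS.FrobSet ψ C) ((Nat.card C : ℝ) / Nat.card (permFin K).range) :=
    DS.chebotarev (permFin K).range ψ hsurj hfac C hconj
  refine ⟨{p | p ∈ DS.FrobSet ψ C ∧ p ∉ D.primeFactors}, ?_, fun p hp => hp.1.1, _, ?_,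
    h1.congr (B := (D.primeFactors : Set ℕ)) (Finset.finite_toSet _)
      fun p hp hpB => ⟨fun h => ⟨h, hpB⟩, fun h => h.1⟩⟩
  · rintro p ⟨⟨hp, A, hA, -, φ, hφ, hφC⟩, hpD⟩ v hv hv1
    have hpD' : ¬ p ∣ D := fun h => hpD (Nat.mem_primeFactors.mpr ⟨hp, h, hD⟩)
    have h2 : 1 ∈ cycType K (embPerm K φ) := by
      rw [← hdec p hp hpD' A hA φ hφ]
      exact one_mem_decType_iff.mpr ⟨v, hv, hv1⟩
    obtain ⟨j, hj⟩ := (one_mem_cycType_iff _).mp h2
    refine hφC (Fintype.equivFin (K →+* Qbar) j) ?_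
    change permFin K φ _ = _
    rw [permFin_fix, Equiv.symm_apply_apply]
    exact hj
  · have htrans : MulAction.IsPretransitive (permFin K).range
        (Fin (Fintype.card (K →+* Qbar))) := by
      constructor
      intro i i'
      obtain ⟨h, hh⟩ := Fermat.Agent.LT.Tower.exists_extend
        ((Fintype.equivFin (K →+* Qbar)).symm i) ((Fintype.equivFin (K →+* Qbar)).symm i')
      refine ⟨⟨permFin K h, h, rfl⟩, ?_⟩
      change permFin K h i = i'
      rw [permFin_apply, ← Equiv.eq_symm_apply]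
      exact RingHom.ext hh
    have hcard : Nat.card (Fin (Fintype.card (K →+* Qbar))) = Module.finrank ℚ K := by
      rw [Nat.card_eq_fintype_card, Fintype.card_fin]
      exact NumberField.Embeddings.card K Qbar
    have h2 := card_le_fixedPointFree (G := (permFin K).range)
      (X := Fin (Fintype.card (K →+* Qbar))) (by rwa [hcard])
    rw [hcard] at h2
    have h3 : (0 : ℝ) < Module.finrank ℚ K := by exact_mod_cast Module.finrank_pos
    have h4 : (0 : ℝ) < Nat.card (permFin K).range := by exact_mod_cast Nat.card_pos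
    rw [div_le_div_iff₀ h3 h4, one_mul, mul_comm]
    exact_mod_cast h2

variable {K}

open scoped Classical in
/-- **Almost no integer is a norm from `K ≠ ℚ`**: for every `δ < 1 / [K : ℚ]` the number of `n ≤ x`
which are norms of integral ideals of `K` is `O(x / (log x) ^ δ)`. -/
theorem isBigO_norm (hK : 2 ≤ Module.finrank ℚ K) {δ : ℝ} (hδ : δ < 1 / Module.finrank ℚ K) :
    (fun x : ℕ => (((Finset.Icc 1 x).filter fun n =>
      ∃ I : Ideal (𝓞 K), Ideal.absNorm I = n).card : ℝ)) =O[atTop]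
      fun x : ℕ => (x : ℝ) / (Real.log x) ^ δ := by
  obtain ⟨P, hP, hPp, α, hα, hd⟩ := exists_dirichlet_noDegOne K hK
  have h1 := isBigO_not (s := fun n => ¬ ∃ I : Ideal (𝓞 K), Ideal.absNorm I = n) hPp hd
    (hδ.trans_le hα) fun p hp k hk => by
      rintro ⟨I, hI⟩
      refine not_exact_absNorm (hPp p hp) (hP hp) I ?_
      rw [hI]
      refine ⟨Dvd.intro _ rfl, fun h => hk ?_⟩
      rw [pow_two] at h
      exact Nat.dvd_of_mul_dvd_mul_left (hPp p hp).pos h
  simpa only [not_not] using h1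

open scoped Classical in
/-- **The values of a norm form.** -/
theorem isBigO_norm_elt (hK : 2 ≤ Module.finrank ℚ K) {δ : ℝ} (hδ : δ < 1 / Module.finrank ℚ K) :
    (fun x : ℕ => (((Finset.Icc 1 x).filter fun n : ℕ =>
      ∃ a : 𝓞 K, |Algebra.norm ℤ a| = n).card : ℝ)) =O[atTop]
      fun x : ℕ => (x : ℝ) / (Real.log x) ^ δ := by
  refine Asymptotics.IsBigO.trans (Asymptotics.IsBigO.of_bound 1 (Eventually.of_forall fun x => ?_))
    (isBigO_norm hK hδ)
  rw [one_mul, Real.norm_of_nonneg (Nat.cast_nonneg _), Real.norm_of_nonneg (Nat.cast_nonneg _)]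
  refine Nat.cast_le.mpr (Finset.card_le_card fun n hn => ?_)
  rw [Finset.mem_filter] at hn ⊢
  obtain ⟨h1, a, ha⟩ := hn
  refine ⟨h1, Ideal.span {a}, ?_⟩
  rw [Ideal.absNorm_span_singleton]
  rw [Int.abs_eq_natAbs] at ha
  exact_mod_cast ha

/-- `x / (log x) ^ δ = o(x)` -/
theorem isLittleO_div_log {δ : ℝ} (hδ : 0 < δ) :
    (fun x : ℕ => (x : ℝ) / (Real.log x) ^ δ) =o[atTop] fun x : ℕ => (x : ℝ) := by
  have h1 : Tendsto (fun x : ℕ => (Real.log (x : ℝ)) ^ δ) atTop atTop :=
    (tendsto_rpow_atTop hδ).comp (Real.tendsto_log_atTop.comp tendsto_natCast_atTop_atTop)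
  have h2 : Tendsto (fun x : ℕ => ((Real.log (x : ℝ)) ^ δ)⁻¹) atTop (𝓝 0) :=
    tendsto_inv_atTop_zero.comp h1
  have h3 := (Asymptotics.isBigO_refl (fun x : ℕ => (x : ℝ)) atTop).mul_isLittleO
    ((Asymptotics.isLittleO_one_iff ℝ).mpr h2)
  simpa only [mul_one, div_eq_mul_inv] using h3

open scoped Classical in
/-- **The norms of the ideals of `K ≠ ℚ` have natural density `0`.** -/
theorem tendsto_norm (hK : 2 ≤ Module.finrank ℚ K) :
    Tendsto (fun x : ℕ => (((Finset.Icc 1 x).filter fun n =>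
      ∃ I : Ideal (𝓞 K), Ideal.absNorm I = n).card : ℝ) / x) atTop (𝓝 0) := by
  have h0 : (0 : ℝ) < Module.finrank ℚ K := by exact_mod_cast Module.finrank_pos
  have h1 : (0 : ℝ) < 1 / (2 * Module.finrank ℚ K) := by positivity
  have h2 : 1 / (2 * (Module.finrank ℚ K : ℝ)) < 1 / Module.finrank ℚ K :=
    one_div_lt_one_div_of_lt h0 (by linarith)
  exact ((isBigO_norm hK h2).trans_isLittleO (isLittleO_div_log h1)).tendsto_div_nhds_zero

end Field

/-! ### Binary quadratic forms -/

open scoped Classical in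
/-- **Binary quadratic forms**: `f = a X² + b X Y + c Y²` with `b² - 4 a c` not a square. For every
`δ < 1 / 2` the number of `n ≤ x` for which `n` or `-n` is a value of `f` is `O(x / (log x) ^ δ)`. -/
theorem isBigO_form {a b c : ℤ} (hD : ¬ IsSquare (b ^ 2 - 4 * a * c)) {δ : ℝ} (hδ : δ < 1 / 2) :
    (fun x : ℕ => (((Finset.Icc 1 x).filter fun n : ℕ =>
      ∃ u v : ℤ, |a * u ^ 2 + b * u * v + c * v ^ 2| = n).card : ℝ)) =O[atTop]
      fun x : ℕ => (x : ℝ) / (Real.log x) ^ δ := by
  have ha : a ≠ 0 := by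
    rintro rfl
    exact hD ⟨b, by ring⟩
  have hF := fact_of_not_isSquare hD
  have hK : Module.finrank ℚ (QF a b c) = 2 := QuadraticAlgebra.finrank_eq_two _ _
  obtain ⟨P, hP, hPp, α, hα, hd⟩ := exists_dirichlet_noDegOne (QF a b c) hK.ge
  rw [hK] at hα
  have hd' : HasDirichletDensity {p | p ∈ P ∧ p ∉ a.natAbs.primeFactors} α :=
    hd.congr (B := (a.natAbs.primeFactors : Set ℕ)) (Finset.finite_toSet _)
      fun p hp hpB => ⟨fun h => ⟨h, hpB⟩, fun h => h.1⟩
  have h1 := isBigO_not (s := fun n => ¬ ∃ u v : ℤ, |a * u ^ 2 + b * u * v + c * v ^ 2| = n)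
    (fun p hp => hPp p hp.1) hd' (hδ.trans_le (by exact_mod_cast hα)) fun p hp k hk => by
      rintro ⟨u, v, huv⟩
      have hpp := hPp p hp.1
      have hpa : ¬ p ∣ a.natAbs := fun h =>
        hp.2 (Nat.mem_primeFactors.mpr ⟨hpp, h, Int.natAbs_ne_zero.mpr ha⟩)
      refine not_exact_absNorm hpp (hP hp.1)
        (Ideal.span {((u * a : ℤ) : 𝓞 (QF a b c)) + ((-v : ℤ) : 𝓞 (QF a b c)) * thetaQ a b c}) ?_
      have h2 : (Ideal.absNorm (Ideal.span {((u * a : ℤ) : 𝓞 (QF a b c)) +
          ((-v : ℤ) : 𝓞 (QF a b c)) * thetaQ a b c})) = p * (a.natAbs * k) := by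
        rw [Ideal.absNorm_span_singleton, norm_comb]
        have h3 : a * (a * u ^ 2 - b * u * -v + c * (-v) ^ 2) =
            a * (a * u ^ 2 + b * u * v + c * v ^ 2) := by ring
        rw [h3, Int.natAbs_mul]
        have h4 : (a * u ^ 2 + b * u * v + c * v ^ 2).natAbs = p * k := by
          have h5 := Int.abs_eq_natAbs (a * u ^ 2 + b * u * v + c * v ^ 2)
          rw [huv] at h5
          exact_mod_cast h5.symm
        rw [h4]
        ring
      rw [h2]
      refine ⟨Dvd.intro _ rfl, fun h => ?_⟩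
      rw [pow_two] at h
      rcases (Nat.Prime.dvd_mul hpp).mp (Nat.dvd_of_mul_dvd_mul_left hpp.pos h) with h3 | h3
      · exact hpa h3
      · exact hk h3
  simpa only [not_not] using h1

open scoped Classical in
/-- **Sums of two squares**: their number up to `x` is `O(x / (log x) ^ δ)` for every `δ < 1 / 2`. -/
theorem isBigO_sq_add_sq {δ : ℝ} (hδ : δ < 1 / 2) :
    (fun x : ℕ => (((Finset.Icc 1 x).filter fun n : ℕ => ∃ u v : ℕ, u ^ 2 + v ^ 2 = n).card : ℝ))
      =O[atTop] fun x : ℕ => (x : ℝ) / (Real.log x) ^ δ := by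
  have hD : ¬ IsSquare ((0 : ℤ) ^ 2 - 4 * 1 * 1) := by
    rintro ⟨t, ht⟩
    nlinarith [mul_self_nonneg t]
  refine Asymptotics.IsBigO.trans (Asymptotics.IsBigO.of_bound 1 (Eventually.of_forall fun x => ?_))
    (isBigO_form hD hδ)
  rw [one_mul, Real.norm_of_nonneg (Nat.cast_nonneg _), Real.norm_of_nonneg (Nat.cast_nonneg _)]
  refine Nat.cast_le.mpr (Finset.card_le_card fun n hn => ?_)
  rw [Finset.mem_filter] at hn ⊢
  obtain ⟨h1, u, v, h2⟩ := hn
  refine ⟨h1, u, v, ?_⟩
  rw [← h2, abs_of_nonneg (by positivity)]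
  push_cast
  ring

end Fermat.Agent.Cor.Div

end
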