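import Fermat.Agent.Classic.Level.Perm

/-!
# Rational class functions and permutation characters

`G` a finite group. A class function `F : G → ℝ` which depends only on the cyclic subgroup
generated by its argument is a real linear combination of the permutation characters `g ↦` number of
fixed points of `g` on `G ⧸ H`, `H` a subgroup of `G` (`exists_perm`; a weak form of Artin's
induction theorem); the sum of the coefficients is the mean value of `F`.
-/

set_option autoImplicit false

noncomputable section

open Fermat.Agent.Classic.Level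

namespace Fermat.Agent.Cor.Div

variable {G : Type*} [Group G]

open Classical in
/-- the characteristic function of a subgroup -/
def chiH (H : Subgroup G) : G → ℝ := fun g => if g ∈ H then 1 else 0

open Classical in
/-- the characteristic function of the set of the generators of a subgroup -/
def genH (H : Subgroup G) : G → ℝ := fun g => if Subgroup.zpowers g = H then 1 else 0

open Classical in
theorem chiH_eq [Fintype (Subgroup G)] (C : Subgroup G) :
    chiH C = ∑ D : Subgroup G, if D ≤ C then genH D else 0 := by
  classical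
  funext g
  rw [Finset.sum_apply, chiH]
  have h1 : ∀ D : Subgroup G, (if D ≤ C then genH D else 0 : G → ℝ) g =
      if Subgroup.zpowers g = D then (if g ∈ C then 1 else 0) else 0 := by
    intro D
    by_cases hD : Subgroup.zpowers g = D
    · subst hD
      rw [if_pos rfl]
      by_cases hg : g ∈ C
      · rw [if_pos (Subgroup.zpowers_le.mpr hg), if_pos hg, genH, if_pos rfl]
      · rw [if_neg (fun h => hg (Subgroup.zpowers_le.mp h)), if_neg hg]
        rfl
    · rw [if_neg hD]
      split_ifs
      · rw [genH, if_neg hD]
      · rfl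
  rw [Finset.sum_congr rfl fun D _ => h1 D, Finset.sum_ite_eq]
  simp

theorem genH_mem_span [Finite G] (C : Subgroup G) :
    genH C ∈ Submodule.span ℝ (Set.range (chiH (G := G))) := by
  classical
  have : Fintype (Subgroup G) := Fintype.ofFinite _
  induction C using WellFoundedLT.induction with
  | ind C ih =>
    have h1 : genH C = chiH C - ∑ D : Subgroup G, if D < C then genH D else 0 := by
      rw [chiH_eq, eq_sub_iff_add_eq, ← Finset.add_sum_erase Finset.univ
        (fun D : Subgroup G => if D ≤ C then genH D else 0) (Finset.mem_univ C), if_pos le_rfl]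
      congr 1
      rw [← Finset.add_sum_erase Finset.univ
        (fun D : Subgroup G => if D < C then genH D else 0) (Finset.mem_univ C),
        if_neg (lt_irrefl C), zero_add]
      refine Finset.sum_congr rfl fun D hD => ?_
      have hne : D ≠ C := (Finset.mem_erase.mp hD).1
      by_cases h : D ≤ C
      · rw [if_pos h, if_pos (lt_of_le_of_ne h hne)]
      · rw [if_neg h, if_neg (fun h' => h h'.le)]
    rw [h1]
    refine Submodule.sub_mem _ (Submodule.subset_span ⟨C, rfl⟩) (Submodule.sum_mem _ fun D _ => ?_)
    split_ifs with hD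
    · exact ih D hD
    · exact Submodule.zero_mem _

/-- a function of the cyclic subgroup generated by `g` is a combination of the characteristic
functions of the subgroups -/
theorem exists_chiH [Finite G] [Fintype (Subgroup G)] {F : G → ℝ}
    (hF : ∀ g h : G, Subgroup.zpowers g = Subgroup.zpowers h → F g = F h) :
    ∃ c : Subgroup G → ℝ, ∀ g, F g = ∑ H : Subgroup G, c H * chiH H g := by
  classical
  have h1 : F = ∑ D : Subgroup G, (if h : ∃ g, Subgroup.zpowers g = D then F h.choose else 0) •
      genH D := by
    funext g
    rw [Finset.sum_apply]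
    have h2 : ∀ D : Subgroup G, ((if h : ∃ g, Subgroup.zpowers g = D then F h.choose else 0) •
        genH D : G → ℝ) g = if Subgroup.zpowers g = D then F g else 0 := by
      intro D
      rw [Pi.smul_apply, smul_eq_mul, genH]
      by_cases hD : Subgroup.zpowers g = D
      · have h3 : ∃ g, Subgroup.zpowers g = D := ⟨g, hD⟩
        rw [dif_pos h3, if_pos hD, if_pos hD, mul_one]
        exact hF _ _ (h3.choose_spec.trans hD.symm)
      · rw [if_neg hD, if_neg hD, mul_zero]
    rw [Finset.sum_congr rfl fun D _ => h2 D, Finset.sum_ite_eq]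
    simp
  have h4 : F ∈ Submodule.span ℝ (Set.range (chiH (G := G))) := by
    rw [h1]
    exact Submodule.sum_mem _ fun D _ => Submodule.smul_mem _ _ (genH_mem_span D)
  obtain ⟨c, hc⟩ := (Submodule.mem_span_range_iff_exists_fun ℝ).mp h4
  refine ⟨c, fun g => ?_⟩
  rw [← hc, Finset.sum_apply]
  rfl

theorem sum_chiH_conj [Fintype G] (H : Subgroup G) (g : G) :
    ∑ x : G, chiH H (x⁻¹ * g * x) = (pH H g : ℝ) * Nat.card H := by
  classical
  have h1 : ((pH H g * Nat.card H : ℕ) : ℝ) = (Nat.card {x : G // x⁻¹ * g * x ∈ H} : ℝ) := by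
    rw [pH_mul_card]
  rw [← Nat.cast_mul, h1, Nat.card_eq_fintype_card, Fintype.card_subtype]
  simp only [chiH]
  rw [Finset.sum_boole]

/-- the mean value of the permutation character -/
theorem sum_pH [Fintype G] (H : Subgroup G) : ∑ g : G, (pH H g : ℝ) = Nat.card G := by
  classical
  have hH : (Nat.card H : ℝ) ≠ 0 := by exact_mod_cast Nat.card_pos.ne'
  have h1 : (∑ g : G, (pH H g : ℝ)) * Nat.card H = Nat.card G * Nat.card H := by
    rw [Finset.sum_mul]
    simp only [← sum_chiH_conj]
    rw [Finset.sum_comm]
    have h2 : ∀ x : G, ∑ g : G, chiH H (x⁻¹ * g * x) = Nat.card H := by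
      intro x
      have h3 : ∑ g : G, chiH H (x⁻¹ * g * x) = ∑ g : G, chiH H g := by
        refine Fintype.sum_bijective (fun g => x⁻¹ * g * x) ?_ _ _ fun _ => rfl
        exact (Group.mulRight_bijective x).comp (Group.mulLeft_bijective x⁻¹)
      rw [h3]
      simp only [chiH]
      rw [Finset.sum_boole, ← Fintype.card_subtype, ← Nat.card_eq_fintype_card]
    rw [Finset.sum_congr rfl fun x _ => h2 x, Finset.sum_const, Finset.card_univ, nsmul_eq_mul,
      Nat.card_eq_fintype_card (α := G)]
  exact mul_right_cancel₀ hH h1

/-- **Rational class functions are combinations of permutation characters.** -/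
theorem exists_perm [Finite G] [Fintype (Subgroup G)] {F : G → ℝ}
    (hF : ∀ g h : G, Subgroup.zpowers g = Subgroup.zpowers h → F g = F h)
    (hconj : ∀ x g : G, F (x⁻¹ * g * x) = F g) :
    ∃ b : Subgroup G → ℝ, ∀ g, F g = ∑ H : Subgroup G, b H * pH H g := by
  classical
  have : Fintype G := Fintype.ofFinite G
  obtain ⟨c, hc⟩ := exists_chiH hF
  have hG : (Nat.card G : ℝ) ≠ 0 := by exact_mod_cast Nat.card_pos.ne'
  refine ⟨fun H => c H * Nat.card H / Nat.card G, fun g => ?_⟩
  have h1 : (Nat.card G : ℝ) * F g = ∑ x : G, F (x⁻¹ * g * x) := by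
    simp only [hconj]
    rw [Finset.sum_const, Finset.card_univ, nsmul_eq_mul, Nat.card_eq_fintype_card]
  have h2 : ∑ x : G, F (x⁻¹ * g * x) = ∑ H : Subgroup G, c H * (pH H g * Nat.card H) := by
    simp only [hc]
    rw [Finset.sum_comm]
    refine Finset.sum_congr rfl fun H _ => ?_
    rw [← Finset.mul_sum, sum_chiH_conj]
  rw [h2] at h1
  rw [eq_comm, ← mul_right_inj' hG, h1, Finset.mul_sum]
  refine Finset.sum_congr rfl fun H _ => ?_
  field_simp

/-- the sum of the coefficients is the mean value -/
theorem sum_coeff [Fintype G] [Fintype (Subgroup G)] {F : G → ℝ} {b : Subgroup G → ℝ}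
    (h : ∀ g, F g = ∑ H : Subgroup G, b H * pH H g) :
    ∑ H : Subgroup G, b H = (∑ g : G, F g) / Nat.card G := by
  have hG : (Nat.card G : ℝ) ≠ 0 := by exact_mod_cast Nat.card_pos.ne'
  rw [eq_div_iff hG, Finset.sum_mul]
  simp only [h]
  rw [Finset.sum_comm]
  refine Finset.sum_congr rfl fun H _ => ?_
  rw [← Finset.mul_sum, sum_pH]

end Fermat.Agent.Cor.Div

end
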