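import Fermat.Agent.Corollaries.Div.Frobenian
import Fermat.Agent.Corollaries.Div.Sieve
import Fermat.Agent.GalRep.Cyclo

/-!
# Watson's theorem: divisibility of the divisor sums

* `not_summable_residue` : `∑ 1 / p = ∞` over the primes `p ≡ b mod m`, `b` prime to `m`;
* `tendsto_dvd_of_poly` : if `a` is multiplicative on coprime integers, `a(p) = F(p)` for almost all
  primes `p`, `F` a polynomial with a root modulo `m` prime to `m`, then `m ∣ a(n)` for almost all
  `n`;
* `tendsto_dvd_sigma` (Watson 1935) : for `k` odd and every `m ≥ 1` almost all `σ_k(n)` are divisible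
  by `m`; `tendsto_dvd_totient` : almost all `φ(n)` are divisible by `m`.
-/

set_option autoImplicit false

open Filter Topology Polynomial
open Fermat.Agent.FrobDensity Fermat.Agent.Frob

namespace Fermat.Agent.Cor.Div

theorem isLevel_root {m : ℕ} (hm : m ≠ 0) (b : ℕ) :
    IsLevel fun σ : GQ => ∀ μ : AlgebraicClosure ℚ, μ ^ m = 1 → σ μ = μ ^ b := by
  constructor
  · obtain ⟨L, hL, h⟩ := exists_level_root hm
    refine ⟨L, hL, fun σ τ hστ hσ μ hμ => ?_⟩
    have h1 := h (τ⁻¹ * σ) (fun x hx => by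
      rw [AlgEquiv.mul_apply, hστ x hx, ← AlgEquiv.mul_apply, inv_mul_cancel, AlgEquiv.one_apply])
      μ hμ
    have h2 := congrArg τ h1
    rw [← AlgEquiv.mul_apply, ← mul_assoc, mul_inv_cancel, one_mul] at h2
    rw [← h2, hσ μ hμ]
  · intro σ τ hσ μ hμ
    rw [AlgEquiv.mul_apply, AlgEquiv.mul_apply, hσ (τ⁻¹ μ) (by rw [← map_pow, hμ, map_one]),
      map_pow, ← AlgEquiv.mul_apply, mul_inv_cancel, AlgEquiv.one_apply]

/-- **`∑ 1 / p = ∞` over the primes in a residue class.** -/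
theorem not_summable_residue {m b : ℕ} (hm : m ≠ 0) (hb : b.Coprime m) :
    ¬ Summable fun p : {p : ℕ | p.Prime ∧ p ∈ {p : ℕ | p ≡ b [MOD m]}} => (1 : ℝ) / (p : ℕ) := by
  have : NeZero m := ⟨hm⟩
  -- an automorphism: the Frobenius at a prime `q ≡ b mod m`
  obtain ⟨q, hq1, hq2⟩ := (Nat.infinite_setOfPred_prime_and_eq_mod
    ((ZMod.isUnit_iff_coprime b m).mpr hb)).exists_gt m
  have hqb : q ≡ b [MOD m] := (ZMod.natCast_eq_natCast_iff _ _ _).mp hq1.2
  have hdesc : Describes (fun σ : GQ => ∀ μ : AlgebraicClosure ℚ, μ ^ m = 1 → σ μ = μ ^ b)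
      {p : ℕ | p ≡ b [MOD m]} := by
    refine ⟨m.primeFactors, fun p hp hT A hA φ hφ => ?_⟩
    have hpm : ¬ p ∣ m := fun h => hT (Nat.mem_primeFactors.mpr ⟨hp, h, hm⟩)
    have h1 : ∀ μ : AlgebraicClosure ℚ, μ ^ m = 1 → φ μ = μ ^ p := fun μ hμ =>
      GalRep.frobenius_rootOfUnity hA ((Nat.Prime.coprime_iff_not_dvd hp).mpr hpm) hm hφ hμ
    constructor
    · intro h μ hμ
      have h2 : p ≡ b [MOD m] := h
      have h3 : ∀ c : ℕ, μ ^ c = μ ^ (c % m) := fun c => by
        conv_lhs => rw [← Nat.mod_add_div c m]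
        rw [pow_add, pow_mul, hμ, one_pow, mul_one]
      rw [h1 μ hμ, h3 p, h3 b, h2]
    · intro h
      exact modEq_of_pow h1 h hm
  obtain ⟨A, hA, hf⟩ := exists_frob_place hq1.1
  refine not_summable (isLevel_root hm b) hdesc (σ := frob q) fun μ hμ => ?_
  have hqm : ¬ q ∣ m := fun h => absurd (Nat.le_of_dvd (Nat.pos_of_ne_zero hm) h) (by omega)
  rw [GalRep.frobenius_rootOfUnity hA ((Nat.Prime.coprime_iff_not_dvd hq1.1).mpr hqm) hm hf hμ]
  have h3 : ∀ c : ℕ, μ ^ c = μ ^ (c % m) := fun c => by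
    conv_lhs => rw [← Nat.mod_add_div c m]
    rw [pow_add, pow_mul, hμ, one_pow, mul_one]
  rw [h3 q, h3 b, hqb]

open scoped Classical in
/-- **Multiplicative functions given by a polynomial at the primes.** -/
theorem tendsto_dvd_of_poly {a : ℕ → ℤ} (hmul : ∀ m n : ℕ, m.Coprime n → a (m * n) = a m * a n)
    {F : ℤ[X]} (ha : ∀ p : ℕ, p.Prime → a p = F.eval (p : ℤ)) {m b : ℕ} (hm : m ≠ 0)
    (hb : b.Coprime m) (hF : (m : ℤ) ∣ F.eval (b : ℤ)) :
    Tendsto (fun x : ℕ => (((Finset.range x).filter fun n => (m : ℤ) ∣ a n).card : ℝ) / x)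
      atTop (𝓝 1) := by
  have h1 := tendsto_mem_ideal (Ideal.span {(m : ℤ)}) hmul
    (P := {p : ℕ | p.Prime ∧ p ∈ {p : ℕ | p ≡ b [MOD m]}}) (fun p hp => hp.1)
    (not_summable_residue hm hb) (fun p hp => by
      rw [Ideal.mem_span_singleton, ha p hp.1]
      have h2 : (b : ℤ) ≡ p [ZMOD m] := (Int.natCast_modEq_iff.mpr hp.2).symm
      have h3 := F.sub_dvd_eval_sub (p : ℤ) b
      have h4 : (m : ℤ) ∣ F.eval (p : ℤ) - F.eval (b : ℤ) := (Int.ModEq.dvd h2).trans h3
      have h5 := dvd_add h4 hF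
      rwa [sub_add_cancel] at h5)
  simpa only [Ideal.mem_span_singleton] using h1

/-- `m - 1` is prime to `m` -/
lemma coprime_pred {m : ℕ} (hm : m ≠ 0) : (m - 1).Coprime m := by
  have h := Nat.coprime_self_sub_right (m := 1) (n := m) (Nat.one_le_iff_ne_zero.mpr hm)
  rw [Nat.coprime_comm, h]
  exact Nat.coprime_one_right m

open scoped Classical in
/-- **Watson's theorem** (1935): for `k` odd almost all `σ_k(n)` are divisible by `m`. -/
theorem tendsto_dvd_sigma {k : ℕ} (hk : Odd k) {m : ℕ} (hm : m ≠ 0) :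
    Tendsto (fun x : ℕ => (((Finset.range x).filter fun n =>
      m ∣ ArithmeticFunction.sigma k n).card : ℝ) / x) atTop (𝓝 1) := by
  have h := tendsto_dvd_of_poly (a := fun n => (ArithmeticFunction.sigma k n : ℤ)) (F := 1 + X ^ k)
    (fun u v huv => by
      have h1 := (ArithmeticFunction.isMultiplicative_sigma (k := k)).map_mul_of_coprime huv
      exact_mod_cast h1)
    (fun p hp => by
      have h1 := ArithmeticFunction.sigma_apply_prime_pow (k := k) (i := 1) hp
      rw [pow_one] at h1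
      rw [h1]
      simp [Finset.sum_range_succ]) hm (coprime_pred hm) (by
      have h2 : ((m - 1 : ℕ) : ℤ) = m - 1 := by
        rw [Nat.cast_sub (Nat.one_le_iff_ne_zero.mpr hm), Nat.cast_one]
      rw [eval_add, eval_one, eval_pow, eval_X, h2]
      have h3 := (Odd.add_dvd_pow_add_pow ((m : ℤ) - 1) 1 hk)
      rw [sub_add_cancel, one_pow] at h3
      rwa [add_comm] at h3)
  refine h.congr fun x => ?_
  simp only [Int.natCast_dvd_natCast]

open scoped Classical in
/-- Almost all `φ(n)` are divisible by `m`. -/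
theorem tendsto_dvd_totient {m : ℕ} (hm : m ≠ 0) :
    Tendsto (fun x : ℕ => (((Finset.range x).filter fun n => m ∣ n.totient).card : ℝ) / x)
      atTop (𝓝 1) := by
  have h := tendsto_dvd_of_poly (a := fun n => (n.totient : ℤ)) (F := X - 1)
    (fun u v huv => by exact_mod_cast Nat.totient_mul huv)
    (fun p hp => by
      rw [Nat.totient_prime hp, Nat.cast_sub hp.one_lt.le]
      simp) hm (Nat.coprime_one_left m) (by simp)
  refine h.congr fun x => ?_
  simp only [Int.natCast_dvd_natCast]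

end Fermat.Agent.Cor.Div
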