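import Fermat.Agent.Corollaries.WtOne.Sieve
import Fermat.Agent.Corollaries.Div.Newform
import Fermat.Agent.Corollaries.Div.Sigma

/-!
# The divisibility theorems with a power of the logarithm

The theorems of `Corollaries.Div.Hecke`, `Newform` and `Sigma` with the bound
`O(x / (log x) ^ δ)` for the number of exceptions `n ≤ x`:

* `isBigO_serre` (Serre 1974, weight two): there is `δ > 0`, depending only on `N` and `m`, such
  that for all cusp forms of weight two on `Γ₀(N)` with coefficients in the subring `A` of `ℂ` the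
  number of `n ≤ x` with `a_n ∉ m A` is `O(x / (log x) ^ δ)`;
* `isBigO_of_mul` : the same for the coefficients of every elliptic curve over `ℚ`;
* `hasDirichletDensity_residue` : Dirichlet's theorem with densities;
* `isBigO_sigma` (Watson 1935): the number of `n ≤ x` with `m ∤ σ_k(n)` is `O(x / (log x) ^ δ)` for
  every `δ < 1 / φ(m)`, `k` odd; `isBigO_totient` : the same for `φ(n)`.
-/

set_option autoImplicit false

noncomputable section

open Filter Topology CongruenceSubgroup CuspForm ModularFormClass Polynomial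
open Fermat.Agent.FrobDensity Fermat.Agent.Frob
open Fermat.Agent.Cor.WtOne (HasDirichletDensity)

namespace Fermat.Agent.Cor.Div

/-! ### General statements -/

/-- A set of primes which contains almost all primes with a Frobenius element having the property
`C` contains a set of primes of positive Dirichlet density. -/
theorem exists_dirichlet {C : GQ → Prop} (h : IsLevel C) {P : Set ℕ}
    (hP : ∃ T : Finset ℕ, ∀ p : ℕ, p.Prime → p ∉ T → ∀ A : ValuationSubring (AlgebraicClosure ℚ),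
      A.LiesOverPrime p → ∀ φ : GQ, A.IsFrobeniusAt φ p → C φ → p ∈ P) {σ : GQ} (hσ : C σ) :
    ∃ P' ⊆ P, (∀ p ∈ P', p.Prime) ∧ ∃ δ : ℚ, 0 < δ ∧ HasDirichletDensity P' δ := by
  obtain ⟨G, hG, hfin, ψ, hsurj, hlevel, hψ⟩ := exists_group h
  obtain ⟨T, hT⟩ := hP
  set D := ψ '' {σ | C σ} with hD
  have h1 : HasDirichletDensity (DS.FrobSet ψ D) ((Nat.card D : ℝ) / Nat.card G) :=
    DS.chebotarev G ψ hsurj hlevel D (image_conj h hsurj)
  refine ⟨{p | p ∈ DS.FrobSet ψ D ∧ p ∉ T}, ?_, fun p hp => hp.1.1,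
    (Nat.card D : ℚ) / Nat.card G, ?_, ?_⟩
  · rintro p ⟨⟨hp, A, hA, -, φ, hφ, hφD⟩, hpT⟩
    exact hT p hp hpT A hA φ hφ ((hψ φ).mp hφD)
  · have h2 : Nonempty D := ⟨⟨ψ σ, σ, hσ, rfl⟩⟩
    have h3 : 0 < Nat.card D := Nat.card_pos
    have h4 : 0 < Nat.card G := Nat.card_pos
    positivity
  · push_cast
    exact h1.congr (B := (T : Set ℕ)) (Finset.finite_toSet T)
      fun p hp hpB => ⟨fun h => ⟨h, hpB⟩, fun h => h.1⟩

/-- If `s (p k)` holds for all `p ∈ P` and all `k` prime to `p`, then `s` holds for all `n ≤ x` with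
`O(x / (log x) ^ δ)` exceptions, `δ` smaller than the density of `P`. -/
theorem isBigO_not {P : Set ℕ} (hP : ∀ p ∈ P, p.Prime) {α δ : ℝ} (h : HasDirichletDensity P α)
    (hδ : δ < α) {s : ℕ → Prop} [DecidablePred s] (hs : ∀ p ∈ P, ∀ k, ¬ p ∣ k → s (p * k)) :
    (fun x : ℕ => (((Finset.Icc 1 x).filter fun n => ¬ s n).card : ℝ)) =O[atTop]
      fun x : ℕ => (x : ℝ) / (Real.log x) ^ δ := by
  classical
  refine Asymptotics.IsBigO.trans (Asymptotics.IsBigO.of_bound 1 (Eventually.of_forall fun x => ?_))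
    (WtOne.isBigO_count hP h hδ)
  rw [one_mul, Real.norm_of_nonneg (Nat.cast_nonneg _), Real.norm_of_nonneg (Nat.cast_nonneg _)]
  refine Nat.cast_le.mpr (Finset.card_le_card fun n hn => ?_)
  rw [Finset.mem_filter] at hn ⊢
  refine ⟨hn.1, fun p hp hex => hn.2 ?_⟩
  obtain ⟨⟨k, rfl⟩, h4⟩ := hex
  refine hs p hp k fun h6 => h4 ?_
  rw [pow_two]
  exact Nat.mul_dvd_mul_left p h6

/-- The version with a property of the Frobenius elements: `δ` depends only on `C`. -/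
theorem exists_isBigO_not {C : GQ → Prop} (h : IsLevel C) {σ : GQ} (hσ : C σ) :
    ∃ δ : ℝ, 0 < δ ∧ ∀ P : Set ℕ, (∀ p ∈ P, p.Prime) →
      (∃ T : Finset ℕ, ∀ p : ℕ, p.Prime → p ∉ T → ∀ A : ValuationSubring (AlgebraicClosure ℚ),
        A.LiesOverPrime p → ∀ φ : GQ, A.IsFrobeniusAt φ p → C φ → p ∈ P) →
      ∀ (s : ℕ → Prop) [DecidablePred s], (∀ p ∈ P, ∀ k, ¬ p ∣ k → s (p * k)) →
      (fun x : ℕ => (((Finset.Icc 1 x).filter fun n => ¬ s n).card : ℝ)) =O[atTop]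
        fun x : ℕ => (x : ℝ) / (Real.log x) ^ δ := by
  obtain ⟨T₂, hT₂⟩ := describes_frobSet h
  obtain ⟨P₀, h0, hp0, δ, hδ, hd⟩ := exists_dirichlet h (P := FrobSet C)
    ⟨T₂, fun p hp hpT A hA φ hφ => (hT₂ p hp hpT A hA φ hφ).mpr⟩ hσ
  have hδ' : (0 : ℝ) < δ := by exact_mod_cast hδ
  refine ⟨δ / 2, by positivity, fun P hP ⟨T, hT⟩ s _ hs => ?_⟩
  have h1 : HasDirichletDensity {p | p ∈ P₀ ∧ p ∉ T} δ :=
    hd.congr (B := (T : Set ℕ)) (Finset.finite_toSet T)
      fun p hp hpB => ⟨fun h => ⟨h, hpB⟩, fun h => h.1⟩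
  refine isBigO_not (P := {p | p ∈ P₀ ∧ p ∉ T}) (fun p hp => hp0 p hp.1) h1 (by linarith) ?_
  rintro p ⟨hp, hpT⟩ k hk
  obtain ⟨A, hA, hf⟩ := exists_frob_place (hp0 p hp)
  exact hs p (hT p (hp0 p hp) hpT A hA _ hf (h0 hp A hA _ hf)) k hk

/-! ### Cusp forms -/

open scoped Classical in
/-- **Serre's divisibility theorem in weight two with a power of the logarithm**: there is `δ > 0`,
depending only on `N` and `m`, such that for every cusp form `f = ∑ a_n q ^ n` of weight two for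
`Γ₀(N)` with coefficients in the subring `A` of `ℂ` the number of `n ≤ x` with `a_n ∉ m A` is
`O(x / (log x) ^ δ)`. -/
theorem isBigO_serre (N : ℕ) [NeZero N] {m : ℕ} (hm : m ≠ 0) : ∃ δ : ℝ, 0 < δ ∧
    ∀ (A : Subring ℂ) (f : CuspForm (Gamma0 N) 2), (∀ n, qCoeff f n ∈ A) →
      (fun x : ℕ => (((Finset.Icc 1 x).filter fun n =>
        ¬ ∃ b ∈ A, qCoeff f n = m * b).card : ℝ)) =O[atTop]
        fun x : ℕ => (x : ℝ) / (Real.log x) ^ δ := by
  obtain ⟨M, hM, h⟩ := exists_modulus N hm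
  obtain ⟨δ, hδ, h1⟩ := exists_isBigO_not (isLevel_conjLike N hM) (conjLike_complexConjugation hM)
  refine ⟨δ, hδ, fun A f hf => ?_⟩
  refine h1 {ℓ : ℕ | ℓ.Prime ∧ ℓ ∈ HDiv N m} (fun _ hp => hp.1)
    ⟨(N * M).primeFactors, fun ℓ hℓ hT A' hA' φ hφ hc => ⟨hℓ, ?_⟩⟩ _
    fun _ hp _ hk => coeff_mul_of_mem_HDiv hp.2 hf hk
  exact h ℓ hℓ (fun h1 => hT (Nat.mem_primeFactors.mpr ⟨hℓ, h1, mul_ne_zero (NeZero.ne N) hM⟩))
    A' hA' φ hφ hc

open scoped Classical in
/-- **Integral coefficients**: `m ∣ a_n` for all but `O(x / (log x) ^ δ)` of the `n ≤ x`. -/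
theorem isBigO_serre_int (N : ℕ) [NeZero N] {m : ℕ} (hm : m ≠ 0) : ∃ δ : ℝ, 0 < δ ∧
    ∀ (f : CuspForm (Gamma0 N) 2) (a : ℕ → ℤ), (∀ n, qCoeff f n = a n) →
      (fun x : ℕ => (((Finset.Icc 1 x).filter fun n => ¬ (m : ℤ) ∣ a n).card : ℝ)) =O[atTop]
        fun x : ℕ => (x : ℝ) / (Real.log x) ^ δ := by
  obtain ⟨δ, hδ, h⟩ := isBigO_serre N hm
  refine ⟨δ, hδ, fun f a ha => ?_⟩
  have h1 := h (Int.castRingHom ℂ).range f fun n => ⟨a n, (ha n).symm⟩
  have h2 : ∀ n, (∃ b ∈ (Int.castRingHom ℂ).range, qCoeff f n = m * b) ↔ (m : ℤ) ∣ a n := by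
    intro n
    rw [ha]
    constructor
    · rintro ⟨_, ⟨c, rfl⟩, h2⟩
      refine ⟨c, ?_⟩
      rw [eq_intCast] at h2
      exact_mod_cast h2
    · rintro ⟨c, hc⟩
      refine ⟨c, ⟨c, rfl⟩, ?_⟩
      rw [hc]
      push_cast
      rfl
  simpa only [h2] using h1

open scoped Classical in
/-- **Normalised eigenforms**, in the ring of all algebraic integers. -/
theorem isBigO_eigenform (N : ℕ) [NeZero N] {m : ℕ} (hm : m ≠ 0) : ∃ δ : ℝ, 0 < δ ∧
    ∀ f : CuspForm (Gamma0 N) 2, f.IsNormalizedEigenform →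
      (fun x : ℕ => (((Finset.Icc 1 x).filter fun n =>
        ¬ ∃ b : ℂ, IsIntegral ℤ b ∧ qCoeff f n = m * b).card : ℝ)) =O[atTop]
        fun x : ℕ => (x : ℝ) / (Real.log x) ^ δ := by
  obtain ⟨δ, hδ, h⟩ := isBigO_serre N hm
  exact ⟨δ, hδ, fun f hf => h (integralClosure ℤ ℂ).toSubring f (isIntegral_qCoeff hf)⟩

/-! ### Elliptic curves -/

section Curve

variable {W : WeierstrassCurve ℤ}

open scoped Classical in
/-- **Every elliptic curve over `ℚ`, no modularity**: if `a` is multiplicative on coprime integers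
and `a(ℓ) = a_ℓ(W)` for almost all primes `ℓ`, then `m ∣ a(n)` for all but `O(x / (log x) ^ δ)` of
the `n ≤ x`. -/
theorem isBigO_of_mul (hΔ : W.Δ ≠ 0) {m : ℕ} (hm : m ≠ 0) : ∃ δ : ℝ, 0 < δ ∧
    ∀ a : ℕ → ℤ, (∀ m n : ℕ, m.Coprime n → a (m * n) = a m * a n) →
      (∃ T : Finset ℕ, ∀ ℓ : ℕ, ℓ.Prime → ℓ ∉ T → a ℓ = W.apOfModel ℓ) →
      (fun x : ℕ => (((Finset.Icc 1 x).filter fun n => ¬ (m : ℤ) ∣ a n).card : ℝ)) =O[atTop]
        fun x : ℕ => (x : ℝ) / (Real.log x) ^ δ := by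
  obtain ⟨δ, hδ, h⟩ := exists_isBigO_not (isLevel_trEq hΔ hm 0)
    (trEq_complexConjugation (W := W) hm)
  refine ⟨δ, hδ, fun a hmul ⟨T, ha⟩ => ?_⟩
  obtain ⟨T', hT'⟩ := describes_ap hΔ hm 0
  refine h {ℓ | ℓ.Prime ∧ (m : ℤ) ∣ a ℓ} (fun _ hp => hp.1)
    ⟨T ∪ T', fun p hp hpT A hA φ hφ hc => ⟨hp, ?_⟩⟩ (fun n => (m : ℤ) ∣ a n) fun p hp k hk => ?_
  · rw [Finset.mem_union, not_or] at hpT
    have h1 := (hT' p hp hpT.2 A hA φ hφ).mpr hc
    rw [Set.mem_ofPred_eq, sub_zero] at h1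
    rw [ha p hp hpT.1]
    exact h1
  · rw [hmul p k ((Nat.Prime.coprime_iff_not_dvd hp.1).mpr hk)]
    exact hp.2.mul_right _

open scoped Classical in
/-- **The newform of a semistable elliptic curve.** -/
theorem exists_newform_isBigO (hΔ : W.Δ ≠ 0) (hW : W.IsSemistableModel) :
    ∃ f : CuspForm (Gamma0 W.conductorLevel) 2, f.IsNewform ∧
      (∀ p : ℕ, p.Prime → qCoeff f p = (HW.ap W p : ℂ)) ∧
      ∃ a : ℕ → ℤ, (∀ n, qCoeff f n = a n) ∧ ∀ m : ℕ, m ≠ 0 → ∃ δ : ℝ, 0 < δ ∧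
        (fun x : ℕ => (((Finset.Icc 1 x).filter fun n => ¬ (m : ℤ) ∣ a n).card : ℝ)) =O[atTop]
          fun x : ℕ => (x : ℝ) / (Real.log x) ^ δ := by
  obtain ⟨f, hf, ha, a, h1, -⟩ := exists_newform_dvd hΔ hW
  refine ⟨f, hf, ha, a, h1, fun m hm => ?_⟩
  obtain ⟨δ, hδ, h⟩ := isBigO_serre_int W.conductorLevel hm
  exact ⟨δ, hδ, h f a h1⟩

end Curve

/-! ### Residue classes -/

open scoped Classical in
/-- **Dirichlet's theorem with densities.** -/
theorem hasDirichletDensity_residue {m b : ℕ} (hm : m ≠ 0) (hb : b.Coprime m) :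
    HasDirichletDensity {p : ℕ | p ≡ b [MOD m]} (1 / (m.totient : ℝ)) := by
  have : NeZero m := ⟨hm⟩
  have hfrob : ∀ p : ℕ, p.Prime → ¬ p ∣ m → ∀ A : ValuationSubring (AlgebraicClosure ℚ),
      A.LiesOverPrime p → ∀ φ : GQ, A.IsFrobeniusAt φ p →
        ((DS.cycN m φ : (ZMod m)ˣ) : ZMod m) = p := fun p hp hpm A hA φ hφ =>
    DS.cycN_frobenius m hp hpm hA hφ
  have hsurj : Function.Surjective (DS.cycN m) := by
    intro u
    obtain ⟨q, hq1, hq2⟩ := (Nat.infinite_setOfPred_prime_and_eq_mod u.isUnit).exists_gt m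
    obtain ⟨A, hA, hf⟩ := exists_frob_place hq1.1
    have hqm : ¬ q ∣ m := fun h => absurd (Nat.le_of_dvd (Nat.pos_of_ne_zero hm) h) (by omega)
    refine ⟨frob q, Units.ext ?_⟩
    rw [hfrob q hq1.1 hqm A hA _ hf]
    exact hq1.2
  have hlevel : GaloisFactorsThroughFiniteLevel (DS.cycN m) := by
    obtain ⟨L, hL, h⟩ := exists_level_root hm
    refine ⟨L, hL, fun σ hσ => ?_⟩
    rw [← map_one (DS.cycN m)]
    exact DS.cycN_eq_of_eqOn m (h σ hσ _ (DS.zetaN_spec m).pow_eq_one)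
  have h1 := WtOne.density_of_class (DS.cycN m) hsurj hlevel {u | (u : ZMod m) = b}
    (fun g c hc => by
      have h2 : g * c * g⁻¹ = c := by rw [mul_comm g c, mul_inv_cancel_right]
      rwa [h2]) {p : ℕ | p ≡ b [MOD m]} m.primeFactors (fun p hp hT A hA => by
        have hpm : ¬ p ∣ m := fun h => hT (Nat.mem_primeFactors.mpr ⟨hp, h, hm⟩)
        refine ⟨fun τ hτ => DS.cycN_inertia m hp hpm hA hτ, fun σ hσ => ?_⟩
        rw [Set.mem_ofPred_eq, Set.mem_ofPred_eq, hfrob p hp hpm A hA σ hσ]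
        exact (ZMod.natCast_eq_natCast_iff _ _ _).symm)
  have h2 : Nat.card ({u | (u : ZMod m) = b} : Set (ZMod m)ˣ) = 1 := by
    have h3 : ({u | (u : ZMod m) = b} : Set (ZMod m)ˣ) = {ZMod.unitOfCoprime b hb} := by
      ext u
      rw [Set.mem_ofPred_eq, Set.mem_singleton_iff]
      constructor
      · intro h
        exact Units.ext (by rw [h, ZMod.coe_unitOfCoprime])
      · rintro rfl
        rw [ZMod.coe_unitOfCoprime]
    rw [h3]
    simp
  rw [h2, Nat.card_eq_fintype_card, ZMod.card_units_eq_totient] at h1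
  simpa using h1

open scoped Classical in
/-- **Multiplicative functions given by a polynomial at the primes.** -/
theorem isBigO_of_poly {a : ℕ → ℤ} (hmul : ∀ m n : ℕ, m.Coprime n → a (m * n) = a m * a n)
    {F : ℤ[X]} (ha : ∀ p : ℕ, p.Prime → a p = F.eval (p : ℤ)) {m b : ℕ} (hm : m ≠ 0)
    (hb : b.Coprime m) (hF : (m : ℤ) ∣ F.eval (b : ℤ)) {δ : ℝ} (hδ : δ < 1 / m.totient) :
    (fun x : ℕ => (((Finset.Icc 1 x).filter fun n => ¬ (m : ℤ) ∣ a n).card : ℝ)) =O[atTop]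
      fun x : ℕ => (x : ℝ) / (Real.log x) ^ δ := by
  have h1 : HasDirichletDensity {p : ℕ | p.Prime ∧ p ≡ b [MOD m]} (1 / (m.totient : ℝ)) :=
    (hasDirichletDensity_residue hm hb).congr Set.finite_empty
      fun p hp _ => ⟨fun h => ⟨hp, h⟩, fun h => h.2⟩
  refine isBigO_not (s := fun n => (m : ℤ) ∣ a n) (fun p hp => hp.1) h1 hδ fun p hp k hk => ?_
  rw [hmul p k ((Nat.Prime.coprime_iff_not_dvd hp.1).mpr hk), ha p hp.1]
  have h2 : (b : ℤ) ≡ p [ZMOD m] := (Int.natCast_modEq_iff.mpr hp.2).symm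
  have h3 := F.sub_dvd_eval_sub (p : ℤ) b
  have h4 : (m : ℤ) ∣ F.eval (p : ℤ) - F.eval (b : ℤ) := (Int.ModEq.dvd h2).trans h3
  have h5 := dvd_add h4 hF
  rw [sub_add_cancel] at h5
  exact h5.mul_right _

open scoped Classical in
/-- **Watson's theorem** (1935), with the bound: for `k` odd and `δ < 1 / φ(m)` the number of
`n ≤ x` with `m ∤ σ_k(n)` is `O(x / (log x) ^ δ)`. -/
theorem isBigO_sigma {k : ℕ} (hk : Odd k) {m : ℕ} (hm : m ≠ 0) {δ : ℝ}
    (hδ : δ < 1 / m.totient) :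
    (fun x : ℕ => (((Finset.Icc 1 x).filter fun n =>
      ¬ m ∣ ArithmeticFunction.sigma k n).card : ℝ)) =O[atTop]
      fun x : ℕ => (x : ℝ) / (Real.log x) ^ δ := by
  have h := isBigO_of_poly (a := fun n => (ArithmeticFunction.sigma k n : ℤ)) (F := 1 + X ^ k)
    (fun u v huv => by
      have h1 := (ArithmeticFunction.isMultiplicative_sigma (k := k)).map_mul_of_coprime huv
      exact_mod_cast h1)
    (fun p hp => by
      have h1 := ArithmeticFunction.sigma_apply_prime_pow (k := k) (i := 1) hp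
      rw [pow_one] at h1
      rw [h1]
      simp [Finset.sum_range_succ]) hm (coprime_pred hm) (by
      have h2 : ((m - 1 : ℕ) : ℤ) = m - 1 := by
        rw [Nat.cast_sub (Nat.one_le_iff_ne_zero.mpr hm), Nat.cast_one]
      rw [eval_add, eval_one, eval_pow, eval_X, h2]
      have h3 := (Odd.add_dvd_pow_add_pow ((m : ℤ) - 1) 1 hk)
      rw [sub_add_cancel, one_pow] at h3
      rwa [add_comm] at h3) hδ
  simpa only [Int.natCast_dvd_natCast] using h

open scoped Classical in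
/-- For `δ < 1 / φ(m)` the number of `n ≤ x` with `m ∤ φ(n)` is `O(x / (log x) ^ δ)`. -/
theorem isBigO_totient {m : ℕ} (hm : m ≠ 0) {δ : ℝ} (hδ : δ < 1 / m.totient) :
    (fun x : ℕ => (((Finset.Icc 1 x).filter fun n => ¬ m ∣ n.totient).card : ℝ)) =O[atTop]
      fun x : ℕ => (x : ℝ) / (Real.log x) ^ δ := by
  have h := isBigO_of_poly (a := fun n => (n.totient : ℤ)) (F := X - 1)
    (fun u v huv => by exact_mod_cast Nat.totient_mul huv)
    (fun p hp => by
      rw [Nat.totient_prime hp, Nat.cast_sub hp.one_lt.le]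
      simp) hm (Nat.coprime_one_left m) (by simp) hδ
  simpa only [Int.natCast_dvd_natCast] using h

end Fermat.Agent.Cor.Div

end
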