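import Fermat.Agent.Corollaries.Div.Rate
import Fermat.Agent.Corollaries.Tau.Mordell
import Fermat.Agent.Corollaries.Tau.EisCongr
import Fermat.Agent.Corollaries.Tau.More
import Fermat.Agent.Corollaries.Tau.Two
import Fermat.Agent.Corollaries.Tau.Ramanujan

/-!
# Almost all values of Ramanujan's function are divisible by `2⁶ 3³ 5² 7 23 691`

* `isBigO_tau` : for every divisor `m` of `2⁶ 3³ 5² 7 23 691` and every `δ < 1 / φ(m)` the number of
  `n ≤ x` with `m ∤ τ(n)` is `O(x / (log x) ^ δ)`; `tendsto_dvd_tau` : almost all `τ(n)` are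
  divisible by `2⁶ 3³ 5² 7 23 691`;
* `isBigO_tau_seven`, `isBigO_tau_twenty_three` : for `m = 7, 23` every `δ < 1 / 2` is allowed;
* `isBigO_levelOne` : the coefficients of the normalised cusp forms of level one and weight `12`,
  `16`, `18`, `20`, `22`, `26` modulo the numerators of the Bernoulli numbers;
* `hasDirichletDensity_classes` : the density of the primes in a union of residue classes.
-/

set_option autoImplicit false

noncomputable section

open Filter Topology UpperHalfPlane ModularForm CongruenceSubgroup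
open Fermat.Agent.FrobDensity Fermat.Agent.Frob Fermat.Agent.Cor.Tau
open Fermat.Agent.Cor.WtOne (HasDirichletDensity)
open scoped ArithmeticFunction.sigma MatrixGroups

namespace Fermat.Agent.Cor.Div

/-! ### Unions of residue classes -/

/-- **The primes in a union of residue classes.** -/
theorem hasDirichletDensity_classes {m : ℕ} (hm : m ≠ 0) (U : Set (ZMod m)ˣ) :
    HasDirichletDensity {p : ℕ | ∃ u ∈ U, (u : ZMod m) = p} ((Nat.card U : ℝ) / m.totient) := by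
  have : NeZero m := ⟨hm⟩
  have hfrob : ∀ p : ℕ, p.Prime → ¬ p ∣ m → ∀ A : ValuationSubring (AlgebraicClosure ℚ),
      A.LiesOverPrime p → ∀ φ : GQ, A.IsFrobeniusAt φ p →
        ((DS.cycN m φ : (ZMod m)ˣ) : ZMod m) = p := fun p hp hpm A hA φ hφ =>
    DS.cycN_frobenius m hp hpm hA hφ
  have hsurj : Function.Surjective (DS.cycN m) := by
    intro u
    obtain ⟨q, hq1, hq2⟩ := (Nat.infinite_setOfPred_prime_and_eq_mod u.isUnit).exists_gt m
    obtain ⟨A, hA, hf⟩ := exists_frob_place hq1.1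
    have hqm : ¬ q ∣ m := fun h => absurd (Nat.le_of_dvd (Nat.pos_of_ne_zero hm) h) (by omega)
    refine ⟨frob q, Units.ext ?_⟩
    rw [hfrob q hq1.1 hqm A hA _ hf]
    exact hq1.2
  have hlevel : GaloisFactorsThroughFiniteLevel (DS.cycN m) := by
    obtain ⟨L, hL, h⟩ := exists_level_root hm
    refine ⟨L, hL, fun g hg => ?_⟩
    rw [← map_one (DS.cycN m)]
    exact DS.cycN_eq_of_eqOn m (h g hg _ (DS.zetaN_spec m).pow_eq_one)
  have h1 := WtOne.density_of_class (DS.cycN m) hsurj hlevel U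
    (fun g c hc => by
      have h2 : g * c * g⁻¹ = c := by rw [mul_comm g c, mul_inv_cancel_right]
      rwa [h2]) {p : ℕ | ∃ u ∈ U, (u : ZMod m) = p} m.primeFactors (fun p hp hT A hA => by
        have hpm : ¬ p ∣ m := fun h => hT (Nat.mem_primeFactors.mpr ⟨hp, h, hm⟩)
        refine ⟨fun g hg => DS.cycN_inertia m hp hpm hA hg, fun g hg => ⟨?_, fun h => ?_⟩⟩
        · rintro ⟨u, hu, hup⟩
          have h2 : DS.cycN m g = u := Units.ext (by rw [hfrob p hp hpm A hA g hg, hup])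
          rwa [h2]
        · exact ⟨_, h, hfrob p hp hpm A hA g hg⟩)
  rwa [Nat.card_eq_fintype_card (α := (ZMod m)ˣ), ZMod.card_units_eq_totient] at h1

/-! ### The congruences -/

/-- `2⁶ 3³ 5² 7 23 691 = 4806043200` -/
def tauMod : ℕ := 64 * 27 * 25 * 7 * 23 * 691

theorem dvd_sigma_prime {k m p : ℕ} (hk : Odd k) (hp : p.Prime) (h : m ∣ p + 1) :
    m ∣ σ k p := by
  have h1 := ArithmeticFunction.sigma_apply_prime_pow (k := k) (i := 1) hp
  rw [pow_one] at h1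
  rw [h1]
  simp only [Finset.sum_range_succ, Finset.sum_range_zero, zero_add, zero_mul, pow_zero, one_mul]
  have h2 := Odd.nat_add_dvd_pow_add_pow p 1 hk
  rw [one_pow, add_comm (p ^ k)] at h2
  exact h.trans h2

/-- one component -/
theorem dvd_tau_aux {d q j k p : ℕ} (hk : Odd k) (hp : p.Prime)
    (hc : tau p ≡ (p : ℤ) ^ j * (σ k p : ℕ) [ZMOD q]) (hd : d ∣ q) (hd' : d ∣ p + 1) :
    (d : ℤ) ∣ tau p := by
  have h1 : (d : ℤ) ∣ (p : ℤ) ^ j * (σ k p : ℕ) :=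
    Dvd.dvd.mul_left (Int.natCast_dvd_natCast.mpr (dvd_sigma_prime hk hp hd')) _
  have h2 : (d : ℤ) ∣ (p : ℤ) ^ j * (σ k p : ℕ) - tau p :=
    (Int.natCast_dvd_natCast.mpr hd).trans hc.dvd
  have h3 := dvd_sub h1 h2
  rwa [sub_sub_cancel] at h3

/-- **`m ∣ τ(p)` for `p ≡ -1 mod m`, `m` a divisor of `2⁶ 3³ 5² 7 23 691`** -/
theorem dvd_tau_prime {m p : ℕ} (hm : m ∣ tauMod) (hp : p.Prime) (h : m ∣ p + 1) :
    (m : ℤ) ∣ tau p := by
  have key : ∀ a b : ℕ, a.Coprime b → ((m.gcd a : ℕ) : ℤ) ∣ tau p → ((m.gcd b : ℕ) : ℤ) ∣ tau p →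
      ((m.gcd (a * b) : ℕ) : ℤ) ∣ tau p := by
    intro a b hab h1 h2
    rw [Nat.Coprime.gcd_mul m hab, Nat.cast_mul]
    refine IsCoprime.mul_dvd (Nat.isCoprime_iff_coprime.mpr ?_) h1 h2
    exact Nat.Coprime.coprime_dvd_left (Nat.gcd_dvd_right m a)
      (Nat.Coprime.coprime_dvd_right (Nat.gcd_dvd_right m b) hab)
  have hg : ∀ a : ℕ, m.gcd a ∣ p + 1 := fun a => (Nat.gcd_dvd_left m a).trans h
  have h64 : ((m.gcd 64 : ℕ) : ℤ) ∣ tau p := by
    rcases hp.eq_two_or_odd' with rfl | hodd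
    · have h1 : m.gcd 64 = 1 := by
        have h2 : m.gcd 64 ∣ Nat.gcd 3 64 := Nat.dvd_gcd (hg 64) (Nat.gcd_dvd_right m 64)
        exact Nat.dvd_one.mp h2
      rw [h1]
      exact one_dvd _
    · exact dvd_tau_aux (j := 0) (k := 11) (by decide) hp
        (by rw [pow_zero, one_mul]; exact tau_mod_64 hodd) (Nat.gcd_dvd_right m 64) (hg 64)
  have h27 : ((m.gcd 27 : ℕ) : ℤ) ∣ tau p :=
    dvd_tau_aux (j := 2) (k := 7) (by decide) hp (tau_mod_twenty_seven p)
      (Nat.gcd_dvd_right m 27) (hg 27)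
  have h25 : ((m.gcd 25 : ℕ) : ℤ) ∣ tau p :=
    dvd_tau_aux (j := 1) (k := 9) (by decide) hp (by rw [pow_one]; exact tau_mod_twenty_five p)
      (Nat.gcd_dvd_right m 25) (hg 25)
  have h7 : ((m.gcd 7 : ℕ) : ℤ) ∣ tau p :=
    dvd_tau_aux (j := 1) (k := 3) (by decide) hp (by rw [pow_one]; exact tau_mod_seven p)
      (Nat.gcd_dvd_right m 7) (hg 7)
  have h23 : ((m.gcd 23 : ℕ) : ℤ) ∣ tau p := by
    rcases (Nat.dvd_prime (by norm_num : Nat.Prime 23)).mp (Nat.gcd_dvd_right m 23) with h1 | h1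
    · rw [h1]
      exact one_dvd _
    · rw [h1]
      refine tau_mod_twenty_three ?_
      have h2 : ((p + 1 : ℕ) : ZMod 23) = 0 :=
        (ZMod.natCast_eq_zero_iff _ _).mpr (h1 ▸ hg 23)
      have h3 : (p : ZMod 23) = -1 := by
        rw [eq_neg_iff_add_eq_zero]
        exact_mod_cast h2
      rw [h3]
      decide
  have h691 : ((m.gcd 691 : ℕ) : ℤ) ∣ tau p :=
    dvd_tau_aux (j := 0) (k := 11) (by decide) hp
      (by rw [pow_zero, one_mul]; exact ramanujan_congruence p) (Nat.gcd_dvd_right m 691) (hg 691)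
  have h1 := key _ _ (by norm_num) (key _ _ (by norm_num) (key _ _ (by norm_num)
    (key _ _ (by norm_num) (key 64 27 (by norm_num) h64 h27) h25) h7) h23) h691
  have h2 : m.gcd (64 * 27 * 25 * 7 * 23 * 691) = m := Nat.gcd_eq_left hm
  rwa [h2] at h1

theorem dvd_succ_of_modEq {m p : ℕ} (hm : m ≠ 0) (h : p ≡ m - 1 [MOD m]) : m ∣ p + 1 := by
  have h1 := h.add_right 1
  rw [Nat.sub_add_cancel (Nat.one_le_iff_ne_zero.mpr hm)] at h1
  exact (Nat.modEq_zero_iff_dvd.mp (h1.trans (Nat.modEq_zero_iff_dvd.mpr dvd_rfl)))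

/-! ### Ramanujan's function -/

/-- **Ramanujan's function**: for every divisor `m` of `2⁶ 3³ 5² 7 23 691` and every
`δ < 1 / φ(m)` the number of `n ≤ x` with `m ∤ τ(n)` is `O(x / (log x) ^ δ)`. -/
theorem isBigO_tau {m : ℕ} (hm : m ∣ tauMod) {δ : ℝ} (hδ : δ < 1 / m.totient) :
    (fun x : ℕ => (((Finset.Icc 1 x).filter fun n => ¬ (m : ℤ) ∣ tau n).card : ℝ)) =O[atTop]
      fun x : ℕ => (x : ℝ) / (Real.log x) ^ δ := by
  have hm0 : m ≠ 0 := by
    rintro rfl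
    exact absurd (Nat.eq_zero_of_zero_dvd hm) (by norm_num [tauMod])
  have h1 : HasDirichletDensity {p : ℕ | p.Prime ∧ p ≡ m - 1 [MOD m]} (1 / (m.totient : ℝ)) :=
    (hasDirichletDensity_residue hm0 (coprime_pred hm0)).congr Set.finite_empty
      fun p hp _ => ⟨fun h => ⟨hp, h⟩, fun h => h.2⟩
  refine isBigO_not (s := fun n => (m : ℤ) ∣ tau n) (fun p hp => hp.1) h1 hδ fun p hp k hk => ?_
  rw [tau_mul_of_coprime ((Nat.Prime.coprime_iff_not_dvd hp.1).mpr hk)]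
  exact (dvd_tau_prime hm hp.1 (dvd_succ_of_modEq hm0 hp.2)).mul_right _

/-- `691 ∤ τ(n)` for `O(x / (log x) ^ δ)` of the `n ≤ x`, every `δ < 1 / 690`. -/
theorem isBigO_tau_691 {δ : ℝ} (hδ : δ < 1 / 690) :
    (fun x : ℕ => (((Finset.Icc 1 x).filter fun n => ¬ (691 : ℤ) ∣ tau n).card : ℝ)) =O[atTop]
      fun x : ℕ => (x : ℝ) / (Real.log x) ^ δ := by
  refine isBigO_tau (m := 691) (Dvd.intro_left _ rfl) ?_
  rw [Nat.totient_prime (by norm_num : Nat.Prime 691)]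
  norm_num at hδ ⊢
  exact hδ

/-- **Almost all values of Ramanujan's function are divisible by `2⁶ 3³ 5² 7 23 691`.** -/
theorem tendsto_dvd_tau : Tendsto (fun x : ℕ => (((Finset.range x).filter fun n =>
    (2 ^ 6 * 3 ^ 3 * 5 ^ 2 * 7 * 23 * 691 : ℤ) ∣ tau n).card : ℝ) / x) atTop (𝓝 1) := by
  have hm0 : tauMod ≠ 0 := by norm_num [tauMod]
  have h1 := tendsto_mem_ideal (a := tau) (Ideal.span {(tauMod : ℤ)})
    (fun m n h => tau_mul_of_coprime h)
    (P := {p : ℕ | p.Prime ∧ p ∈ {p : ℕ | p ≡ tauMod - 1 [MOD tauMod]}}) (fun p hp => hp.1)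
    (not_summable_residue hm0 (coprime_pred hm0)) (fun p hp => by
      rw [Ideal.mem_span_singleton]
      exact dvd_tau_prime dvd_rfl hp.1 (dvd_succ_of_modEq hm0 hp.2))
  have h2 : (tauMod : ℤ) = 2 ^ 6 * 3 ^ 3 * 5 ^ 2 * 7 * 23 * 691 := by norm_num [tauMod]
  simp only [Ideal.mem_span_singleton, h2] at h1
  convert h1

/-- The primes which are not squares modulo `q`, if half of the classes are. -/
theorem hasDirichletDensity_nonsquare {q : ℕ} (hqp : q.Prime)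
    (h : Nat.card {u : (ZMod q)ˣ | ¬ IsSquare (u : ZMod q)} * 2 = q - 1) :
    HasDirichletDensity {p : ℕ | p.Prime ∧ ¬ IsSquare (p : ZMod q)} (1 / 2) := by
  have h1 := hasDirichletDensity_classes hqp.ne_zero {u : (ZMod q)ˣ | ¬ IsSquare (u : ZMod q)}
  have h2 : ((Nat.card {u : (ZMod q)ˣ | ¬ IsSquare (u : ZMod q)} : ℝ) / q.totient) = 1 / 2 := by
    rw [Nat.totient_prime hqp, ← h]
    have h3 : 0 < Nat.card {u : (ZMod q)ˣ | ¬ IsSquare (u : ZMod q)} := by
      have := hqp.two_le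
      omega
    have h4 : (0 : ℝ) < Nat.card {u : (ZMod q)ˣ | ¬ IsSquare (u : ZMod q)} := by exact_mod_cast h3
    push_cast
    field_simp
  rw [h2] at h1
  refine h1.congr (B := {q}) (Set.finite_singleton q) fun p hp hpq => ⟨?_, fun h => ?_⟩
  · rintro ⟨u, hu, hup⟩
    refine ⟨hp, ?_⟩
    rw [← hup]
    exact hu
  · have h3 : p.Coprime q := (Nat.coprime_primes hp hqp).mpr hpq
    refine ⟨ZMod.unitOfCoprime p h3, ?_, ZMod.coe_unitOfCoprime p h3⟩
    rw [Set.mem_ofPred_eq, ZMod.coe_unitOfCoprime]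
    exact h.2

theorem card_nonsquare_twenty_three :
    Nat.card {u : (ZMod 23)ˣ | ¬ IsSquare (u : ZMod 23)} = 11 := by
  change Nat.card {u : (ZMod 23)ˣ // ¬ IsSquare (u : ZMod 23)} = 11
  rw [Nat.card_eq_fintype_card]
  decide

theorem card_nonsquare_seven : Nat.card {u : (ZMod 7)ˣ | ¬ IsSquare (u : ZMod 7)} = 3 := by
  change Nat.card {u : (ZMod 7)ˣ // ¬ IsSquare (u : ZMod 7)} = 3
  rw [Nat.card_eq_fintype_card]
  decide

theorem nonsquare_seven : ∀ x : ZMod 7, ¬ IsSquare x → x * (1 + x ^ 3) = 0 := by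
  decide

/-- **`23 ∤ τ(n)` for `O(x / (log x) ^ δ)` of the `n ≤ x`, every `δ < 1 / 2`.** -/
theorem isBigO_tau_twenty_three {δ : ℝ} (hδ : δ < 1 / 2) :
    (fun x : ℕ => (((Finset.Icc 1 x).filter fun n => ¬ (23 : ℤ) ∣ tau n).card : ℝ)) =O[atTop]
      fun x : ℕ => (x : ℝ) / (Real.log x) ^ δ := by
  have h1 : Nat.card {u : (ZMod 23)ˣ | ¬ IsSquare (u : ZMod 23)} * 2 = 23 - 1 := by
    rw [card_nonsquare_twenty_three]
  refine isBigO_not (s := fun n => (23 : ℤ) ∣ tau n) (fun p hp => hp.1)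
    (hasDirichletDensity_nonsquare (by norm_num) h1) hδ fun p hp k hk => ?_
  rw [tau_mul_of_coprime ((Nat.Prime.coprime_iff_not_dvd hp.1).mpr hk)]
  exact (tau_mod_twenty_three hp.2).mul_right _

/-- **`7 ∤ τ(n)` for `O(x / (log x) ^ δ)` of the `n ≤ x`, every `δ < 1 / 2`.** -/
theorem isBigO_tau_seven {δ : ℝ} (hδ : δ < 1 / 2) :
    (fun x : ℕ => (((Finset.Icc 1 x).filter fun n => ¬ (7 : ℤ) ∣ tau n).card : ℝ)) =O[atTop]
      fun x : ℕ => (x : ℝ) / (Real.log x) ^ δ := by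
  have h1 : Nat.card {u : (ZMod 7)ˣ | ¬ IsSquare (u : ZMod 7)} * 2 = 7 - 1 := by
    rw [card_nonsquare_seven]
  refine isBigO_not (s := fun n => (7 : ℤ) ∣ tau n) (fun p hp => hp.1)
    (hasDirichletDensity_nonsquare (by norm_num) h1) hδ fun p hp k hk => ?_
  rw [tau_mul_of_coprime ((Nat.Prime.coprime_iff_not_dvd hp.1).mpr hk)]
  refine Dvd.dvd.mul_right ?_ _
  have h2 : ((tau p : ℤ) : ZMod 7) = ((p * σ 3 p : ℤ) : ZMod 7) :=
    (ZMod.intCast_eq_intCast_iff _ _ 7).mpr (tau_mod_seven p)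
  have h3 : (σ 3 p : ℕ) = 1 + p ^ 3 := by
    have h4 := ArithmeticFunction.sigma_apply_prime_pow (k := 3) (i := 1) hp.1
    rw [pow_one] at h4
    rw [h4]
    simp [Finset.sum_range_succ]
  rw [h3] at h2
  push_cast at h2
  rw [nonsquare_seven _ hp.2] at h2
  exact (ZMod.intCast_zmod_eq_zero_iff_dvd _ 7).mp h2

/-! ### Weights 12, 16, 18, 20, 22, 26 -/

/-- **The Eisenstein primes.** `k ∈ {12, 16, 18, 20, 22, 26}`, `N` the numerator of `B_k / 2k`: the
coefficients of the normalised cusp form of level one and weight `k` are integers and for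
`δ < 1 / φ(N)` all but `O(x / (log x) ^ δ)` of those with `n ≤ x` are divisible by `N`. -/
theorem isBigO_levelOne {k N : ℕ}
    (h : (k, (N : ℤ)) ∈ ({(12, 691), (16, 3617), (18, 43867), (20, 174611), (22, 77683),
      (26, 657931)} : Set (ℕ × ℤ)))
    (f : CuspForm 𝒮ℒ (k : ℤ)) (hf : (qExpansion 1 (⇑f : ℍ → ℂ)).coeff 1 = 1) :
    ∃ a : ℕ → ℤ, (∀ n, (qExpansion 1 (⇑f : ℍ → ℂ)).coeff n = a n) ∧
      ∀ δ : ℝ, δ < 1 / N.totient →
        (fun x : ℕ => (((Finset.Icc 1 x).filter fun n => ¬ (N : ℤ) ∣ a n).card : ℝ)) =O[atTop]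
          fun x : ℕ => (x : ℝ) / (Real.log x) ^ δ := by
  obtain ⟨a, h1, -, -, h2⟩ := eisenstein_congruence h f hf
  refine ⟨a, h1, fun δ hδ => ?_⟩
  have hkN : Odd (k - 1) ∧ N ≠ 0 := by
    simp only [Set.mem_insert_iff, Set.mem_singleton_iff, Prod.mk.injEq] at h
    rcases h with ⟨rfl, h⟩ | ⟨rfl, h⟩ | ⟨rfl, h⟩ | ⟨rfl, h⟩ | ⟨rfl, h⟩ | ⟨rfl, h⟩ <;>
      exact ⟨by decide, by omega⟩
  have h3 := isBigO_sigma hkN.1 hkN.2 hδ
  refine h3.congr_left fun x => ?_
  congr 2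
  refine Finset.filter_congr fun n _ => not_congr ?_
  rw [← Int.natCast_dvd_natCast]
  exact ((h2 n).dvd_iff).symm

end Fermat.Agent.Cor.Div

end
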