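import Fermat.Agent.Corollaries.Div.Exact
import Fermat.Agent.Corollaries.Div.Tau

/-!
# The values of Ramanujan's function not divisible by 3, 5, 7, 691: exact asymptotics

* `card_not_dvd_tau_691` : `#{n ≤ x : 691 ∤ τ(n)} ~ C x / (log x) ^ (1 / 690)`, `C > 0` (the
  statement of Ramanujan's manuscript on `p(n)` and `τ(n)`; Watson, Serre);
* `card_not_dvd_tau_seven`, `card_not_dvd_tau_five`, `card_not_dvd_tau_three` : the exponents
  `1 / 2`, `1 / 4`, `1 / 2`;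
* `card_not_dvd_levelOne` : the normalised cusp forms of level one and weight `k = 12`, `16`, `18`,
  `20`, `22`, `26` modulo the prime divisors `ℓ` of the numerator of `B_k / 2k`.
-/

set_option autoImplicit false

noncomputable section

open Filter Topology UpperHalfPlane ModularForm CongruenceSubgroup
open Fermat.Agent.Cor.Tau
open scoped ArithmeticFunction.sigma MatrixGroups

namespace Fermat.Agent.Cor.Div

/-- a multiplicative function with `a(p) ≡ p ^ j σ_k(p)` modulo `ℓ` -/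
theorem card_not_dvd_of_congr {ℓ : ℕ} (hℓ : ℓ.Prime) (hℓ2 : ℓ ≠ 2) {a : ℕ → ℤ} (h1 : a 1 = 1)
    (hmul : ∀ m n : ℕ, m.Coprime n → a (m * n) = a m * a n) {j k : ℕ}
    (hc : ∀ p : ℕ, p.Prime → a p ≡ (p : ℤ) ^ j * (σ k p : ℕ) [ZMOD ℓ]) :
    ∃ C : ℝ, 0 < C ∧ Tendsto (fun x : ℝ =>
      (((Finset.Icc 1 ⌊x⌋₊).filter fun n => ¬ (ℓ : ℤ) ∣ a n).card : ℝ) /
        (x / Real.log x ^ ((Nat.card {u : (ZMod ℓ)ˣ // u ^ k = -1} : ℝ) / (ℓ - 1 : ℕ))))
          atTop (𝓝 C) := by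
  have : Fact ℓ.Prime := ⟨hℓ⟩
  have : NeZero ℓ := ⟨hℓ.ne_zero⟩
  obtain ⟨C, hC, h⟩ := card_not_dvd_of_residue hℓ h1 hmul (q := ℓ)
    (U := {u : (ZMod ℓ)ˣ | u ^ k = -1})
    (by
      intro h
      have h1 : (1 : (ZMod ℓ)ˣ) ∈ {u : (ZMod ℓ)ˣ | u ^ k = -1} := h ▸ Set.mem_univ _
      rw [Set.mem_ofPred_eq, one_pow] at h1
      have h2 := congrArg (Units.val : (ZMod ℓ)ˣ → ZMod ℓ) h1
      rw [Units.val_one, Units.val_neg, Units.val_one] at h2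
      have h3 : ((2 : ℕ) : ZMod ℓ) = 0 := by
        push_cast
        linear_combination h2
      have h4 := (ZMod.natCast_eq_zero_iff 2 ℓ).mp h3
      exact hℓ2 ((Nat.prime_dvd_prime_iff_eq hℓ Nat.prime_two).mp h4))
    (fun p hp hpℓ => by
      have hcop : p.Coprime ℓ := (Nat.Prime.coprime_iff_not_dvd hp).mpr hpℓ
      have h3 : (σ k p : ℕ) = 1 + p ^ k := by
        have h4 := ArithmeticFunction.sigma_apply_prime_pow (k := k) (i := 1) hp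
        rw [pow_one] at h4
        rw [h4]
        simp [Finset.sum_range_succ]
      have hp0 : (p : ZMod ℓ) ≠ 0 := by
        rw [Ne, ZMod.natCast_eq_zero_iff]
        intro h
        exact hpℓ ((Nat.prime_dvd_prime_iff_eq hℓ hp).mp h ▸ dvd_rfl)
      have h5 : ((a p : ℤ) : ZMod ℓ) = (p : ZMod ℓ) ^ j * (1 + (p : ZMod ℓ) ^ k) := by
        have h6 := (ZMod.intCast_eq_intCast_iff _ _ ℓ).mpr (hc p hp)
        rw [h6, h3]
        push_cast
        ring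
      rw [← ZMod.intCast_zmod_eq_zero_iff_dvd, h5, mul_eq_zero_iff_left (pow_ne_zero _ hp0)]
      constructor
      · intro h
        refine ⟨ZMod.unitOfCoprime p hcop, ?_, ZMod.coe_unitOfCoprime p hcop⟩
        rw [Set.mem_ofPred_eq]
        refine Units.ext ?_
        rw [Units.val_pow_eq_pow_val, ZMod.coe_unitOfCoprime, Units.val_neg, Units.val_one]
        linear_combination h
      · rintro ⟨u, hu, hup⟩
        have h5 := congrArg (Units.val : (ZMod ℓ)ˣ → ZMod ℓ) hu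
        rw [Units.val_pow_eq_pow_val, Units.val_neg, Units.val_one, hup] at h5
        rw [h5]
        ring)
  refine ⟨C, hC, ?_⟩
  rw [Nat.totient_prime hℓ] at h
  exact h

/-- Ramanujan's function -/
theorem card_not_dvd_tau_aux {ℓ j k h e : ℕ} (hℓ : ℓ.Prime) (hℓ2 : ℓ ≠ 2)
    (hc : ∀ p : ℕ, p.Prime → tau p ≡ (p : ℤ) ^ j * (σ k p : ℕ) [ZMOD ℓ])
    (hcard : Nat.card {u : (ZMod ℓ)ˣ // u ^ k = -1} = h) (he : h * e = ℓ - 1) (h0 : h ≠ 0) :
    ∃ C : ℝ, 0 < C ∧ Tendsto (fun x : ℝ =>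
      (((Finset.Icc 1 ⌊x⌋₊).filter fun n => ¬ (ℓ : ℤ) ∣ tau n).card : ℝ) /
        (x / Real.log x ^ (1 / (e : ℝ)))) atTop (𝓝 C) := by
  have h1 := card_not_dvd_of_congr hℓ hℓ2 tau_one (fun m n h => tau_mul_of_coprime h) hc
  have h2 : ((Nat.card {u : (ZMod ℓ)ˣ // u ^ k = -1} : ℝ) / (ℓ - 1 : ℕ)) = 1 / (e : ℝ) := by
    have h3 : (h : ℝ) ≠ 0 := by exact_mod_cast h0
    rw [hcard, ← he, Nat.cast_mul]
    field_simp
  rw [h2] at h1
  exact h1

/-- **`#{n ≤ x : 691 ∤ τ(n)} ~ C x / (log x) ^ (1 / 690)`** -/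
theorem card_not_dvd_tau_691 : ∃ C : ℝ, 0 < C ∧ Tendsto (fun x : ℝ =>
      (((Finset.Icc 1 ⌊x⌋₊).filter fun n => ¬ (691 : ℤ) ∣ tau n).card : ℝ) /
        (x / Real.log x ^ (1 / 690 : ℝ))) atTop (𝓝 C) := by
  have h := card_not_dvd_tau_aux (ℓ := 691) (j := 0) (k := 11) (e := 690) (by norm_num)
    (by norm_num) (fun p _ => by rw [pow_zero, one_mul]; exact ramanujan_congruence p)
    (card_pow_eq_neg_one (by norm_num) (by decide) (by norm_num)) (by norm_num) one_ne_zero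
  exact_mod_cast h

/-- **`#{n ≤ x : 7 ∤ τ(n)} ~ C x / (log x) ^ (1 / 2)`** -/
theorem card_not_dvd_tau_seven : ∃ C : ℝ, 0 < C ∧ Tendsto (fun x : ℝ =>
      (((Finset.Icc 1 ⌊x⌋₊).filter fun n => ¬ (7 : ℤ) ∣ tau n).card : ℝ) /
        (x / Real.log x ^ (1 / 2 : ℝ))) atTop (𝓝 C) := by
  have h := card_not_dvd_tau_aux (ℓ := 7) (j := 1) (k := 3) (h := 3) (e := 2) (by norm_num)
    (by norm_num) (fun p _ => by rw [pow_one]; exact tau_mod_seven p)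
    (by rw [Nat.card_eq_fintype_card]; decide) (by norm_num) (by norm_num)
  exact_mod_cast h

/-- **`#{n ≤ x : 5 ∤ τ(n)} ~ C x / (log x) ^ (1 / 4)`** -/
theorem card_not_dvd_tau_five : ∃ C : ℝ, 0 < C ∧ Tendsto (fun x : ℝ =>
      (((Finset.Icc 1 ⌊x⌋₊).filter fun n => ¬ (5 : ℤ) ∣ tau n).card : ℝ) /
        (x / Real.log x ^ (1 / 4 : ℝ))) atTop (𝓝 C) := by
  have h := card_not_dvd_tau_aux (ℓ := 5) (j := 1) (k := 1) (h := 1) (e := 4) (by norm_num)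
    (by norm_num) (fun p _ => by rw [pow_one]; exact tau_mod_five p)
    (by rw [Nat.card_eq_fintype_card]; decide) (by norm_num) (by norm_num)
  exact_mod_cast h

/-- **`#{n ≤ x : 3 ∤ τ(n)} ~ C x / (log x) ^ (1 / 2)`** -/
theorem card_not_dvd_tau_three : ∃ C : ℝ, 0 < C ∧ Tendsto (fun x : ℝ =>
      (((Finset.Icc 1 ⌊x⌋₊).filter fun n => ¬ (3 : ℤ) ∣ tau n).card : ℝ) /
        (x / Real.log x ^ (1 / 2 : ℝ))) atTop (𝓝 C) := by
  have h := card_not_dvd_tau_aux (ℓ := 3) (j := 2) (k := 7) (h := 1) (e := 2) (by norm_num)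
    (by norm_num) (fun p _ => (tau_mod_twenty_seven p).of_dvd (by norm_num))
    (by rw [Nat.card_eq_fintype_card]; decide) (by norm_num) (by norm_num)
  exact_mod_cast h

/-- **The Eisenstein primes**: `k ∈ {12, 16, 18, 20, 22, 26}`, `ℓ` a prime divisor of the numerator
of `B_k / 2k`. -/
theorem card_not_dvd_levelOne {k N ℓ : ℕ}
    (h : (k, (N : ℤ)) ∈ ({(12, 691), (16, 3617), (18, 43867), (20, 174611), (22, 77683),
      (26, 657931)} : Set (ℕ × ℤ))) (hℓ : ℓ.Prime) (hℓN : ℓ ∣ N)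
    (f : CuspForm 𝒮ℒ (k : ℤ)) (hf : (qExpansion 1 (⇑f : ℍ → ℂ)).coeff 1 = 1) :
    ∃ a : ℕ → ℤ, (∀ n, (qExpansion 1 (⇑f : ℍ → ℂ)).coeff n = a n) ∧
      ∃ C : ℝ, 0 < C ∧ Tendsto (fun x : ℝ =>
        (((Finset.Icc 1 ⌊x⌋₊).filter fun n => ¬ (ℓ : ℤ) ∣ a n).card : ℝ) /
          (x / Real.log x ^ ((Nat.card {u : (ZMod ℓ)ˣ // u ^ (k - 1) = -1} : ℝ) / (ℓ - 1 : ℕ))))
            atTop (𝓝 C) := by
  obtain ⟨a, h1, -, -, h2⟩ := eisenstein_congruence h f hf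
  refine ⟨a, h1, ?_⟩
  have hℓ2 : ℓ ≠ 2 := by
    rintro rfl
    simp only [Set.mem_insert_iff, Set.mem_singleton_iff, Prod.mk.injEq] at h
    rcases h with ⟨-, h⟩ | ⟨-, h⟩ | ⟨-, h⟩ | ⟨-, h⟩ | ⟨-, h⟩ | ⟨-, h⟩ <;> omega
  obtain ⟨C, hC, h3⟩ := card_not_dvd_sigma hℓ hℓ2 (k - 1)
  refine ⟨C, hC, h3.congr fun x => ?_⟩
  congr 3
  refine Finset.filter_congr fun n _ => not_congr ?_
  rw [← Int.natCast_dvd_natCast]
  exact (((h2 n).of_dvd (Int.natCast_dvd_natCast.mpr hℓN)).dvd_iff).symm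

end Fermat.Agent.Cor.Div

end
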