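import Fermat.Agent.Corollaries.Div.TraceZero
import Fermat.Agent.Corollaries.Surj.Cheb
import Fermat.Agent.Corollaries.Surj.Mazur

/-!
# The coefficients of an elliptic curve not divisible by `ℓ`: the generic exponent

* `card_ne_zero_of_surjective` : `ρ : Gal(ℚ̄/ℚ) → GL₂(𝔽_ℓ)` continuous and surjective, `ℓ` odd, `a`
  multiplicative with `a(p) ≡ tr ρ(Frob_p)` modulo `ℓ`:
  `#{n ≤ x : ℓ ∤ a(n)} ~ C x / (log x) ^ (ℓ / (ℓ² - 1))`, `C > 0`;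
* `card_not_dvd_of_surjective`, `card_not_dvd_semistable` : the coefficients of an elliptic curve with
  surjective mod `ℓ` representation; every semistable curve, `ℓ = 11` or `ℓ ≥ 17`, or `ℓ` odd with
  `W[ℓ]` irreducible.
-/

set_option autoImplicit false

noncomputable section

open Filter Topology
open Fermat.Agent.Frob

namespace Fermat.Agent.Cor.Div

variable {ℓ : ℕ} [Fact ℓ.Prime]

/-- the proportion of the elements of trace zero in `GL₂(𝔽_ℓ)` -/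
theorem exponent_of_surjective {ρ : GQ →* GL (Fin 2) (ZMod ℓ)} (hs : Function.Surjective ρ)
    (hℓ : ℓ ≠ 2) : (Nat.card {g : ρ.range // ((g : GL (Fin 2) (ZMod ℓ)) :
      Matrix (Fin 2) (Fin 2) (ZMod ℓ)).trace = 0} : ℝ) / Nat.card ρ.range =
        ℓ / ((ℓ : ℝ) ^ 2 - 1) := by
  have e : ρ.range ≃ GL (Fin 2) (ZMod ℓ) := Equiv.subtypeUnivEquiv fun g => hs g
  have h1 : Nat.card ρ.range = Nat.card (GL (Fin 2) (ZMod ℓ)) :=
    Nat.card_congr (Equiv.subtypeUnivEquiv fun g => hs g)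
  have h2 : Nat.card {g : ρ.range // ((g : GL (Fin 2) (ZMod ℓ)) :
      Matrix (Fin 2) (Fin 2) (ZMod ℓ)).trace = 0} =
      Nat.card {g : GL (Fin 2) (ZMod ℓ) | (g : Matrix (Fin 2) (Fin 2) (ZMod ℓ)).trace = 0} :=
    Nat.card_congr (Equiv.subtypeEquiv (Equiv.subtypeUnivEquiv fun g => hs g) fun g => Iff.rfl)
  have h3 := Count.card_GL_trace (Cheb.ringChar_ne_two hℓ) (0 : ZMod ℓ)
  rw [ZMod.card, if_pos rfl] at h3
  have h4 : (Nat.card {g : GL (Fin 2) (ZMod ℓ) |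
      (g : Matrix (Fin 2) (Fin 2) (ZMod ℓ)).trace = 0} : ℝ) = ℓ ^ 3 - ℓ ^ 2 - 0 := by
    exact_mod_cast h3
  rw [h1, h2, h4, Cheb.card_GL2_real]
  have h5 := Cheb.real_pos (p := ℓ) hℓ
  have h6 : (ℓ : ℝ) - 1 ≠ 0 := by linarith
  have h7 : (ℓ : ℝ) + 1 ≠ 0 := by linarith
  have h8 : (ℓ : ℝ) ≠ 0 := by linarith
  rw [show (ℓ : ℝ) ^ 2 - 1 = (ℓ - 1) * (ℓ + 1) by ring]
  field_simp
  ring

open Classical in
/-- **The values not divisible by `ℓ` in the generic case** (Serre): `ρ : Gal(ℚ̄/ℚ) → GL₂(𝔽_ℓ)`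
surjective with open kernel, `ℓ` odd, `a` multiplicative with `a(p) ≡ tr ρ(Frob_p)` modulo `ℓ` for
almost all primes `p`. Then `#{n ≤ x : ℓ ∤ a(n)} ~ C x / (log x) ^ (ℓ / (ℓ² - 1))`, `C > 0`. -/
theorem card_ne_zero_of_surjective {ρ : GQ →* GL (Fin 2) (ZMod ℓ)} (hs : Function.Surjective ρ)
    (hker : IsOpen (ρ.ker : Set GQ)) (hℓ : ℓ ≠ 2) {a : ℕ → ℤ} (h1 : a 1 = 1)
    (hmul : ∀ m n : ℕ, m.Coprime n → a (m * n) = a m * a n) {N : ℕ} (hN : N ≠ 0)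
    (ha : ∀ p : ℕ, p.Prime → ¬ p ∣ N → ∀ A : ValuationSubring (AlgebraicClosure ℚ),
      A.LiesOverPrime p → ∀ σ : GQ, A.IsFrobeniusAt σ p →
        (a p : ZMod ℓ) = (ρ σ : Matrix (Fin 2) (Fin 2) (ZMod ℓ)).trace) :
    ∃ C : ℝ, 0 < C ∧ Tendsto (fun x : ℝ =>
      (((Finset.Icc 1 ⌊x⌋₊).filter fun n => ¬ (ℓ : ℤ) ∣ a n).card : ℝ) /
        (x / Real.log x ^ ((ℓ : ℝ) / ((ℓ : ℝ) ^ 2 - 1)))) atTop (𝓝 C) := by
  have hℓp : ℓ.Prime := Fact.out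
  have h2 : (2 : ZMod ℓ) ≠ 0 := by
    intro h
    have h3 : ((2 : ℕ) : ZMod ℓ) = 0 := by exact_mod_cast h
    have h4 := (ZMod.natCast_eq_zero_iff 2 ℓ).mp h3
    exact hℓ ((Nat.prime_dvd_prime_iff_eq hℓp Nat.prime_two).mp h4)
  obtain ⟨C, hC, h⟩ := card_ne_zero h2 hker (a := fun n => ((a n : ℤ) : ZMod ℓ))
    (by simp only [h1, Int.cast_one])
    (fun m n hmn => by simp only [hmul m n hmn, Int.cast_mul]) hN ha
  rw [exponent_of_surjective hs hℓ] at h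
  refine ⟨C, hC, h.congr fun x => ?_⟩
  congr 3
  ext n
  simp only [Finset.mem_filter, ne_eq, ZMod.intCast_zmod_eq_zero_iff_dvd]

section Curve

variable {W : WeierstrassCurve ℤ} (hΔ : W.Δ ≠ 0)

open Classical in
/-- **The coefficients of an elliptic curve not divisible by `ℓ`**, `ℓ` an odd prime with surjective
mod `ℓ` representation: `#{n ≤ x : ℓ ∤ a_n} ~ C x / (log x) ^ (ℓ / (ℓ² - 1))`, `C > 0`. -/
theorem card_not_dvd_of_surjective (hs : Function.Surjective (Classic.repP ℓ hΔ)) (hℓ : ℓ ≠ 2)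
    {a : ℕ → ℤ} (h1 : a 1 = 1) (hmul : ∀ m n : ℕ, m.Coprime n → a (m * n) = a m * a n)
    (ha : ∀ p : ℕ, p.Prime → W.IsGoodPrimeFor p → p ≠ ℓ → a p = W.apOfModel p) :
    ∃ C : ℝ, 0 < C ∧ Tendsto (fun x : ℝ =>
      (((Finset.Icc 1 ⌊x⌋₊).filter fun n => ¬ (ℓ : ℤ) ∣ a n).card : ℝ) /
        (x / Real.log x ^ ((ℓ : ℝ) / ((ℓ : ℝ) ^ 2 - 1)))) atTop (𝓝 C) := by
  have h := card_not_dvd_curve ℓ hΔ hℓ h1 hmul ha
  rw [exponent_of_surjective hs hℓ] at h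
  exact h

open Classical in
include hΔ in
/-- **Semistable curves** (Serre, with Mazur's theorem): `W` semistable, `ℓ = 11` or `ℓ ≥ 17`, or `ℓ`
odd with `W[ℓ]` irreducible: `#{n ≤ x : ℓ ∤ a_n} ~ C x / (log x) ^ (ℓ / (ℓ² - 1))`, `C > 0`. -/
theorem card_not_dvd_semistable (hW : W.IsSemistableModel) (hℓ : ℓ ≠ 2)
    (h : ℓ = 11 ∨ 17 ≤ ℓ ∨ W.ModRepIsIrreducible ℓ)
    {a : ℕ → ℤ} (h1 : a 1 = 1) (hmul : ∀ m n : ℕ, m.Coprime n → a (m * n) = a m * a n)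
    (ha : ∀ p : ℕ, p.Prime → W.IsGoodPrimeFor p → p ≠ ℓ → a p = W.apOfModel p) :
    ∃ C : ℝ, 0 < C ∧ Tendsto (fun x : ℝ =>
      (((Finset.Icc 1 ⌊x⌋₊).filter fun n => ¬ (ℓ : ℤ) ∣ a n).card : ℝ) /
        (x / Real.log x ^ ((ℓ : ℝ) / ((ℓ : ℝ) ^ 2 - 1)))) atTop (𝓝 C) := by
  refine card_not_dvd_of_surjective hΔ ?_ hℓ h1 hmul ha
  rcases h with h | h | h
  · exact repP_surjective_of_ge hΔ (Or.inl h) hW
  · exact repP_surjective_of_ge hΔ (Or.inr h) hW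
  · exact repP_surjective hΔ hW hℓ h

end Curve

end Fermat.Agent.Cor.Div

end
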