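import Fermat.Agent.Corollaries.Div.Frob
import Fermat.Agent.Classic.Rep3

/-!
# The non-zero coefficients of two dimensional Galois representations

`k` a field of characteristic `≠ 2`, `ρ : Gal(ℚ̄/ℚ) → GL₂(k)` with open kernel and finite image,
`a : ℕ → k` multiplicative with `a(p) = tr ρ(Frob_p)` for almost all primes. Then
`#{n ≤ x : a(n) ≠ 0} ~ C x / (log x) ^ α`, `C > 0`, where `α` is the proportion of the elements of
trace zero in the image of `ρ` (`card_ne_zero`; Serre). In particular for every elliptic curve over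
`ℚ` and every odd prime `ℓ` the number of the `n ≤ x` with `ℓ ∤ a_n` is `~ C x / (log x) ^ α`
(`card_not_dvd_curve`), and `0 < α < 1`.
-/

set_option autoImplicit false

noncomputable section

open Filter Topology NumberField
open Fermat.Agent.Frob Fermat.Agent.Classic.Level

namespace Fermat.Agent.Cor.Div

section Trace

variable {k : Type*} [Field k]

/-- a matrix of trace zero has a scalar square -/
theorem sq_eq_scalar {g : GL (Fin 2) k} (hg : (g : Matrix (Fin 2) (Fin 2) k).trace = 0) :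
    g ^ (2 : ℤ) = Matrix.GeneralLinearGroup.scalar (Fin 2)
      (-Matrix.GeneralLinearGroup.det g) := by
  rw [zpow_ofNat, pow_two]
  refine Units.ext ?_
  rw [Units.val_mul, Matrix.GeneralLinearGroup.coe_scalar, Units.val_neg,
    Matrix.GeneralLinearGroup.val_det_apply, Matrix.det_fin_two]
  rw [Matrix.trace_fin_two] at hg
  ext i j
  rw [Matrix.mul_apply, Fin.sum_univ_two]
  fin_cases i <;> fin_cases j
  · simp
    linear_combination (g.1 0 0) * hg
  · simp
    linear_combination (g.1 0 1) * hg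
  · simp
    linear_combination (g.1 1 0) * hg
  · simp
    linear_combination (g.1 1 1) * hg

theorem trace_scalar (u : kˣ) : ((Matrix.GeneralLinearGroup.scalar (Fin 2) u : GL (Fin 2) k) :
    Matrix (Fin 2) (Fin 2) k).trace = 2 * u := by
  rw [Matrix.GeneralLinearGroup.coe_scalar, Matrix.trace_fin_two]
  simp
  ring

theorem trace_scalar_mul (u : kˣ) (g : GL (Fin 2) k) :
    ((Matrix.GeneralLinearGroup.scalar (Fin 2) u * g : GL (Fin 2) k) :
      Matrix (Fin 2) (Fin 2) k).trace = u * (g : Matrix (Fin 2) (Fin 2) k).trace := by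
  rw [Units.val_mul, Matrix.GeneralLinearGroup.coe_scalar, Matrix.trace_fin_two,
    Matrix.trace_fin_two]
  simp [Matrix.mul_apply, Fin.sum_univ_two]
  ring

/-- **The elements of trace zero of `GL₂(k)` are stable under the passage to another generator of
the same cyclic group**, `char k ≠ 2`. -/
theorem trace_eq_zero_of_zpowers (h2 : (2 : k) ≠ 0) {g h : GL (Fin 2) k}
    (hgh : Subgroup.zpowers g = Subgroup.zpowers h)
    (hg : (g : Matrix (Fin 2) (Fin 2) k).trace = 0) :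
    (h : Matrix (Fin 2) (Fin 2) k).trace = 0 := by
  set u : kˣ := -Matrix.GeneralLinearGroup.det g with hu
  have hsq : ∀ j : ℤ, g ^ (2 * j) = Matrix.GeneralLinearGroup.scalar (Fin 2) (u ^ j) := by
    intro j
    rw [zpow_mul, sq_eq_scalar hg, ← map_zpow]
  obtain ⟨m, hm⟩ := Subgroup.mem_zpowers_iff.mp (hgh ▸ Subgroup.mem_zpowers h)
  rcases Int.even_or_odd' m with ⟨j, hj | hj⟩
  · exfalso
    rw [hj, hsq] at hm
    obtain ⟨i, hi⟩ := Subgroup.mem_zpowers_iff.mp (hgh.symm ▸ Subgroup.mem_zpowers g)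
    rw [← hm, ← map_zpow] at hi
    rw [← hi, trace_scalar] at hg
    exact mul_ne_zero h2 (Units.ne_zero _) hg
  · rw [hj, zpow_add, hsq, zpow_one] at hm
    rw [← hm, trace_scalar_mul, hg, mul_zero]

theorem trace_conj (x g : GL (Fin 2) k) : ((x⁻¹ * g * x : GL (Fin 2) k) :
    Matrix (Fin 2) (Fin 2) k).trace = (g : Matrix (Fin 2) (Fin 2) k).trace := by
  rw [Units.val_mul, Matrix.trace_mul_comm, ← Units.val_mul]
  rw [show x * (x⁻¹ * g) = g by group]

open Classical in
/-- **The non-zero coefficients** (Serre): `ρ : Gal(ℚ̄/ℚ) → GL₂(k)` with open kernel and finite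
image, `char k ≠ 2`, `a` multiplicative with `a(p) = tr ρ(Frob_p)` for almost all `p`. Then
`#{n ≤ x : a(n) ≠ 0} ~ C x / (log x) ^ α`, `α` the proportion of the elements of trace zero in the
image. -/
theorem card_ne_zero (h2 : (2 : k) ≠ 0) {ρ : GQ →* GL (Fin 2) k} [Finite ρ.range]
    (hker : IsOpen (ρ.ker : Set GQ)) {a : ℕ → k} (h1 : a 1 = 1)
    (hmul : ∀ m n : ℕ, m.Coprime n → a (m * n) = a m * a n) {N : ℕ} (hN : N ≠ 0)
    (ha : ∀ p : ℕ, p.Prime → ¬ p ∣ N → ∀ A : ValuationSubring (AlgebraicClosure ℚ),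
      A.LiesOverPrime p → ∀ σ : GQ, A.IsFrobeniusAt σ p →
        a p = (ρ σ : Matrix (Fin 2) (Fin 2) k).trace) :
    ∃ C : ℝ, 0 < C ∧ Tendsto (fun x : ℝ =>
      (((Finset.Icc 1 ⌊x⌋₊).filter fun n => a n ≠ 0).card : ℝ) /
        (x / Real.log x ^ ((Nat.card {g : ρ.range //
          ((g : GL (Fin 2) k) : Matrix (Fin 2) (Fin 2) k).trace = 0} : ℝ) / Nat.card ρ.range)))
            atTop (𝓝 C) := by
  have hker' : IsOpen ((ρ.rangeRestrict.ker : Subgroup GQ) : Set GQ) := by
    rw [MonoidHom.ker_rangeRestrict]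
    exact hker
  obtain ⟨C, hC, h⟩ := card_mulSet_frob hker' ρ.rangeRestrict_surjective
    (C := {g : ρ.range | ((g : GL (Fin 2) k) : Matrix (Fin 2) (Fin 2) k).trace ≠ 0})
    ⟨1, by
      change ((1 : GL (Fin 2) k) : Matrix (Fin 2) (Fin 2) k).trace ≠ 0
      rw [Units.val_one, Matrix.trace_one]
      simpa using h2⟩
    (fun g g' hz hg hg' => hg (by
      refine trace_eq_zero_of_zpowers h2 ?_ hg'
      have h3 := congrArg (Subgroup.map ρ.range.subtype) hz.symm
      rwa [MonoidHom.map_zpowers, MonoidHom.map_zpowers] at h3))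
    (fun x g hg => by
      change (((x : GL (Fin 2) k)⁻¹ * (g : GL (Fin 2) k) * (x : GL (Fin 2) k) : GL (Fin 2) k) :
        Matrix (Fin 2) (Fin 2) k).trace ≠ 0
      rw [trace_conj]
      exact hg)
    (S := {n : ℕ | a n ≠ 0}) (by rw [Set.mem_ofPred_eq, h1]; exact one_ne_zero)
    (fun m n hmn => by
      rw [Set.mem_ofPred_eq, Set.mem_ofPred_eq, Set.mem_ofPred_eq, hmul m n hmn]
      exact mul_ne_zero_iff) hN (fun p hp hpN A hA σ hσ => by
      rw [Set.mem_ofPred_eq, ha p hp hpN A hA σ hσ]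
      rfl)
  refine ⟨C, hC, ?_⟩
  refine (tendsto_flip (s := (Nat.card {g : ρ.range //
    ((g : GL (Fin 2) k) : Matrix (Fin 2) (Fin 2) k).trace = 0} : ℝ) / Nat.card ρ.range)
      ?_ h).congr fun x => ?_
  · have h3 : Nat.card {g : ρ.range // ((g : GL (Fin 2) k) : Matrix (Fin 2) (Fin 2) k).trace = 0} +
        Nat.card {g : ρ.range | ((g : GL (Fin 2) k) : Matrix (Fin 2) (Fin 2) k).trace ≠ 0} =
        Nat.card ρ.range := by
      have h4 := Set.ncard_add_ncard_compl
        {g : ρ.range | ((g : GL (Fin 2) k) : Matrix (Fin 2) (Fin 2) k).trace = 0}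
      rw [← h4, ← Nat.card_coe_set_eq, ← Nat.card_coe_set_eq]
      rfl
    have hG : (Nat.card ρ.range : ℝ) ≠ 0 := by exact_mod_cast Nat.card_pos.ne'
    have h4 : (Nat.card {g : ρ.range //
        ((g : GL (Fin 2) k) : Matrix (Fin 2) (Fin 2) k).trace = 0} : ℝ) +
        Nat.card {g : ρ.range | ((g : GL (Fin 2) k) : Matrix (Fin 2) (Fin 2) k).trace ≠ 0} =
        Nat.card ρ.range := by exact_mod_cast h3
    field_simp
    linarith
  · congr 3
    ext n
    simp only [Finset.mem_filter, Set.mem_ofPred_eq]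

end Trace

section Curve

variable {W : WeierstrassCurve ℤ} (ℓ : ℕ) [Fact ℓ.Prime] (hΔ : W.Δ ≠ 0)

open Classical in
/-- **The coefficients of an elliptic curve which are not divisible by an odd prime `ℓ`** (Serre):
`W` a Weierstrass equation over `ℤ` with `Δ ≠ 0`, `a` multiplicative with `a_1 = 1` and
`a_p = a_p(W)` for the primes `p ≠ ℓ` of good reduction. Then
`#{n ≤ x : ℓ ∤ a_n} ~ C x / (log x) ^ α`, `C > 0`, `α` the proportion of the elements of trace zero
in the image of the mod `ℓ` representation. -/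
theorem card_not_dvd_curve (hℓ : ℓ ≠ 2) {a : ℕ → ℤ} (h1 : a 1 = 1)
    (hmul : ∀ m n : ℕ, m.Coprime n → a (m * n) = a m * a n)
    (ha : ∀ p : ℕ, p.Prime → W.IsGoodPrimeFor p → p ≠ ℓ → a p = W.apOfModel p) :
    ∃ C : ℝ, 0 < C ∧ Tendsto (fun x : ℝ =>
      (((Finset.Icc 1 ⌊x⌋₊).filter fun n => ¬ (ℓ : ℤ) ∣ a n).card : ℝ) /
        (x / Real.log x ^ ((Nat.card {g : (Classic.repP ℓ hΔ).range //
          ((g : GL (Fin 2) (ZMod ℓ)) : Matrix (Fin 2) (Fin 2) (ZMod ℓ)).trace = 0} : ℝ) /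
            Nat.card (Classic.repP ℓ hΔ).range))) atTop (𝓝 C) := by
  have hℓp : ℓ.Prime := Fact.out
  have h2 : (2 : ZMod ℓ) ≠ 0 := by
    intro h
    have h3 : ((2 : ℕ) : ZMod ℓ) = 0 := by exact_mod_cast h
    have h4 := (ZMod.natCast_eq_zero_iff 2 ℓ).mp h3
    exact hℓ ((Nat.prime_dvd_prime_iff_eq hℓp Nat.prime_two).mp h4)
  have hker : IsOpen ((Classic.repP ℓ hΔ).ker : Set GQ) :=
    (isOpen_discrete {1}).preimage (Classic.continuous_repP ℓ hΔ)
  have hN : ℓ * W.Δ.natAbs ≠ 0 := mul_ne_zero hℓp.ne_zero (Int.natAbs_ne_zero.mpr hΔ)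
  obtain ⟨C, hC, h⟩ := card_ne_zero h2 hker (a := fun n => ((a n : ℤ) : ZMod ℓ))
    (by simp only [h1, Int.cast_one])
    (fun m n hmn => by simp only [hmul m n hmn, Int.cast_mul]) hN
    (fun p hp hpN A hA σ hσ => by
      have hg : W.IsGoodPrimeFor p := fun h =>
        hpN (Dvd.dvd.mul_left (Int.natCast_dvd.mp h) ℓ)
      have hne : p ≠ ℓ := by
        rintro rfl
        exact hpN (dvd_mul_right p _)
      simp only [ha p hp hg hne]
      exact (Classic.trace_repP_frobenius hΔ hp hg hne hA hσ).symm)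
  refine ⟨C, hC, h.congr fun x => ?_⟩
  congr 3
  ext n
  simp only [Finset.mem_filter, ne_eq, ZMod.intCast_zmod_eq_zero_iff_dvd]

/-- complex conjugation has trace zero -/
theorem trace_eq_zero_of_sq {k : Type*} [Field k] {g : GL (Fin 2) k} (hg : g * g = 1)
    (hd : (g : Matrix (Fin 2) (Fin 2) k).det = -1) :
    (g : Matrix (Fin 2) (Fin 2) k).trace = 0 := by
  have h1 : (g : Matrix (Fin 2) (Fin 2) k) * g = 1 := by
    rw [← Units.val_mul, hg, Units.val_one]
  have h2 := congrFun (congrFun h1 0) 0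
  have h3 := congrFun (congrFun h1 0) 1
  rw [Matrix.mul_apply, Fin.sum_univ_two, Matrix.one_apply_eq] at h2
  rw [Matrix.mul_apply, Fin.sum_univ_two, Matrix.one_apply_ne (by decide)] at h3
  rw [Matrix.det_fin_two] at hd
  rw [Matrix.trace_fin_two]
  linear_combination (g.1 0 0) * hd - (g.1 1 1) * h2 + (g.1 1 0) * h3

/-- **The exponent `α` of `card_not_dvd_curve` is positive and less than `1`.** -/
theorem exponent_curve (hℓ : ℓ ≠ 2) :
    0 < (Nat.card {g : (Classic.repP ℓ hΔ).range //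
      ((g : GL (Fin 2) (ZMod ℓ)) : Matrix (Fin 2) (Fin 2) (ZMod ℓ)).trace = 0} : ℝ) /
        Nat.card (Classic.repP ℓ hΔ).range ∧
    (Nat.card {g : (Classic.repP ℓ hΔ).range //
      ((g : GL (Fin 2) (ZMod ℓ)) : Matrix (Fin 2) (Fin 2) (ZMod ℓ)).trace = 0} : ℝ) /
        Nat.card (Classic.repP ℓ hΔ).range < 1 := by
  have hℓp : ℓ.Prime := Fact.out
  have h2 : (2 : ZMod ℓ) ≠ 0 := by
    intro h
    have h3 : ((2 : ℕ) : ZMod ℓ) = 0 := by exact_mod_cast h
    have h4 := (ZMod.natCast_eq_zero_iff 2 ℓ).mp h3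
    exact hℓ ((Nat.prime_dvd_prime_iff_eq hℓp Nat.prime_two).mp h4)
  have hG : (0 : ℝ) < Nat.card (Classic.repP ℓ hΔ).range := by exact_mod_cast Nat.card_pos
  obtain ⟨c, hc, -, hcd⟩ := Classic.exists_conj (p := ℓ) hΔ
  have h3 : ((Classic.repP ℓ hΔ c : GL (Fin 2) (ZMod ℓ)) :
      Matrix (Fin 2) (Fin 2) (ZMod ℓ)).trace = 0 :=
    trace_eq_zero_of_sq (by rw [← map_mul, hc, map_one]) hcd
  constructor
  · have : Nonempty {g : (Classic.repP ℓ hΔ).range //
      ((g : GL (Fin 2) (ZMod ℓ)) : Matrix (Fin 2) (Fin 2) (ZMod ℓ)).trace = 0} :=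
      ⟨⟨⟨_, c, rfl⟩, h3⟩⟩
    have h4 : (0 : ℝ) < Nat.card {g : (Classic.repP ℓ hΔ).range //
      ((g : GL (Fin 2) (ZMod ℓ)) : Matrix (Fin 2) (Fin 2) (ZMod ℓ)).trace = 0} := by
      exact_mod_cast Nat.card_pos
    exact div_pos h4 hG
  · rw [div_lt_one hG, Nat.cast_lt]
    refine lt_of_le_of_ne (Nat.card_le_card_of_injective _ Subtype.val_injective) fun h => ?_
    have h4 := (Nat.bijective_iff_injective_and_card (Subtype.val :
      {g : (Classic.repP ℓ hΔ).range // ((g : GL (Fin 2) (ZMod ℓ)) :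
        Matrix (Fin 2) (Fin 2) (ZMod ℓ)).trace = 0} → (Classic.repP ℓ hΔ).range)).mpr
      ⟨Subtype.val_injective, h⟩
    obtain ⟨g, hg⟩ := h4.2 1
    have h5 := g.2
    rw [hg] at h5
    have h6 : ((1 : GL (Fin 2) (ZMod ℓ)) : Matrix (Fin 2) (Fin 2) (ZMod ℓ)).trace = 0 := h5
    rw [Units.val_one, Matrix.trace_one] at h6
    exact h2 (by simpa using h6)

end Curve

end Fermat.Agent.Cor.Div

end
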